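import Fermat.Agent.HopfOrder.RatStruct

/-!
# Orthonormal rational bases
-/

set_option autoImplicit false
set_option linter.unusedSectionVars false

open ModularCurve AlgebraicCurve Module HahnSeries
open Fermat.Agent.GaussVal

namespace Fermat.Agent.HopfOrder

section Comap

variable {K₀ K : Type*} [Field K₀] [Field K] (φ : K₀ →+* K) (A : ValuationSubring K)

/-- map on valuation rings -/
def comapHom : A.comap φ →+* A where
  toFun x := ⟨φ x, x.2⟩
  map_one' := Subtype.ext (map_one φ)
  map_mul' x y := Subtype.ext (map_mul φ (x : K₀) (y : K₀))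
  map_zero' := Subtype.ext (map_zero φ)
  map_add' x y := Subtype.ext (map_add φ (x : K₀) (y : K₀))

instance isLocalHom_comapHom : IsLocalHom (comapHom φ A) where
  map_nonunit x hx := by
    obtain ⟨y, hy⟩ := hx.exists_right_inv
    have h1 : φ x * (y : K) = 1 := congrArg (fun z : A => (z : K)) hy
    have h2 : (y : K) = φ ((x : K₀)⁻¹) := by
      rw [map_inv₀]
      exact eq_inv_of_mul_eq_one_right h1
    have hx0 : (x : K₀) ≠ 0 := by
      intro h
      rw [h, map_zero, zero_mul] at h1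
      exact zero_ne_one h1
    have h3 : (x : K₀)⁻¹ ∈ A.comap φ := by
      rw [ValuationSubring.mem_comap, ← h2]
      exact y.2
    exact IsUnit.of_mul_eq_one (⟨_, h3⟩ : A.comap φ) (Subtype.ext (mul_inv_cancel₀ hx0))

/-- map on residue fields -/
noncomputable def resMap : IsLocalRing.ResidueField (A.comap φ) →+* IsLocalRing.ResidueField A :=
  IsLocalRing.ResidueField.map (comapHom φ A)

lemma incl_comap (Y : LaurentSeries (A.comap φ)) :
    incl A (coeffMap (comapHom φ A) Y) = coeffMap φ (incl (A.comap φ) Y) := by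
  ext n; rfl

lemma redS_comap (Y : LaurentSeries (A.comap φ)) :
    redS A (coeffMap (comapHom φ A) Y) = coeffMap (resMap φ A) (redS (A.comap φ) Y) := by
  ext n; rfl

lemma coeffMap_injective {R S : Type*} [CommRing R] [CommRing S] (f : R →+* S)
    (hf : Function.Injective f) : Function.Injective (coeffMap f) := by
  intro x y h
  ext n
  apply hf
  exact congrArg (fun z : LaurentSeries S => z.coeff n) h

/-- compatibility of Gauss reductions with extension of the base field. -/
theorem gaussRed_comap {y : LaurentSeries K₀} (hy : y ∈ gaussSubring (A.comap φ)) :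
    ∃ h : coeffMap φ y ∈ gaussSubring A,
      gaussRed A ⟨_, h⟩ = coeffMap (resMap φ A) (gaussRed (A.comap φ) ⟨y, hy⟩) := by
  obtain ⟨Y₁, Y₂, hY, hy'⟩ := hy
  have h1 : redS A (coeffMap (comapHom φ A) Y₂) ≠ 0 := by
    rw [redS_comap]
    intro h
    exact hY (coeffMap_injective _ (resMap φ A).injective (by rw [h, map_zero]))
  have h2 : coeffMap φ y * incl A (coeffMap (comapHom φ A) Y₂) =
      incl A (coeffMap (comapHom φ A) Y₁) := by
    rw [incl_comap, incl_comap, ← map_mul, hy']
  have h3 : coeffMap φ y ∈ gaussSubring A := ⟨_, _, h1, h2⟩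
  refine ⟨h3, ?_⟩
  rw [gaussRed_eq (y := ⟨_, h3⟩) h1 h2, redS_comap, redS_comap, ← map_div₀]
  congr 1
  exact (gaussRed_eq (y := ⟨y, ⟨Y₁, Y₂, hY, hy'⟩⟩) hY hy').symm

end Comap

section Basis

variable {F₀ : IntermediateField ℚ (LaurentSeries ℚ)}

local notation "Ω" => AlgebraicClosure ℚ

/-- embedding of the rational field -/
noncomputable def embQ (F₀ : IntermediateField ℚ (LaurentSeries ℚ)) :
    F₀ →+* laurentBaseChange Ω F₀ :=
  ((coeffEmb Ω).comp F₀.subtype).codRestrict (laurentBaseChange Ω F₀).toSubfield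
    (fun x => coeffEmb_mem_laurentBaseChange Ω x.2)

lemma coe_embQ (x : F₀) : (embQ F₀ x : LaurentSeries Ω) = coeffEmb Ω x := rfl

lemma embQ_fixed (x : F₀) (σ : Ω ≃ₐ[ℚ] Ω) : arithmeticGalois F₀ σ • embQ F₀ x = embQ F₀ x :=
  Subtype.ext (coeffMap_coeffEmb σ (x : LaurentSeries ℚ))

lemma exists_embQ_of_fixed {f : laurentBaseChange Ω F₀}
    (hf : ∀ σ : Ω ≃ₐ[ℚ] Ω, arithmeticGalois F₀ σ • f = f) : ∃ g : F₀, embQ F₀ g = f := by
  obtain ⟨g, hg⟩ := exists_of_fixed hf
  exact ⟨g, Subtype.ext hg⟩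

lemma embQ_smul (r : ℚ) (x : F₀) :
    embQ F₀ (r • x) = (algebraMap ℚ Ω r) • embQ F₀ x := by
  apply Subtype.ext
  rw [coe_embQ, coe_smul_eq, map_mul, coeffEmb_algebraMap, Algebra.smul_def, MulMemClass.coe_mul]
  rfl

/-- Independent rational elements are independent. -/
lemma linearIndependent_embQ {ι : Type*} {w : ι → F₀} (hw : LinearIndependent ℚ w) :
    LinearIndependent Ω (fun i => embQ F₀ (w i)) := by
  classical
  rw [linearIndependent_iff_finset_linearIndependent] at hw ⊢
  intro s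
  rw [Fintype.linearIndependent_iff]
  intro c hc
  refine linInd_ext (κ₀ := ℚ) (κ := Ω) (X := ℤ) (ι := s)
    (fun j n => (w j : LaurentSeries ℚ).coeff n) (fun a ha => ?_) c (fun n => ?_)
  · apply Fintype.linearIndependent_iff.mp (hw s) a
    apply Subtype.ext
    rw [coe_sum_eq]
    apply HahnSeries.ext
    funext n
    rw [HahnSeries.coeff_sum]
    refine Eq.trans ?_ (ha n)
    refine Finset.sum_congr rfl fun i _ => ?_
    rw [Function.comp_apply, coe_smul_eq, coeff_algebraMap_mul]
  · have h1 := congrArg (fun z : laurentBaseChange Ω F₀ => (z : LaurentSeries Ω).coeff n) hc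
    simp only [AddSubmonoidClass.coe_finsetSum, HahnSeries.coeff_sum, ZeroMemClass.coe_zero,
      HahnSeries.coeff_zero] at h1
    rw [← h1]
    refine Finset.sum_congr rfl fun i _ => ?_
    rw [Algebra.smul_def, MulMemClass.coe_mul]
    exact (coeff_algebraMap_mul (c i) (coeffEmb Ω (w i : F₀)) n).symm

/-- the rational part of a subspace -/
def ratPart (V : Submodule Ω (laurentBaseChange Ω F₀)) : Submodule ℚ F₀ where
  carrier := {x | embQ F₀ x ∈ V}
  add_mem' hx hy := by
    rw [Set.mem_ofPred_eq, map_add]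
    exact V.add_mem hx hy
  zero_mem' := by
    rw [Set.mem_ofPred_eq, map_zero]
    exact V.zero_mem
  smul_mem' r x hx := by
    rw [Set.mem_ofPred_eq, embQ_smul]
    exact V.smul_mem _ hx

lemma mem_ratPart {V : Submodule Ω (laurentBaseChange Ω F₀)} {x : F₀} :
    x ∈ ratPart V ↔ embQ F₀ x ∈ V := Iff.rfl

variable (V : Submodule Ω (laurentBaseChange Ω F₀)) [FiniteDimensional Ω V]

lemma finiteDimensional_ratPart : FiniteDimensional ℚ (ratPart V) := by
  let B := Basis.ofVectorSpace ℚ (ratPart V)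
  have h1 : LinearIndependent ℚ (fun i => ((B i : ratPart V) : F₀)) :=
    B.linearIndependent.map' (ratPart V).subtype (Submodule.ker_subtype _)
  have h2 := linearIndependent_embQ h1
  let w : Basis.ofVectorSpaceIndex ℚ (ratPart V) → V := fun i => ⟨embQ F₀ (B i), (B i).2⟩
  have h3 : LinearIndependent Ω w := by
    apply LinearIndependent.of_comp V.subtype
    exact h2
  have := h3.finite
  exact Module.Finite.of_basis B

lemma finrank_ratPart (hV : Submodule.span Ω {f | f ∈ V ∧
      ∀ σ : Ω ≃ₐ[ℚ] Ω, arithmeticGalois F₀ σ • f = f} = V) :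
    finrank ℚ (ratPart V) = finrank Ω V := by
  have := finiteDimensional_ratPart V
  let B := Module.finBasis ℚ (ratPart V)
  have h1 : LinearIndependent ℚ (fun i => ((B i : ratPart V) : F₀)) :=
    B.linearIndependent.map' (ratPart V).subtype (Submodule.ker_subtype _)
  have h2 := linearIndependent_embQ h1
  have h3 : Submodule.span Ω (Set.range fun i => embQ F₀ ((B i : ratPart V) : F₀)) = V := by
    apply le_antisymm
    · rw [Submodule.span_le]
      rintro _ ⟨i, rfl⟩
      exact (B i).2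
    · conv_lhs => rw [← hV]
      rw [Submodule.span_le]
      rintro f ⟨hfV, hf⟩
      obtain ⟨g, rfl⟩ := exists_embQ_of_fixed hf
      have h4 := B.sum_repr ⟨g, hfV⟩
      have h5 : g = ∑ i, (B.repr ⟨g, hfV⟩ i) • ((B i : ratPart V) : F₀) := by
        have h6 := congrArg (ratPart V).subtype h4
        rw [_root_.map_sum] at h6
        exact h6.symm.trans (Finset.sum_congr rfl fun i _ => map_smul _ _ _)
      have h7 : embQ F₀ g = ∑ i, (algebraMap ℚ Ω (B.repr ⟨g, hfV⟩ i)) •
          embQ F₀ ((B i : ratPart V) : F₀) := by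
        conv_lhs => rw [h5]
        rw [_root_.map_sum]
        exact Finset.sum_congr rfl fun i _ => embQ_smul _ _
      rw [SetLike.mem_coe, h7]
      exact Submodule.sum_mem _ fun i _ =>
        Submodule.smul_mem _ _ (Submodule.subset_span ⟨i, rfl⟩)
  have h8 := finrank_span_eq_card h2
  rw [h3, Fintype.card_fin] at h8
  exact h8.symm

variable {ℓ : ℕ} {A : ValuationSubring Ω}

lemma comap_liesOver (hA : A.LiesOverPrime ℓ) :
    (A.comap (algebraMap ℚ Ω)).LiesOverPrime ℓ := by
  have h1 : (ℓ : Ω) ∈ A.nonunits := hA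
  change (ℓ : ℚ) ∈ (A.comap (algebraMap ℚ Ω)).nonunits
  rw [ValuationSubring.mem_nonunits_iff_exists_mem_maximalIdeal] at h1 ⊢
  obtain ⟨h2, h3⟩ := h1
  have h4 : (ℓ : ℚ) ∈ A.comap (algebraMap ℚ Ω) := by
    rw [ValuationSubring.mem_comap, map_natCast]
    exact h2
  refine ⟨h4, fun hu => h3 ?_⟩
  have h5 := hu.map (comapHom (algebraMap ℚ Ω) A)
  convert h5 using 1
  exact Subtype.ext (map_natCast (algebraMap ℚ Ω) ℓ).symm

/-- **Orthonormal rational bases.** -/
theorem exists_rational_basis (hℓ : ℓ.Prime) (hA : A.LiesOverPrime ℓ)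
    (hF₀ : ∀ x : F₀, (x : LaurentSeries ℚ) ∈ intField ℚ)
    (hV : Submodule.span Ω {f | f ∈ V ∧
      ∀ σ : Ω ≃ₐ[ℚ] Ω, arithmeticGalois F₀ σ • f = f} = V) :
    ∃ (b : Fin (finrank Ω V) → F₀) (hb : ∀ i, coeffEmb Ω (b i) ∈ gaussSubring A),
      (∀ i, embQ F₀ (b i) ∈ V) ∧
      ∀ g : Fin (finrank Ω V) → IsLocalRing.ResidueField A,
        (∀ n, ∑ i, g i * (gaussRed A ⟨_, hb i⟩).coeff n = 0) → ∀ i, g i = 0 := by
  have := finiteDimensional_ratPart V
  have hfr := finrank_ratPart V hV
  let A₀ := A.comap (algebraMap ℚ Ω)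
  have hA₀ : A₀.LiesOverPrime ℓ := comap_liesOver hA
  let ι : F₀ →ₐ[ℚ] LaurentSeries ℚ :=
    { F₀.subtype with
      commutes' := fun r => (eq_ratCast (F₀.subtype.comp (algebraMap ℚ F₀)) r).trans
        (eq_ratCast (algebraMap ℚ (LaurentSeries ℚ)) r).symm }
  have hF : ∀ x : F₀, ι x ∈ intField ℚ := hF₀
  obtain ⟨B, hB, hli⟩ := ortho (K := ℚ) hℓ hA₀ (ι := ι) hF (ratPart V)
  let e : Fin (finrank Ω V) ≃ Fin (finrank ℚ (ratPart V)) := finCongr hfr.symm
  have hB' : ∀ i, ((B (e i) : ratPart V) : LaurentSeries ℚ) ∈ gaussSubring A₀ := fun i => hB (e i)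
  choose hc hc' using fun i => gaussRed_comap (algebraMap ℚ Ω) A (hB' i)
  refine ⟨fun i => (B (e i) : ratPart V), hc, fun i => (B (e i)).2, ?_⟩
  intro g hg
  let _ : Algebra (IsLocalRing.ResidueField A₀) (IsLocalRing.ResidueField A) :=
    (resMap (algebraMap ℚ Ω) A).toAlgebra
  refine linInd_ext (κ₀ := IsLocalRing.ResidueField A₀) (κ := IsLocalRing.ResidueField A)
    (X := ℤ) (fun i n => (gaussRed A₀ ⟨_, hB' i⟩).coeff n) (fun c hcc => ?_) g (fun n => ?_)
  · have h1 := hli (fun i => c (e.symm i)) (by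
      apply HahnSeries.ext
      funext n
      rw [HahnSeries.coeff_sum, HahnSeries.coeff_zero, ← e.sum_comp, ← hcc n]
      refine Finset.sum_congr rfl fun i _ => ?_
      rw [coeff_algebraMap_mul, e.symm_apply_apply]
      rfl)
    intro i
    have := h1 (e i)
    rwa [e.symm_apply_apply] at this
  · rw [← hg n]
    refine Finset.sum_congr rfl fun i _ => ?_
    congr 1
    exact (congrArg (fun z : LaurentSeries (IsLocalRing.ResidueField A) => z.coeff n)
      (hc' i)).symm

end Basis

end Fermat.Agent.HopfOrder
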