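import Fermat.Agent.HopfOrder.Output
import Fermat.Agent.HopfOrder.RatBasis
import Fermat.Agent.MW.Cusp
import Fermat.Agent.S37aux.Level
import Fermat.Agent.LatticeFlat.Roots

/-!
# The modular instance
-/

set_option autoImplicit false
set_option linter.unusedSectionVars false

noncomputable section

open ModularCurve HahnSeries AlgebraicCurve Module Fermat.Agent.GaussVal Fermat.Agent.Deuring
open Fermat.Agent.FF Fermat.Agent.RR Fermat.Agent.S37aux Fermat.Agent.FlatGS
  Fermat.Agent.LatticeFlat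
open scoped IntermediateField Fermat.Agent.GaussVal TensorProduct

namespace Fermat.Agent.HopfOrder

section Gen

variable {K F k F' : Type*} [Field K] [Field F] [Algebra K F] [Field k] [Field F'] [Algebra k F']
  [IsFF K F] [IsFF k F'] [IsAlgClosed K] [IsAlgClosed k]

/-- An effective divisor of degree `1` is a place. -/
theorem exists_place_of_degree_one {E : Divisor k F'} (hE : 0 ≤ E)
    (hd : Divisor.degree E = 1) : ∃ w : Place k F', E = Finsupp.single w 1 := by
  classical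
  obtain ⟨w, hw⟩ : ∃ w, E w ≠ 0 := by
    by_contra hcon
    push Not at hcon
    have : E = 0 := by ext v; exact hcon v
    rw [this, map_zero] at hd
    exact zero_ne_one hd
  refine ⟨w, ?_⟩
  obtain ⟨E', hE'⟩ : ∃ E' : Divisor k F', E' = E - Finsupp.single w 1 := ⟨_, rfl⟩
  have h1 : 0 ≤ E' := by
    intro v
    rw [hE', Finsupp.coe_zero, Pi.zero_apply, Finsupp.sub_apply, Finsupp.single_apply]
    have := hE v
    have h2 := hE w
    simp only [Finsupp.coe_zero, Pi.zero_apply] at this h2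
    split_ifs with h
    · subst h; omega
    · omega
  have h2 : Divisor.degree E' = 0 := by
    rw [hE', map_sub, hd, degree_single_one, sub_self]
  rw [← sub_eq_zero, ← hE']
  -- an effective divisor of degree `0` is `0`
  by_contra hne
  obtain ⟨v, hv⟩ : ∃ v, E' v ≠ 0 := by
    by_contra hcon
    push Not at hcon
    exact hne (Finsupp.ext hcon)
  have h3 : (0 : Divisor k F') ≤ E' - Finsupp.single v 1 := by
    intro u
    rw [Finsupp.coe_zero, Pi.zero_apply, Finsupp.sub_apply, Finsupp.single_apply]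
    have := h1 u
    have h4 := h1 v
    simp only [Finsupp.coe_zero, Pi.zero_apply] at this h4
    split_ifs with h
    · subst h; omega
    · omega
  have h4 := degree_nonneg h3
  rw [map_sub, h2, degree_single_one] at h4
  omega

omit [IsFF K F] [IsAlgClosed K] in
lemma coord_fixed (g : SemilinearAut K F) {d : ℕ} (e : Fin d → F) (he : ∀ i, g • e i = e i)
    (hli : LinearIndependent K e) (c : Fin d → K)
    (hc : g • (∑ i, c i • e i) = ∑ i, c i • e i) (i : Fin d) :
    SemilinearAut.baseAut g (c i) = c i := by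
  have h2 : ∀ i, g • (c i • e i) = SemilinearAut.baseAut g (c i) • e i := by
    intro i
    rw [Algebra.smul_def, smul_mul', SemilinearAut.smul_algebraMap, he i, ← Algebra.smul_def]
  rw [Finset.smul_sum] at hc
  simp only [h2] at hc
  have h3 := Fintype.linearIndependent_iff.mp hli (fun i => SemilinearAut.baseAut g (c i) - c i) (by
    simp only [sub_smul, Finset.sum_sub_distrib]
    rw [hc, sub_self]) i
  exact sub_eq_zero.mp h3

variable {G : GaussData K F k F'}

/-- A family of divisors in general position. -/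
structure GenData (Rd : RedMap G) (w : Place k F') (M : Type*) [AddCommGroup M] where
  D : M → Divisor K F
  nonneg : ∀ x, 0 ≤ D x
  deg : ∀ x, Divisor.degree (D x) = genusFF K F
  inj : Function.Injective D
  ell_red : ∀ x, ell (Rd.r (D x)) ≤ 1
  red_w : ∀ x, Rd.r (D x) w = 0
  tr : ∀ y, ∃ E1 E2 : Divisor K F, (0 ≤ E1 ∧ Rd.r E1 w = 0) ∧ (0 ≤ E2 ∧ Rd.r E2 w = 0) ∧
    (∀ x, ∃ h : F, h ≠ 0 ∧ D x + E1 = E2 + D (x + y) + div h) ∧
    ∀ x v, (Rd.r E1 v = 0 ∨ Rd.r (D x) v = 0) ∧ (Rd.r E2 v = 0 ∨ Rd.r (D x) v = 0)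

variable {P0 : Place K F}
variable {R : Type*} [CommRing R] [Algebra R K] [Algebra R k] [Algebra R F] [IsScalarTower R K F]
  [Algebra R G.A] [IsScalarTower R G.A K] [Algebra R F'] [IsScalarTower R k F']

/-- conversion -/
def GenData.toGenPos {S : Setup G P0 R} {M : Type*} [AddCommGroup M] (Q : GenData S.Rd S.w M) :
    GenPos S M where
  D := Q.D
  nonneg := Q.nonneg
  deg := Q.deg
  inj := Q.inj
  ell_red := Q.ell_red
  red_w := Q.red_w
  tr y := by
    obtain ⟨E1, E2, h1, h2, h3, h4⟩ := Q.tr y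
    exact ⟨E1, E2, ⟨h1.1, h1.2⟩, ⟨h2.1, h2.2⟩, h3, h4⟩

end Gen

section Arith

variable {ℓ : ℕ} {A : ValuationSubring Om}

/-- The map `ℤ_(ℓ) → A`. -/
def RpToA (hA : A.LiesOverPrime ℓ) : Rp ℓ →+* A :=
  ((algebraMap ℚ Om).comp (Rp ℓ).subtype).codRestrict A.toSubring
    (fun r => algebraMap_mem_of_mem_Rp hA r.2)

lemma coe_RpToA (hA : A.LiesOverPrime ℓ) (r : Rp ℓ) :
    ((RpToA hA r : A) : Om) = algebraMap (Rp ℓ) Om r := rfl

lemma isUnit_Rp (hℓ : ℓ.Prime) (hA : A.LiesOverPrime ℓ) {r : Rp ℓ}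
    (h : (RpToA hA r : Om) ∉ A.nonunits) : IsUnit r := by
  have h0 : (r : ℚ) ≠ 0 := by
    intro h0
    apply h
    have : r = 0 := Subtype.ext h0
    rw [this, map_zero]
    rw [ValuationSubring.mem_nonunits_iff]
    simp
  have h1 : algebraMap ℚ Om ((r : ℚ)⁻¹) ∈ A := by
    rw [map_inv₀]
    have h2 : ((RpToA hA r : A) : Om) ≠ 0 := by
      rw [coe_RpToA]
      exact (map_ne_zero_iff _ (algebraMap ℚ Om).injective).mpr h0
    exact (mem_nonunits_iff_inv_notMem A h2).mp h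
  have h2 := mem_Rp_of_mem hℓ hA h1
  exact IsUnit.of_mul_eq_one (⟨_, h2⟩ : Rp ℓ) (Subtype.ext (mul_inv_cancel₀ h0))

/-- Inertia invariant lifts of residue classes. -/
lemma exists_lift (hℓ : ℓ.Prime) (hA : A.LiesOverPrime ℓ) :
    ∃ lift : IsLocalRing.ResidueField A → A, (∀ a, IsLocalRing.residue A (lift a) = a) ∧
      ∀ σ ∈ A.inertiaSubgroupIn ℚ, ∀ a, σ (lift a : Om) = lift a := by
  have h : ∀ a : IsLocalRing.ResidueField A, ∃ x : A, IsLocalRing.residue A x = a ∧
      ∀ σ ∈ A.inertiaSubgroupIn ℚ, σ (x : Om) = x := by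
    intro a
    obtain ⟨⟨x, hx⟩, rfl⟩ := IsLocalRing.residue_surjective a
    by_cases hxu : x ∈ A.nonunits
    · refine ⟨0, ?_, fun σ _ => ?_⟩
      · rw [map_zero]
        symm
        rw [IsLocalRing.residue_eq_zero_iff]
        exact (ValuationSubring.mem_nonunits_iff_exists_mem_maximalIdeal.mp hxu).2
      · exact map_zero σ
    · obtain ⟨n, ζ, hn, hnp, hζ, hxζ⟩ := exists_root_of_unity hℓ hA hx hxu
      have hζA : ζ ∈ A := pow_eq_one_mem hn hζ
      refine ⟨⟨ζ, hζA⟩, ?_, fun σ hσ => ?_⟩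
      · symm
        rw [← sub_eq_zero, ← map_sub, IsLocalRing.residue_eq_zero_iff]
        exact (ValuationSubring.mem_nonunits_iff_exists_mem_maximalIdeal.mp hxζ).2
      · by_contra hne
        have h1 := inv_sub_mem_of_pow_eq_one hA hn hnp (ζ := σ ζ) (ω := ζ)
          (by rw [← map_pow, hζ, map_one]) hζ (Ne.symm hne)
        obtain ⟨-, h2⟩ := Fermat.Agent.Minkowski.sub_mem_nonunits_of_mem_inertia hσ hζA
        exact (mem_nonunits_iff_inv_notMem A (sub_ne_zero.mpr hne)).mpr h1 h2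
  choose lift h1 h2 using h
  exact ⟨lift, h1, fun σ hσ a => h2 a σ hσ⟩

/-- Restriction of an element of the inertia group. -/
def inertiaHom (σ : Om ≃ₐ[ℚ] Om) (hσ : σ ∈ A.inertiaSubgroupIn ℚ) :
    A →+* A where
  toFun x := ⟨σ x, (Fermat.Agent.Minkowski.sub_mem_nonunits_of_mem_inertia hσ x.2).1⟩
  map_one' := Subtype.ext (map_one σ)
  map_mul' x y := Subtype.ext (map_mul σ (x : Om) (y : Om))
  map_zero' := Subtype.ext (map_zero σ)
  map_add' x y := Subtype.ext (map_add σ (x : Om) (y : Om))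

end Arith

section Modular

variable {ℓ : ℕ} {A : ValuationSubring Om} (hℓ : ℓ.Prime) (hA : A.LiesOverPrime ℓ) {N : ℕ}
  [NeZero N] (h : DegC A N) [IsFF (RF A) (FC A N)] (Rd : RedMap (gauss hℓ hA N h))

lemma gauss_A : (gauss hℓ hA N h).A = A := rfl

/-- The reduction of the cusp `∞`. -/
theorem exists_w : ∃ w : Place (RF A) (FC A N),
    Rd.r (Finsupp.single (MW.cuspInf N) 1) = Finsupp.single w 1 :=
  exists_place_of_degree_one (Rd.nonneg _ (single_nonneg _))
    (by rw [Rd.degree_r, degree_single_one])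

lemma fullQ_le_intField (x : modularFunctionFieldFull N) :
    (x : LaurentSeries ℚ) ∈ intField ℚ := by
  have h1 : modularFunctionFieldFull N ≤ intField ℚ := by
    rw [modularFunctionFieldFull, IntermediateField.adjoin_le_iff]
    rintro _ ⟨d, hne, hd, rfl⟩
    rw [← ModularCurve.jqModC_rat]
    exact jqd_mem_intField d
  exact h1 x.2

lemma finiteDimensional_LL (n : ℕ) : FiniteDimensional (AlgebraicClosure ℚ)
    (LL (MW.cuspInf N) n) := inferInstance

omit [IsFF (RF A) (FC A N)] in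
include hℓ hA in
lemma exists_rational_basis_LL (n : ℕ) :
    ∃ (b : Fin (finrank Om (LL (MW.cuspInf N) n)) → modularFunctionFieldFull N)
      (hb : ∀ i, coeffEmb Om (b i) ∈ gaussSubring A),
      (∀ i, embQ (modularFunctionFieldFull N) (b i) ∈ LL (MW.cuspInf N) n) ∧
      ∀ g : Fin (finrank Om (LL (MW.cuspInf N) n)) → IsLocalRing.ResidueField A,
        (∀ n, ∑ i, g i * (gaussRed A ⟨_, hb i⟩).coeff n = 0) → ∀ i, g i = 0 :=
  @exists_rational_basis (modularFunctionFieldFull N) (LL (MW.cuspInf N) n)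
    (finiteDimensional_LL n) ℓ A hℓ hA fullQ_le_intField (MW.span_fixed_cuspInf N n)

omit [IsFF (RF A) (FC A N)] in
lemma coe_ρ_embQ {x : modularFunctionFieldFull N}
    (hx : embQ (modularFunctionFieldFull N) x ∈ (gauss hℓ hA N h).O)
    (hx' : coeffEmb Om x ∈ gaussSubring A) :
    (((gauss hℓ hA N h).ρ ⟨embQ (modularFunctionFieldFull N) x, hx⟩ : FC A N) :
      LaurentSeries (RF A)) = gaussRed A ⟨coeffEmb Om x, hx'⟩ :=
  coe_gauss_ρ (hℓ := hℓ) (hA := hA) (h := h) (x := embQ (modularFunctionFieldFull N) x) hx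

omit [IsFF (RF A) (FC A N)] in
lemma linearIndependent_of_coeff {d : ℕ} {y : Fin d → FC A N}
    (hli : ∀ g : Fin d → RF A,
        (∀ n, ∑ i, g i * ((y i : FC A N) : LaurentSeries (RF A)).coeff n = 0) → ∀ i, g i = 0) :
    LinearIndependent (RF A) y := by
  rw [Fintype.linearIndependent_iff]
  intro g hg
  apply hli g
  intro m
  have h1 := congrArg (fun z : FC A N => (z : LaurentSeries (RF A)).coeff m) hg
  have h2 : ((∑ i, g i • y i : FC A N) : LaurentSeries (RF A)) =
      ∑ i, algebraMap (RF A) (LaurentSeries (RF A)) (g i) * (y i : LaurentSeries (RF A)) := by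
    refine (AddSubmonoidClass.coe_finsetSum _ _).trans ?_
    refine Finset.sum_congr rfl fun i _ => ?_
    rw [Algebra.smul_def, MulMemClass.coe_mul]
    rfl
  have h3 := (congrArg (fun z : LaurentSeries (RF A) => z.coeff m) h2).symm.trans h1
  refine Eq.trans ?_ h3
  rw [HahnSeries.coeff_sum]
  exact Finset.sum_congr rfl fun i _ => (coeff_algebraMap_mul _ _ _).symm

omit [IsFF (RF A) (FC A N)] in
lemma rational_li {d : ℕ} {b : Fin d → modularFunctionFieldFull N}
    (hb : ∀ i, coeffEmb Om (b i) ∈ gaussSubring A)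
    (hb' : ∀ i, embQ (modularFunctionFieldFull N) (b i) ∈ (gauss hℓ hA N h).O)
    (hli : ∀ g : Fin d → IsLocalRing.ResidueField A,
        (∀ n, ∑ i, g i * (gaussRed A ⟨_, hb i⟩).coeff n = 0) → ∀ i, g i = 0) :
    LinearIndependent (RF A) (fun i => (gauss hℓ hA N h).ρ
      ⟨embQ (modularFunctionFieldFull N) (b i), hb' i⟩) := by
  apply linearIndependent_of_coeff
  intro g hg
  apply hli g
  intro m
  rw [← hg m]
  refine Finset.sum_congr rfl fun i _ => ?_
  rw [coe_ρ_embQ hℓ hA h (hb' i) (hb i)]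

omit [IsFF (RF A) (FC A N)] in
lemma ratModel_basis (n : ℕ) : ∃ (b : Fin (finrank (AlgebraicClosure ℚ) (LL (MW.cuspInf N) n)) →
      modularFunctionFieldBar N) (hb : ∀ i, b i ∈ (gauss hℓ hA N h).O),
      (∀ i, ∀ σ : AlgebraicClosure ℚ ≃ₐ[ℚ] AlgebraicClosure ℚ,
        arithmeticGalois (modularFunctionFieldFull N) σ • b i = b i) ∧
      (∀ i, b i ∈ LL (MW.cuspInf N) n) ∧
      LinearIndependent (RF A) (fun i => (gauss hℓ hA N h).ρ ⟨b i, hb i⟩) := by
  have key := exists_rational_basis_LL hℓ hA n (N := N)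
  obtain ⟨b, key⟩ := key
  obtain ⟨hb, key⟩ := key
  obtain ⟨hbV, hli⟩ := key
  have hb' : ∀ i, embQ (modularFunctionFieldFull N) (b i) ∈ (gauss hℓ hA N h).O :=
    fun i => mem_gauss_O.mpr (hb i)
  exact ⟨fun i => embQ (modularFunctionFieldFull N) (b i), hb',
    fun i => embQ_fixed (b i), hbV, rational_li hℓ hA h hb hb' hli⟩

/-- the rational structure -/
theorem exists_ratModel [Algebra (Rp ℓ) (RF A)] [Algebra (Rp ℓ) (modularFunctionFieldBar N)]
    [IsScalarTower (Rp ℓ) Om (modularFunctionFieldBar N)]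
    (hres : ∀ r : Rp ℓ, algebraMap (Rp ℓ) (RF A) r = IsLocalRing.residue A (RpToA hA r)) :
    ∃ 𝓡 : RatModel (gauss hℓ hA N h) (MW.cuspInf N) (Rp ℓ), ∀ f ∈ 𝓡.FQ,
      ∀ σ : Om ≃ₐ[ℚ] Om, arithmeticGalois (modularFunctionFieldFull N) σ • f = f := by
  have hbase : ∀ (σ : Om ≃ₐ[ℚ] Om) (c : Om), SemilinearAut.baseAut
      (arithmeticGalois (modularFunctionFieldFull N) σ) c = σ c := fun σ c => rfl
  let FQ : Subalgebra (Rp ℓ) (modularFunctionFieldBar N) :=
    { carrier := {f | ∀ σ : Om ≃ₐ[ℚ] Om, arithmeticGalois (modularFunctionFieldFull N) σ • f = f}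
      mul_mem' := fun ha hb σ => by rw [smul_mul', ha σ, hb σ]
      add_mem' := fun ha hb σ => by rw [smul_add, ha σ, hb σ]
      algebraMap_mem' := fun r σ => by
        rw [IsScalarTower.algebraMap_apply (Rp ℓ) Om (modularFunctionFieldBar N),
          SemilinearAut.smul_algebraMap, hbase]
        congr 1
        exact σ.commutes (r : ℚ) }
  have hmemFQ : ∀ f, f ∈ FQ ↔ ∀ σ : Om ≃ₐ[ℚ] Om,
      arithmeticGalois (modularFunctionFieldFull N) σ • f = f := fun f => Iff.rfl
  refine ⟨{ FQ := FQ, A_mem := fun r => (RpToA hA r).2, res_eq := fun r => (hres r).symm,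
            inj := ?_, local_ := ?_, coord := ?_, basis := ?_ }, fun f hf => hf⟩
  · intro x y hxy
    exact Subtype.ext ((algebraMap ℚ Om).injective hxy)
  · intro r hr
    apply isUnit_Rp hℓ hA
    intro hn
    apply hr
    rw [hres, IsLocalRing.residue_eq_zero_iff]
    exact (ValuationSubring.mem_nonunits_iff_exists_mem_maximalIdeal.mp hn).2
  · intro d e he hli c hc hcA i
    have hσ : ∀ σ : Om ≃ₐ[ℚ] Om, σ (c i) = c i := fun σ =>
      coord_fixed (arithmeticGalois (modularFunctionFieldFull N) σ) e (fun j => he j σ) hli c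
        (hc σ) i
    obtain ⟨r, hr⟩ := exists_rat_of_fixed hσ
    exact ⟨⟨r, mem_Rp_of_mem hℓ hA (by rw [hr]; exact hcA i)⟩, hr⟩
  · exact fun n => ratModel_basis hℓ hA h n

/-- **The setup, modular instance** (with all the instances bundled). -/
theorem exists_setup_modular :
    ∃ (_ : Algebra (Rp ℓ) (gauss hℓ hA N h).A) (_ : Algebra (Rp ℓ) (RF A))
      (_ : Algebra (Rp ℓ) (modularFunctionFieldBar N)) (_ : Algebra (Rp ℓ) (FC A N))
      (_ : IsScalarTower (Rp ℓ) Om (modularFunctionFieldBar N))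
      (_ : IsScalarTower (Rp ℓ) (gauss hℓ hA N h).A Om)
      (_ : IsScalarTower (Rp ℓ) (RF A) (FC A N)),
      ∃ S : Setup (gauss hℓ hA N h) (MW.cuspInf N) (Rp ℓ), S.Rd = Rd ∧
        ∀ (b : S.B) (σ : Om ≃ₐ[ℚ] Om),
          arithmeticGalois (modularFunctionFieldFull N) σ • (b : modularFunctionFieldBar N) = b := by
  let i1 : Algebra (Rp ℓ) (gauss hℓ hA N h).A := (RpToA hA).toAlgebra
  let i2 : Algebra (Rp ℓ) (RF A) := ((IsLocalRing.residue A).comp (RpToA hA)).toAlgebra
  let i3 : Algebra (Rp ℓ) (modularFunctionFieldBar N) :=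
    ((algebraMap Om (modularFunctionFieldBar N)).comp (algebraMap (Rp ℓ) Om)).toAlgebra
  let i4 : Algebra (Rp ℓ) (FC A N) :=
    ((algebraMap (RF A) (FC A N)).comp (algebraMap (Rp ℓ) (RF A))).toAlgebra
  have t1 : IsScalarTower (Rp ℓ) (gauss hℓ hA N h).A Om :=
    IsScalarTower.of_algebraMap_eq fun r => rfl
  have t2 : IsScalarTower (Rp ℓ) Om (modularFunctionFieldBar N) :=
    IsScalarTower.of_algebraMap_eq fun r => rfl
  have t3 : IsScalarTower (Rp ℓ) (RF A) (FC A N) := IsScalarTower.of_algebraMap_eq fun r => rfl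
  obtain ⟨𝓡, h𝓡⟩ := exists_ratModel hℓ hA h (fun r => rfl)
  obtain ⟨w, hw⟩ := exists_w hℓ hA h Rd
  obtain ⟨S, hS1, hS2, hS3⟩ := exists_setup 𝓡 Rd w hw
  subst hS1 hS2 hS3
  exact ⟨i1, i2, i3, i4, t2, t1, t3, S, rfl, fun b σ => h𝓡 b b.2.1 σ⟩

/-- **Main output, modular instance.** -/
theorem exists_functions_modular {w : Place (RF A) (FC A N)}
    (hw : Rd.r (Finsupp.single (MW.cuspInf N) 1) = Finsupp.single w 1)
    {M : Type} [AddCommGroup M] [Finite M] (Q : GenData Rd w M) :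
    ∃ E : Set (M → Om), E.Finite ∧
      (∀ f ∈ E, ∀ x, f x ∈ A) ∧
      (∀ σ ∈ A.inertiaSubgroupIn ℚ, ∀ x x' : M,
        Q.D x' = arithmeticGalois (modularFunctionFieldFull N) σ • Q.D x →
          ∀ f ∈ E, f x' = σ (f x)) ∧
      (∀ x x', (∀ f ∈ E, f x = f x') → x = x') ∧
      (∀ y, ∀ f ∈ E, (fun x => f (x + y)) ∈ Submodule.span A E) ∧
      1 ∈ Submodule.span A E ∧
      (∀ f ∈ E, ∀ g ∈ E, f * g ∈ Submodule.span A E) ∧
      (∀ x x', Rd.r (Q.D x) = Rd.r (Q.D x') → ∀ f ∈ E, f x - f x' ∈ A.nonunits) := by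
  let i1 : Algebra (Rp ℓ) (gauss hℓ hA N h).A := (RpToA hA).toAlgebra
  let i2 : Algebra (Rp ℓ) (RF A) := ((IsLocalRing.residue A).comp (RpToA hA)).toAlgebra
  let i3 : Algebra (Rp ℓ) (modularFunctionFieldBar N) :=
    ((algebraMap Om (modularFunctionFieldBar N)).comp (algebraMap (Rp ℓ) Om)).toAlgebra
  let i4 : Algebra (Rp ℓ) (FC A N) :=
    ((algebraMap (RF A) (FC A N)).comp (algebraMap (Rp ℓ) (RF A))).toAlgebra
  have t1 : IsScalarTower (Rp ℓ) (gauss hℓ hA N h).A Om :=
    IsScalarTower.of_algebraMap_eq fun r => rfl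
  have t2 : IsScalarTower (Rp ℓ) Om (modularFunctionFieldBar N) :=
    IsScalarTower.of_algebraMap_eq fun r => rfl
  have t3 : IsScalarTower (Rp ℓ) (RF A) (FC A N) := IsScalarTower.of_algebraMap_eq fun r => rfl
  obtain ⟨𝓡, h𝓡⟩ := exists_ratModel hℓ hA h (fun r => rfl)
  obtain ⟨S, hS1, hS2, hS3⟩ := exists_setup 𝓡 Rd w hw
  subst hS1 hS2 hS3
  obtain ⟨lift, hl, hlσ⟩ := exists_lift hℓ hA
  obtain ⟨E, hE1, hE2, hE3, hE4, hE5, hE6, hE7, hE8⟩ := Q.toGenPos.exists_functions lift hl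
  refine ⟨E, hE1, hE2, ?_, hE4, hE5, hE6, hE7, hE8⟩
  intro σ hσ x x' hx f hf
  let σA : (gauss hℓ hA N h).A →ₐ[Rp ℓ] (gauss hℓ hA N h).A :=
    { inertiaHom σ hσ with
      commutes' := fun r => Subtype.ext (σ.commutes (r : ℚ)) }
  exact hE3 (arithmeticGalois (modularFunctionFieldFull N) σ) σA (MW.smul_cuspInf N σ)
    (fun a => rfl) (fun b => h𝓡 b b.2.1 σ) (fun a => Subtype.ext (hlσ σ hσ a)) x x' hx f hf

end Modular

end Fermat.Agent.HopfOrder
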