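import Fermat.Agent.HopfOrder.PoleBasis

/-!
# An algebra with a pole basis is of finite type
-/

set_option autoImplicit false

namespace Fermat.Agent.HopfOrder

namespace PoleBasis

variable {R B : Type*} [CommRing R] [CommRing B] [Algebra R B] (P : PoleBasis R B)

include P in
theorem finiteType : Algebra.FiniteType R B := by
  classical
  have hg := P.hg
  let N := 2 * P.m0 + 2
  let G : Finset B := (Finset.range (N + 1 - P.g)).image P.b
  refine ⟨G, ?_⟩
  have hlow : ∀ x ∈ P.fil N, x ∈ Algebra.adjoin R (G : Set B) := by
    intro x hx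
    have : P.fil N ≤ Subalgebra.toSubmodule (Algebra.adjoin R (G : Set B)) := by
      rw [fil, Submodule.span_le]
      rintro _ ⟨i, hi, rfl⟩
      exact Algebra.subset_adjoin (by
        rw [Finset.coe_image]
        exact ⟨i, by simpa using hi, rfl⟩)
    exact this hx
  have key : ∀ n, ∀ x ∈ P.fil n, x ∈ Algebra.adjoin R (G : Set B) := by
    intro n
    induction n using Nat.strong_induction_on with
    | _ n ih =>
      intro x hx
      rcases le_or_gt n N with h | h
      · exact hlow x (P.fil_mono h hx)
      · let m := n - (P.m0 + 1)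
        have hm : m + (P.m0 + 1) = n := by omega
        have h1 : P.b (m - P.g) ∈ P.fil m := P.b_mem_fil (by omega)
        have h2 : P.b (P.m0 + 1 - P.g) ∈ P.fil (P.m0 + 1) := P.b_mem_fil (by omega)
        have h3 := P.mul_mem_fil (by omega) (by omega) h1 h2
        have h4 := P.lc_mul (by omega : P.m0 < m) (by omega : P.m0 < P.m0 + 1) h1 h2
        rw [hm, P.lc_b, P.lc_b, mul_one] at h4
        rw [hm] at h3
        have h5 : x - P.lc n x • (P.b (m - P.g) * P.b (P.m0 + 1 - P.g)) ∈ P.fil (n - 1) := by
          apply P.mem_fil_pred (by omega)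
          · exact sub_mem hx (Submodule.smul_mem _ _ h3)
          · rw [map_sub, map_smul, h4, smul_eq_mul, mul_one, sub_self]
        have h6 := ih (n - 1) (by omega) _ h5
        have h7 := ih m (by omega) _ h1
        have h8 := ih (P.m0 + 1) (by omega) _ h2
        have h9 := Subalgebra.add_mem _ h6 (Subalgebra.smul_mem _ (Subalgebra.mul_mem _ h7 h8)
          (P.lc n x))
        simpa using h9
  rw [eq_top_iff]
  intro x _
  obtain ⟨n, -, hn⟩ := P.exists_mem_fil x
  exact key n x hn

end PoleBasis

end Fermat.Agent.HopfOrder
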