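import Fermat.Agent.HopfOrder.Translate

/-!
# Translation stability of the algebra of coordinate functions
-/

set_option autoImplicit false

open scoped TensorProduct

namespace Fermat.Agent.HopfOrder

open PoleBasis

variable {R B : Type*} [CommRing R] [CommRing B] [Algebra R B] {P : PoleBasis R B}
variable {K : Type*} [Field K] [Algebra R K] {A : ValuationSubring K} [Algebra R A]
  [IsScalarTower R A K]
variable {k : Type*} [Field k] [Algebra R k] {π : A →ₐ[R] k}
variable {M : Type*} [AddCommGroup M]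

namespace Frame

variable (F : Frame P A π M) (hπ : Function.Surjective π)

section Local

variable [IsDedekindDomain (k ⊗[R] B)] [IsDedekindDomain (K ⊗[R] B)] [Infinite k]

include hπ in
theorem exists_local {H : Type*} [CommRing H] [Algebra R H] (ev : M → H →ₐ[R] A)
    (cst : A →ₐ[R] H) (hcst : ∀ x, (ev x).comp cst = AlgHom.id R A) (IH : Ideal (H ⊗[R] B))
    (hIH : IsRel H IH P.g) (hmap : ∀ x, IH.map (sp B (ev x)) = F.I x)
    (x0 y : M) (q : A ⊗[R] B) (j : Fin P.g) :
    ∃ h s : H, π (ev x0 s) ≠ 0 ∧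
      ∀ x, (∀ u : H, π (ev x0 u) ≠ 0 → π (ev x u) ≠ 0) →
        ev x s * F.c hπ q j (x + y) = ev x h := by
  let f0 : H →ₐ[R] k := π.comp (ev x0)
  let 𝔪 : Ideal H := RingHom.ker f0.toRingHom
  have h𝔪 : 𝔪.IsPrime := RingHom.ker_isPrime _
  have hmem : ∀ u : 𝔪.primeCompl, f0 u ≠ 0 := fun u h => u.2 h
  let T := Localization.AtPrime 𝔪
  let ι : H →ₐ[R] T := IsScalarTower.toAlgHom R H T
  let φ : T →ₐ[R] k := IsLocalization.liftAlgHom (M := 𝔪.primeCompl) (f := f0)
    (fun u => (hmem u).isUnit)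
  have hφι : φ.comp ι = f0 := by
    ext u
    exact IsLocalization.lift_eq _ u
  have hcT : φ.comp (ι.comp cst) = π := by
    rw [← AlgHom.comp_assoc, hφι, AlgHom.comp_assoc, hcst]
    rfl
  have hφ : Function.Surjective φ := by
    intro a
    obtain ⟨b, rfl⟩ := hπ a
    exact ⟨ι (cst b), congrFun (congrArg DFunLike.coe hcT) b⟩
  obtain ⟨a, ha⟩ := F.exists_translate_coord hπ φ hφ (IH.map (sp B ι))
    (hIH.baseChange P ι) (ι.comp cst) hcT x0
    (by rw [map_map_sp, hφι, ← map_map_sp, hmap]) y q j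
  obtain ⟨⟨h, s⟩, hhs⟩ := IsLocalization.surj 𝔪.primeCompl a
  refine ⟨h, s, hmem s, fun x hx => ?_⟩
  let t : T →ₐ[R] A := IsLocalization.liftAlgHom (M := 𝔪.primeCompl) (f := ev x)
    (fun u => isUnit_of_map_ne_zero π hπ (hx u (hmem u)))
  have htι : t.comp ι = ev x := by
    ext u
    exact congrArg Subtype.val (IsLocalization.lift_eq _ u)
  have h1 := ha x t (by rw [← AlgHom.comp_assoc, htι, hcst]) (by
    rw [map_map_sp, htι, hmap])
  have h2 : ∀ u, t (algebraMap H T u) = ev x u := fun u =>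
    congrFun (congrArg DFunLike.coe htι) u
  have h3 := congrArg t hhs
  rw [map_mul, h2, h2, h1] at h3
  rw [mul_comm]
  exact h3

end Local

section Points

variable [Finite M]

omit [Algebra R K] [IsScalarTower R A K] [AddCommGroup M] in
lemma exists_point (H : Subalgebra A (M → A)) (𝔪 : Ideal H) [h𝔪 : 𝔪.IsMaximal]
    (hπ : Function.Surjective π) :
    ∃ x0, ∀ u : H, u ∈ 𝔪 ↔ π ((u : M → A) x0) = 0 := by
  classical
  have := Fintype.ofFinite M
  have hint : Algebra.IsIntegral H (M → A) := by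
    have : Algebra.IsIntegral A (M → A) := Algebra.IsIntegral.of_finite A _
    exact Algebra.IsIntegral.tower_top A
  obtain ⟨Q, hQ, hQm⟩ := Ideal.exists_ideal_over_maximal_of_isIntegral (S := M → A) 𝔪 (by
    intro u hu
    have : u = 0 := Subtype.ext hu
    rw [this]; exact zero_mem _)
  have h1 : ∃ x0 : M, (Pi.single x0 1 : M → A) ∉ Q := by
    by_contra hcon
    push Not at hcon
    apply hQ.ne_top
    rw [Ideal.eq_top_iff_one]
    have : (1 : M → A) = ∑ x, Pi.single x 1 := (Finset.univ_sum_single (1 : M → A)).symm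
    rw [this]
    exact Q.sum_mem fun x _ => hcon x
  obtain ⟨x0, hx0⟩ := h1
  have h2 : ∀ f : M → A, f x0 = 0 → f ∈ Q := by
    intro f hf
    have h3 : Pi.single x0 1 * f ∈ Q := by
      have : Pi.single x0 1 * f = 0 := by
        funext x
        by_cases hx : x = x0
        · subst hx; simp [hf]
        · simp [Pi.single_eq_of_ne hx]
      rw [this]; exact zero_mem _
    exact (hQ.isPrime.mem_or_mem h3).resolve_left hx0
  have h3 : ∀ f : M → A, IsUnit (f x0) → f ∉ Q := by
    intro f hf hfQ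
    obtain ⟨v, hv⟩ := hf.exists_right_inv
    have h4 : 1 - f * (fun _ => v) ∈ Q := h2 _ (by simp [hv])
    have h5 : (1 : M → A) ∈ Q := by
      have := Q.add_mem h4 (Q.mul_mem_right (fun _ => v) hfQ)
      simpa using this
    exact hQ.ne_top ((Ideal.eq_top_iff_one Q).mpr h5)
  have hmem : ∀ u : H, u ∈ 𝔪 ↔ (u : M → A) ∈ Q := by
    intro u
    rw [← hQm]; rfl
  refine ⟨x0, fun u => ⟨fun hu => ?_, fun hu => ?_⟩⟩
  · by_contra hne
    exact h3 _ (isUnit_of_map_ne_zero π hπ hne) ((hmem u).mp hu)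
  · by_contra hne
    obtain ⟨w, hw⟩ := h𝔪.exists_inv hne
    obtain ⟨w', hw', hww⟩ := hw
    have h4 := h3 (w' : M → A) (by
      apply isUnit_of_map_ne_zero π hπ
      have h5 : (w : M → A) * u + w' = 1 := congrArg Subtype.val hww
      have h6 := congrArg π (congrFun h5 x0)
      simp only [Pi.add_apply, Pi.mul_apply, map_add, map_mul, hu, mul_zero, zero_add,
        Pi.one_apply, map_one] at h6
      rw [h6]; exact one_ne_zero)
    exact h4 ((hmem w').mp hw')

variable [IsDedekindDomain (k ⊗[R] B)] [IsDedekindDomain (K ⊗[R] B)] [Infinite k]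

/-- The conductor. -/
def conductor (H : Subalgebra A (M → A)) (f : M → A) : Ideal H where
  carrier := {u | (u : M → A) * f ∈ H}
  add_mem' {a b} ha hb := by
    have : ((a + b : H) : M → A) * f = (a : M → A) * f + (b : M → A) * f := by
      push_cast; ring
    rw [Set.mem_ofPred_eq, this]
    exact H.add_mem ha hb
  zero_mem' := by
    rw [Set.mem_ofPred_eq]
    simp
  smul_mem' a b hb := by
    have : ((a • b : H) : M → A) * f = (a : M → A) * ((b : M → A) * f) := by
      rw [smul_eq_mul]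
      push_cast; ring
    rw [Set.mem_ofPred_eq, this]
    exact H.mul_mem a.2 hb

omit [Algebra R K] [IsScalarTower R A K] [AddCommGroup M] [Finite M] in
lemma mem_conductor {H : Subalgebra A (M → A)} {f : M → A} {u : H} :
    u ∈ conductor H f ↔ (u : M → A) * f ∈ H := Iff.rfl

/-- Translation stability, on generators. -/
theorem translate_mem (y : M) (q : A ⊗[R] B) (j : Fin P.g) :
    (fun x => F.c hπ q j (x + y)) ∈ F.H hπ := by
  classical
  have := Fintype.ofFinite M
  set f : M → A := fun x => F.c hπ q j (x + y) with hf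
  suffices h : conductor (F.H hπ) f = ⊤ by
    have h1 : (1 : F.H hπ) ∈ conductor (F.H hπ) f := by rw [h]; trivial
    rw [mem_conductor] at h1
    simpa using h1
  by_contra hne
  obtain ⟨𝔪, h𝔪, hle⟩ := Ideal.exists_le_maximal _ hne
  obtain ⟨x0, hx0⟩ := exists_point (F.H hπ) 𝔪 hπ
  obtain ⟨h, s, hs, hgood⟩ := F.exists_local hπ (F.ev hπ) (F.cst hπ) (F.ev_comp_cst hπ)
    (F.IH hπ) (F.isRel_IH hπ) (F.map_IH hπ) x0 y q j
  have hbad : ∀ x, ∃ w : F.H hπ, π (F.ev hπ x0 w) ≠ 0 ∧
      ((∀ u : F.H hπ, π (F.ev hπ x0 u) ≠ 0 → π (F.ev hπ x u) ≠ 0) ∨ F.ev hπ x w = 0) := by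
    intro x
    by_cases hx : ∀ u : F.H hπ, π (F.ev hπ x0 u) ≠ 0 → π (F.ev hπ x u) ≠ 0
    · exact ⟨1, by rw [map_one, map_one]; exact one_ne_zero, Or.inl hx⟩
    · push Not at hx
      obtain ⟨u, hu0, hu⟩ := hx
      refine ⟨u - F.cst hπ (F.ev hπ x u), ?_, Or.inr ?_⟩
      · rw [map_sub, map_sub, F.ev_cst, hu, sub_zero]; exact hu0
      · rw [map_sub, F.ev_cst, sub_self]
  choose w hw0 hw using hbad
  have hmem : s * ∏ x, w x ∈ conductor (F.H hπ) f := by
    rw [mem_conductor]
    have : ((s * ∏ x, w x : F.H hπ) : M → A) * f = ((h * ∏ x, w x : F.H hπ) : M → A) := by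
      funext x
      have hprod : F.ev hπ x (∏ x, w x) = ∏ z, F.ev hπ x (w z) := map_prod _ _ _
      have e1 : ((s * ∏ x, w x : F.H hπ) : M → A) x = F.ev hπ x s * F.ev hπ x (∏ x, w x) := rfl
      have e2 : ((h * ∏ x, w x : F.H hπ) : M → A) x = F.ev hπ x h * F.ev hπ x (∏ x, w x) := rfl
      rw [Pi.mul_apply, e1, e2]
      rcases hw x with hx | hx
      · rw [← hgood x hx, hf]
        ring
      · have hz : F.ev hπ x (∏ x, w x) = 0 := by
          rw [hprod]
          exact Finset.prod_eq_zero (f := fun z => F.ev hπ x (w z)) (Finset.mem_univ x) hx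
        rw [hz]
        ring
    rw [this]
    exact (h * ∏ x, w x : F.H hπ).2
  have h1 := (hx0 _).mp (hle hmem)
  have h2 : π (F.ev hπ x0 (s * ∏ x, w x)) = π (F.ev hπ x0 s) * ∏ x, π (F.ev hπ x0 (w x)) := by
    rw [map_mul, map_mul, map_prod, map_prod]
  have h3 : π (F.ev hπ x0 (s * ∏ x, w x)) = 0 := h1
  rw [h2] at h3
  exact mul_ne_zero hs (Finset.prod_ne_zero_iff.mpr fun x _ => hw0 x) h3

/-- Translation stability. -/
theorem translate_mem' (y : M) {f : M → A} (hf : f ∈ F.H hπ) :
    (fun x => f (x + y)) ∈ F.H hπ := by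
  induction hf using Algebra.adjoin_induction with
  | mem f hf =>
    obtain ⟨q, j, rfl⟩ := hf
    exact F.translate_mem hπ y q j
  | algebraMap a => exact (F.H hπ).algebraMap_mem a
  | add f g _ _ hf hg => exact (F.H hπ).add_mem hf hg
  | mul f g _ _ hf hg => exact (F.H hπ).mul_mem hf hg

end Points

section Gen

variable (G : Set B) (hG : Algebra.adjoin R G = ⊤)

/-- A finite generating set -/
def gen : Set (M → A) := {f | ∃ j, f = F.c hπ 1 j} ∪
  {f | ∃ b ∈ G, ∃ i j, f = F.c hπ ((1 ⊗ₜ b) * F.S i) j}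

lemma finite_gen (hGf : G.Finite) : (F.gen hπ G).Finite := by
  apply Set.Finite.union
  · exact Set.Finite.subset (Set.finite_range fun j => F.c hπ 1 j) (by
      rintro f ⟨j, rfl⟩; exact ⟨j, rfl⟩)
  · have : Finite G := hGf
    refine Set.Finite.subset (Set.finite_range fun z : G × Fin P.g × Fin P.g =>
      F.c hπ ((1 ⊗ₜ (z.1 : B)) * F.S z.2.1) z.2.2) ?_
    rintro f ⟨b, hb, i, j, rfl⟩
    exact ⟨(⟨b, hb⟩, i, j), rfl⟩

include hG in
lemma adjoin_gen : Algebra.adjoin A (F.gen hπ G) = F.H hπ := by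
  apply le_antisymm
  · rw [Algebra.adjoin_le_iff]
    rintro f (⟨j, rfl⟩ | ⟨b, -, i, j, rfl⟩)
    · exact F.c_mem hπ _ _
    · exact F.c_mem hπ _ _
  · rw [H, Algebra.adjoin_le_iff]
    rintro f ⟨q, j, rfl⟩
    let N := Algebra.adjoin A (F.gen hπ G)
    change F.c hπ q j ∈ N
    have hadd : ∀ q q', (∀ j, F.c hπ q j ∈ N) → (∀ j, F.c hπ q' j ∈ N) →
        ∀ j, F.c hπ (q + q') j ∈ N := fun q q' h h' j => by
      rw [c_add]; exact N.add_mem (h j) (h' j)
    have hsmul : ∀ (a : A) q, (∀ j, F.c hπ q j ∈ N) → ∀ j, F.c hπ (a • q) j ∈ N :=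
      fun a q h j => by rw [c_smul]; exact N.smul_mem (h j) a
    have hb : ∀ b : B, ∀ q', (∀ j, F.c hπ q' j ∈ N) → ∀ j, F.c hπ ((1 ⊗ₜ b) * q') j ∈ N := by
      intro b
      have hbm : b ∈ Algebra.adjoin R G := by rw [hG]; trivial
      induction hbm using Algebra.adjoin_induction with
      | mem b hb =>
        intro q' hq' j
        rw [c_mul]
        refine N.sum_mem fun i _ => N.mul_mem (hq' i) ?_
        exact Algebra.subset_adjoin (Or.inr ⟨b, hb, i, j, rfl⟩)
      | algebraMap r =>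
        intro q' hq' j
        have : ((1 : A) ⊗ₜ[R] (algebraMap R B r)) * q' = (algebraMap R A r) • q' := by
          rw [Algebra.algebraMap_eq_smul_one, TensorProduct.tmul_smul, smul_mul_assoc,
            ← Algebra.TensorProduct.one_def, one_mul, algebraMap_smul]
        rw [this]
        exact hsmul _ _ hq' j
      | add b b' _ _ hb hb' =>
        intro q' hq' j
        rw [TensorProduct.tmul_add, add_mul]
        exact hadd _ _ (hb q' hq') (hb' q' hq') j
      | mul b b' _ _ hb hb' =>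
        intro q' hq' j
        have : ((1 : A) ⊗ₜ[R] (b * b')) * q' = (1 ⊗ₜ b) * ((1 ⊗ₜ b') * q') := by
          rw [← mul_assoc, Algebra.TensorProduct.tmul_mul_tmul, one_mul]
        rw [this]
        exact hb _ (hb' q' hq') j
    have h1 : ∀ j, F.c hπ 1 j ∈ N := fun j => Algebra.subset_adjoin (Or.inl ⟨j, rfl⟩)
    have key : ∀ q, ∀ j, F.c hπ q j ∈ N := by
      intro q
      induction q with
      | zero =>
        intro j
        have : F.c hπ (0 : A ⊗[R] B) j = 0 := by
          have := F.c_smul hπ 0 (0 : A ⊗[R] B) j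
          rwa [zero_smul, zero_smul] at this
        rw [this]; exact N.zero_mem
      | tmul a b =>
        have h2 : a ⊗ₜ[R] b = a • ((1 ⊗ₜ b) * (1 : A ⊗[R] B)) := by
          rw [mul_one, TensorProduct.smul_tmul', smul_eq_mul, mul_one]
        rw [h2]
        exact hsmul _ _ (hb b 1 h1)
      | add q q' hq hq' => exact hadd _ _ hq hq'
    exact key q j

include hG in
lemma exists_finset [Finite M] (hGf : G.Finite) : ∃ E : Finset (M → A),
    (E : Set (M → A)) ⊆ Submonoid.closure (F.gen hπ G) ∧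
    Submodule.span A (E : Set (M → A)) = Subalgebra.toSubmodule (F.H hπ) := by
  have h1 : (Subalgebra.toSubmodule (Algebra.adjoin A (F.gen hπ G))).FG :=
    fg_adjoin_of_finite (F.finite_gen hπ G hGf) (fun f _ => by
      have : Algebra.IsIntegral A (M → A) := Algebra.IsIntegral.of_finite A _
      exact Algebra.IsIntegral.isIntegral f)
  rw [Algebra.adjoin_eq_span, Submodule.fg_span_iff_fg_span_finset_subset] at h1
  obtain ⟨E, hE, hE'⟩ := h1
  refine ⟨E, hE, ?_⟩
  rw [← hE', ← Algebra.adjoin_eq_span, F.adjoin_gen hπ G hG]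

/-- Equivariance. -/
lemma equivariant (σ : A →ₐ[R] A) (x x' : M) (hx : (F.I x).map (sp B σ) = F.I x')
    (hS : ∀ i, sp B σ (F.S i) = F.S i) {f : M → A}
    (hf : f ∈ Submonoid.closure (F.gen hπ G)) : f x' = σ (f x) := by
  induction hf using Submonoid.closure_induction with
  | mem f hf =>
    rcases hf with ⟨j, rfl⟩ | ⟨b, -, i, j, rfl⟩
    · exact F.c_equivariant hπ σ x x' hx hS 1 (map_one _) j
    · exact F.c_equivariant hπ σ x x' hx hS _ (by rw [map_mul, sp_tmul, map_one, hS]) j
  | one => simp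
  | mul f g _ _ hf hg => rw [Pi.mul_apply, Pi.mul_apply, map_mul, hf, hg]

end Gen

/-- **The main theorem of this section**: existence of a finite set of functions which are
equivariant, separate points and whose span is stable under translations. -/
theorem exists_functions [Finite M] [IsDedekindDomain (k ⊗[R] B)] [IsDedekindDomain (K ⊗[R] B)]
    [Infinite k] [Algebra.FiniteType R B] (hπ : Function.Surjective π) :
    ∃ E : Finset (M → A),
      (∀ (σ : A →ₐ[R] A) (x x' : M), (F.I x).map (sp B σ) = F.I x' →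
        (∀ i, sp B σ (F.S i) = F.S i) → ∀ f ∈ E, f x' = σ (f x)) ∧
      (∀ x x', (∀ f ∈ E, f x = f x') → x = x') ∧
      (∀ y, ∀ f ∈ E, (fun x => f (x + y)) ∈ Submodule.span A (E : Set (M → A))) := by
  obtain ⟨G, hG⟩ := (Algebra.FiniteType.out : (⊤ : Subalgebra R B).FG)
  obtain ⟨E, hE, hE'⟩ := F.exists_finset hπ (G : Set B) hG G.finite_toSet
  refine ⟨E, fun σ x x' hx hS f hf => F.equivariant hπ _ σ x x' hx hS (hE hf),
    fun x x' h => ?_, fun y f hf => ?_⟩
  · apply F.separates hπ
    intro f hf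
    have hf' : f ∈ Submodule.span A (E : Set (M → A)) := by rw [hE']; exact hf
    clear hf
    induction hf' using Submodule.span_induction with
    | mem f hf => exact h f hf
    | zero => rfl
    | add f g _ _ hf hg => rw [Pi.add_apply, Pi.add_apply, hf, hg]
    | smul a f _ hf => rw [Pi.smul_apply, Pi.smul_apply, hf]
  · rw [hE']
    apply F.translate_mem' hπ y
    have : f ∈ Submodule.span A (E : Set (M → A)) := Submodule.subset_span hf
    rw [hE'] at this
    exact this

end Frame

end Fermat.Agent.HopfOrder
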