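import Fermat.Agent.HopfOrder.FrameOf
import Fermat.Agent.HopfOrder.Stable
import Fermat.Agent.HopfOrder.FinType

/-!
# Output: a translation stable algebra of functions attached to divisors in general position
-/

set_option autoImplicit false
set_option linter.unusedSectionVars false

open AlgebraicCurve WithZero Module
open scoped TensorProduct
open Fermat.Agent.RR Fermat.Agent.FF Fermat.Agent.Deuring

namespace Fermat.Agent.HopfOrder

attribute [local instance] nonempty_place finiteResidue

section Functions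

open PoleBasis

variable {R B : Type*} [CommRing R] [CommRing B] [Algebra R B] {P : PoleBasis R B}
variable {K : Type*} [Field K] [Algebra R K] {A : ValuationSubring K} [Algebra R A]
  [IsScalarTower R A K]
variable {k : Type*} [Field k] [Algebra R k] {π : A →ₐ[R] k}
variable {M : Type*} [AddCommGroup M]

namespace Frame

variable (F : Frame P A π M) (hπ : Function.Surjective π)

/-- Coordinates modulo the maximal ideal only depend on the reduction. -/
lemma c_residual {x x' : M} (hx : (F.I x).map (sp B π) = (F.I x').map (sp B π))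
    (q : A ⊗[R] B) (j : Fin P.g) : π (F.c hπ q j x) = π (F.c hπ q j x') := by
  obtain ⟨p1, hs1, hk1, h1⟩ := exists_coord_baseChange P π (F.p hπ x) (F.isCoord hπ x).surjective
    (F.isCoord hπ x).ker
  obtain ⟨p2, hs2, hk2, h2⟩ := exists_coord_baseChange P π (F.p hπ x') (F.isCoord hπ x').surjective
    (F.isCoord hπ x').ker
  have e1 : IsCoord ((F.I x).map (sp B π)) (fun i => sp B π (F.S i)) p1 := by
    refine ⟨hk1, fun i => ?_⟩
    funext j
    rw [h1, (F.isCoord hπ x).map_S]
    by_cases hij : j = i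
    · subst hij; simp
    · rw [Pi.single_eq_of_ne hij, Pi.single_eq_of_ne hij, map_zero]
  have e2 : IsCoord ((F.I x).map (sp B π)) (fun i => sp B π (F.S i)) p2 := by
    rw [hx]
    refine ⟨hk2, fun i => ?_⟩
    funext j
    rw [h2, (F.isCoord hπ x').map_S]
    by_cases hij : j = i
    · subst hij; simp
    · rw [Pi.single_eq_of_ne hij, Pi.single_eq_of_ne hij, map_zero]
  rw [c_apply, c_apply, ← h1, ← h2, e1.unique e2]

lemma residual (G : Set B) {x x' : M} (hx : (F.I x).map (sp B π) = (F.I x').map (sp B π))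
    {f : M → A} (hf : f ∈ Submonoid.closure (F.gen hπ G)) : π (f x) = π (f x') := by
  induction hf using Submonoid.closure_induction with
  | mem f hf =>
    rcases hf with ⟨j, rfl⟩ | ⟨b, -, i, j, rfl⟩
    · exact F.c_residual hπ hx _ _
    · exact F.c_residual hπ hx _ _
  | one => simp
  | mul f g _ _ hf hg => rw [Pi.mul_apply, Pi.mul_apply, map_mul, map_mul, hf, hg]

include hπ in
/-- **The main theorem of this section**, with more information. -/
theorem exists_functions' [Finite M] [IsDedekindDomain (k ⊗[R] B)] [IsDedekindDomain (K ⊗[R] B)]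
    [Infinite k] [Algebra.FiniteType R B] :
    ∃ E : Finset (M → A),
      (∀ (σ : A →ₐ[R] A) (x x' : M), (F.I x).map (sp B σ) = F.I x' →
        (∀ i, sp B σ (F.S i) = F.S i) → ∀ f ∈ E, f x' = σ (f x)) ∧
      (∀ x x', (∀ f ∈ E, f x = f x') → x = x') ∧
      (∀ y, ∀ f ∈ E, (fun x => f (x + y)) ∈ Submodule.span A (E : Set (M → A))) ∧
      (1 ∈ Submodule.span A (E : Set (M → A))) ∧
      (∀ f ∈ E, ∀ g ∈ E, f * g ∈ Submodule.span A (E : Set (M → A))) ∧
      (∀ x x', (F.I x).map (sp B π) = (F.I x').map (sp B π) → ∀ f ∈ E, π (f x) = π (f x')) := by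
  obtain ⟨G, hG⟩ := (Algebra.FiniteType.out : (⊤ : Subalgebra R B).FG)
  obtain ⟨E, hE, hE'⟩ := F.exists_finset hπ (G : Set B) hG G.finite_toSet
  have hmemH : ∀ f ∈ E, f ∈ F.H hπ := by
    intro f hf
    have : f ∈ Submodule.span A (E : Set (M → A)) := Submodule.subset_span hf
    rwa [hE'] at this
  refine ⟨E, fun σ x x' hx hS f hf => F.equivariant hπ _ σ x x' hx hS (hE hf),
    fun x x' h => ?_, fun y f hf => ?_, ?_, fun f hf g hg => ?_,
    fun x x' hx f hf => F.residual hπ _ hx (hE hf)⟩
  · apply F.separates hπ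
    intro f hf
    have hf' : f ∈ Submodule.span A (E : Set (M → A)) := by rw [hE']; exact hf
    clear hf
    induction hf' using Submodule.span_induction with
    | mem f hf => exact h f hf
    | zero => rfl
    | add f g _ _ hf hg => rw [Pi.add_apply, Pi.add_apply, hf, hg]
    | smul a f _ hf => rw [Pi.smul_apply, Pi.smul_apply, hf]
  · rw [hE']
    exact F.translate_mem' hπ y (hmemH f hf)
  · rw [hE']
    exact (F.H hπ).one_mem
  · rw [hE']
    exact (F.H hπ).mul_mem (hmemH f hf) (hmemH g hg)

end Frame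

end Functions

variable {K F k F' : Type*} [Field K] [Field F] [Algebra K F] [Field k] [Field F'] [Algebra k F']
  [IsFF K F] [IsFF k F'] [IsAlgClosed K] [IsAlgClosed k]
variable {G : GaussData K F k F'} {P0 : Place K F}
variable {R : Type*} [CommRing R] [Algebra R K] [Algebra R k] [Algebra R F] [IsScalarTower R K F]
  [Algebra R G.A] [IsScalarTower R G.A K] [Algebra R F'] [IsScalarTower R k F']

/-- Functions with prescribed poles and zeros are permuted by semilinear automorphisms. -/
lemma smul_mem_L (g : SemilinearAut K F) {D : Divisor K F} {f : F}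
    (h : f ∈ riemannRochSpace D) : g • f ∈ riemannRochSpace (g • D) := by
  rcases eq_or_ne f 0 with rfl | hf
  · rw [smul_zero]; exact Submodule.zero_mem _
  have hgf : g • f ≠ 0 := by simpa using hf
  rw [mem_L_iff hgf]
  intro v
  have h1 := (mem_L_iff hf).mp h (g⁻¹ • v)
  have h2 := SemilinearAut.ord_smul g (g⁻¹ • v) f
  rw [smul_inv_smul] at h2
  rw [h2, SemilinearAut.divisor_smul_apply]
  exact h1

lemma smul_mem_LD (g : SemilinearAut K F) (hg : g • P0 = P0) {D : Divisor K F} {n : ℕ} {f : F}
    (h : f ∈ LD P0 n D) : g • f ∈ LD P0 n (g • D) := by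
  have := smul_mem_L g h
  rwa [smul_sub, SemilinearAut.smul_single, hg] at this

namespace Setup

variable (S : Setup G P0 R)

/-- Equivariance of the ideal of a divisor. -/
theorem map_IA_smul (g : SemilinearAut K F) (hg : g • P0 = P0) (σ : G.A →ₐ[R] G.A)
    (hσ : ∀ z, S.evA (PoleBasis.sp S.B σ z) = g • S.evA z) {D : Divisor K F} (hD : S.Good D)
    (hD' : S.Good (g • D)) : (S.IA D).map (PoleBasis.sp S.B σ) = S.IA (g • D) := by
  have hdeg : 0 ≤ Divisor.degree D := degree_nonneg hD.nonneg
  have h1 := S.isRel_IA hD (d := (Divisor.degree D).toNat) (by omega)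
  have h2 := S.isRel_IA hD' (d := (Divisor.degree D).toNat) (by
    rw [SemilinearAut.degree_smul]; omega)
  refine (h1.baseChange S.P σ).eq_of_le h2 le_rfl ?_
  rw [Ideal.map_le_iff_le_comap]
  rintro z ⟨n, hn⟩
  refine ⟨n, ?_⟩
  change S.evA (PoleBasis.sp S.B σ z) ∈ _
  rw [hσ]
  exact smul_mem_LD g hg hn

lemma evA_sp_smul (g : SemilinearAut K F) (σ : G.A →ₐ[R] G.A)
    (h1 : ∀ a : G.A, ((σ a : G.A) : K) = SemilinearAut.baseAut g (a : K))
    (h2 : ∀ b : S.B, g • (b : F) = b) (z : G.A ⊗[R] S.B) :
    S.evA (PoleBasis.sp S.B σ z) = g • S.evA z := by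
  induction z with
  | zero => rw [map_zero, map_zero, smul_zero]
  | tmul a b =>
    rw [PoleBasis.sp_tmul, evA_tmul, evA_tmul, h1, Algebra.smul_def, Algebra.smul_def, smul_mul',
      SemilinearAut.smul_algebraMap, h2]
  | add x y hx hy => rw [map_add, map_add, map_add, smul_add, hx, hy]

end Setup

namespace GenPos

variable {S : Setup G P0 R} {M : Type*} [AddCommGroup M] (Q : GenPos S M)

/-- **Main output**: a finite set of functions on `M` generating an algebra, stable under
translations, separating the points, equivariant under the automorphisms fixing the sections. -/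
theorem exists_functions [Finite M] (lift : k → G.A) (hl : ∀ a, G.res (lift a) = a) :
    ∃ E : Set (M → K), E.Finite ∧
      (∀ f ∈ E, ∀ x, f x ∈ G.A) ∧
      (∀ (g : SemilinearAut K F) (σ : G.A →ₐ[R] G.A), g • P0 = P0 →
        (∀ a : G.A, ((σ a : G.A) : K) = SemilinearAut.baseAut g (a : K)) →
        (∀ b : S.B, g • (b : F) = b) → (∀ a, σ (lift a) = lift a) →
        ∀ x x' : M, Q.D x' = g • Q.D x → ∀ f ∈ E, f x' = SemilinearAut.baseAut g (f x)) ∧
      (∀ x x', (∀ f ∈ E, f x = f x') → x = x') ∧
      (∀ y, ∀ f ∈ E, (fun x => f (x + y)) ∈ Submodule.span G.A E) ∧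
      1 ∈ Submodule.span G.A E ∧
      (∀ f ∈ E, ∀ g ∈ E, f * g ∈ Submodule.span G.A E) ∧
      (∀ x x', S.Rd.r (Q.D x) = S.Rd.r (Q.D x') → ∀ f ∈ E, f x - f x' ∈ G.A.nonunits) := by
  obtain ⟨Fr, hFr, hFrS⟩ := Q.exists_frame lift hl
  have : Infinite k := IsAlgClosed.instInfinite
  have : IsDedekindDomain (K ⊗[R] S.B) := S.isDedekindDomain_K
  have : IsDedekindDomain (k ⊗[R] S.B) := S.isDedekindDomain_k
  have : Algebra.FiniteType R S.B := S.P.finiteType
  obtain ⟨E, he, hs, ht, h1, hm, hr⟩ := Fr.exists_functions' S.π_surjective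
  let c : (M → G.A) →ₗ[G.A] (M → K) :=
    { toFun := fun f x => (f x : K)
      map_add' := fun f g => by funext x; simp
      map_smul' := fun a f => by
        funext x
        simp only [Pi.smul_apply, smul_eq_mul, RingHom.id_apply]
        rw [Algebra.smul_def]
        rfl }
  have hc : ∀ f x, c f x = (f x : K) := fun f x => rfl
  have hspan : ∀ f ∈ Submodule.span G.A (E : Set (M → G.A)),
      c f ∈ Submodule.span G.A (c '' (E : Set (M → G.A))) := by
    intro f hf
    rw [← Submodule.map_span]
    exact Submodule.mem_map_of_mem hf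
  refine ⟨c '' (E : Set (M → G.A)), E.finite_toSet.image _, ?_, ?_, ?_, ?_, ?_, ?_, ?_⟩
  · rintro _ ⟨f, -, rfl⟩ x
    exact (f x).2
  · rintro g σ hg hσ hB hlift x x' hx _ ⟨f, hf, rfl⟩
    rw [hc, hc, ← hσ]
    congr 1
    refine he σ x x' ?_ (hFrS σ hlift) f hf
    rw [hFr, hFr, hx]
    exact S.map_IA_smul g hg σ (S.evA_sp_smul g σ hσ hB) (Q.good x) (by
      rw [← hx]; exact Q.good x')
  · intro x x' h
    apply hs
    intro f hf
    exact Subtype.ext (h _ ⟨f, hf, rfl⟩)
  · rintro y _ ⟨f, hf, rfl⟩
    exact hspan _ (ht y f hf)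
  · have := hspan _ h1
    convert this using 1
    funext x
    simp [hc]
  · rintro _ ⟨f, hf, rfl⟩ _ ⟨g, hg, rfl⟩
    have := hspan _ (hm f hf g hg)
    convert this using 1
    funext x
    simp [hc]
  · rintro x x' hx _ ⟨f, hf, rfl⟩
    have h2 := hr x x' (by
      rw [hFr, hFr, S.map_IA_k (Q.good x), S.map_IA_k (Q.good x'), hx]) f hf
    rw [Setup.π_apply, Setup.π_apply, ← sub_eq_zero, ← map_sub, G.res_eq_zero_iff] at h2
    exact h2

end GenPos

end Fermat.Agent.HopfOrder
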