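import Fermat.Agent.HopfOrder.Special

/-!
# Coordinates on a relative divisor with respect to given sections
-/

set_option autoImplicit false

open scoped TensorProduct

namespace Fermat.Agent.HopfOrder

open PoleBasis

section Uniq

variable {T C : Type*} [CommRing T] [CommRing C] [Algebra T C] {J : Ideal C} {d : ℕ}

/-- Coordinates normalised on `S`. -/
structure IsCoord (J : Ideal C) (S : Fin d → C) (p : C →ₗ[T] (Fin d → T)) : Prop where
  ker : ∀ x, x ∈ J ↔ p x = 0
  map_S : ∀ i, p (S i) = Pi.single i 1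

lemma IsCoord.map_sum {S : Fin d → C} {p : C →ₗ[T] (Fin d → T)} (h : IsCoord J S p)
    (c : Fin d → T) : p (∑ i, c i • S i) = c := by
  rw [_root_.map_sum]
  funext j
  simp only [map_smul, h.map_S, Finset.sum_apply, Pi.smul_apply, smul_eq_mul]
  rw [Finset.sum_eq_single j]
  · simp
  · intro k _ hk
    rw [Pi.single_eq_of_ne hk.symm]; simp
  · simp

lemma IsCoord.surjective {S : Fin d → C} {p : C →ₗ[T] (Fin d → T)} (h : IsCoord J S p) :
    Function.Surjective p := fun c => ⟨_, h.map_sum c⟩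

lemma IsCoord.sub_mem {S : Fin d → C} {p : C →ₗ[T] (Fin d → T)} (h : IsCoord J S p) (z : C) :
    z - ∑ i, p z i • S i ∈ J := by
  rw [h.ker, map_sub, h.map_sum, sub_self]

lemma IsCoord.unique {S : Fin d → C} {p p' : C →ₗ[T] (Fin d → T)} (h : IsCoord J S p)
    (h' : IsCoord J S p') : p = p' := by
  ext1 z
  have h1 := (h'.ker _).mp (h.sub_mem z)
  rw [map_sub, h'.map_sum, sub_eq_zero] at h1
  exact h1.symm

end Uniq

section BaseChange

variable {R B : Type*} [CommRing R] [CommRing B] [Algebra R B] (P : PoleBasis R B)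
variable {T T' : Type*} [CommRing T] [Algebra R T] [CommRing T'] [Algebra R T']
  (φ : T →ₐ[R] T') {J : Ideal (T ⊗[R] B)} {d : ℕ}

include P in
/-- Base change of coordinates. -/
lemma IsCoord.baseChange {S : Fin d → T ⊗[R] B} {p : T ⊗[R] B →ₗ[T] (Fin d → T)}
    (h : IsCoord J S p) {J' : Ideal (T' ⊗[R] B)} {p' : T' ⊗[R] B →ₗ[T'] (Fin d → T')}
    (h' : IsCoord J' (fun i => sp B φ (S i)) p') (hJ : J.map (sp B φ) = J') (z : T ⊗[R] B)
    (i : Fin d) : p' (sp B φ z) i = φ (p z i) := by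
  subst hJ
  obtain ⟨q, -, hq, hqp⟩ := exists_coord_baseChange P φ p h.surjective h.ker
  have hq' : IsCoord (J.map (sp B φ)) (fun i => sp B φ (S i)) q := by
    refine ⟨hq, fun i => ?_⟩
    funext j
    rw [hqp, h.map_S]
    by_cases hij : j = i
    · subst hij; simp
    · rw [Pi.single_eq_of_ne hij, Pi.single_eq_of_ne hij, map_zero]
  rw [h'.unique hq', hqp]

variable {κ : Type*} [Field κ] [Algebra R κ] (ψ : T →ₐ[R] κ)

include P in
/-- Existence of normalised coordinates over a local ring. -/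
lemma exists_isCoord [IsLocalRing T] (hJ : IsRel T J d) (S : Fin d → T ⊗[R] B)
    (hS : ∀ z : κ ⊗[R] B, ∃ c : Fin d → κ, z - ∑ i, c i • sp B ψ (S i) ∈ J.map (sp B ψ))
    (hψ : Function.Surjective ψ) :
    ∃ p : T ⊗[R] B →ₗ[T] (Fin d → T), IsCoord J S p := by
  have := hJ.finite
  have := hJ.free
  let f : (Fin d → T) →ₗ[T] (T ⊗[R] B) := Fintype.linearCombination T S
  have hf : ∀ c, f c = ∑ i, c i • S i := fun c => rfl
  let q : (T ⊗[R] B) →ₗ[T] (T ⊗[R] B ⧸ J) := (Ideal.Quotient.mkₐ T J).toLinearMap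
  have hq : ∀ x, q x = Ideal.Quotient.mk J x := fun _ => rfl
  have htop := eq_top_of_sp P ψ (ker_le_jacobson ψ) (J := J)
    (LinearMap.range f ⊔ J.restrictScalars T) le_sup_right (fun x => by
      obtain ⟨c, hc⟩ := hS (sp B ψ x)
      choose c' hc' using fun i => hψ (c i)
      obtain ⟨j, hj, hjx⟩ := (Ideal.mem_map_iff_of_surjective _ (sp_surjective ψ hψ)).mp hc
      refine ⟨f c' + j, Submodule.add_mem_sup ⟨c', rfl⟩ hj, ?_⟩
      rw [map_add, hjx, hf, _root_.map_sum]
      simp only [sp_smul, hc']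
      ring)
  have hsurj : Function.Surjective (q ∘ₗ f) := by
    intro y
    obtain ⟨x, rfl⟩ := Ideal.Quotient.mk_surjective y
    have hx : x ∈ LinearMap.range f ⊔ J.restrictScalars T := by rw [htop]; trivial
    obtain ⟨_, ⟨c, rfl⟩, j, hj, hjx⟩ := Submodule.mem_sup.mp hx
    refine ⟨c, ?_⟩
    rw [LinearMap.comp_apply, hq, ← hjx, map_add,
      Ideal.Quotient.eq_zero_iff_mem.mpr (show j ∈ J from hj), add_zero]
  have hbij := OrzechProperty.bijective_of_surjective_of_finrank_le (R := T) (q ∘ₗ f) hsurj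
    (by rw [hJ.finrank]; simp)
  let e := LinearEquiv.ofBijective (q ∘ₗ f) hbij
  refine ⟨e.symm.toLinearMap ∘ₗ q, fun x => ?_, fun i => ?_⟩
  · rw [LinearMap.comp_apply, LinearEquiv.coe_coe, LinearEquiv.map_eq_zero_iff, hq,
      Ideal.Quotient.eq_zero_iff_mem]
  · rw [LinearMap.comp_apply, LinearEquiv.coe_coe, LinearEquiv.symm_apply_eq]
    change q (S i) = q (f (Pi.single i 1))
    rw [hf]
    congr 1
    rw [Finset.sum_eq_single i]
    · simp
    · intro k _ hk
      rw [Pi.single_eq_of_ne hk]; simp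
    · simp

end BaseChange

end Fermat.Agent.HopfOrder
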