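import Fermat.Agent.HopfOrder.Coord

/-!
# The translation stable algebra of functions
-/

set_option autoImplicit false

open scoped TensorProduct

namespace Fermat.Agent.HopfOrder

open PoleBasis

variable {R B : Type*} [CommRing R] [CommRing B] [Algebra R B] (P : PoleBasis R B)
variable {K : Type*} [Field K] [Algebra R K] (A : ValuationSubring K) [Algebra R A]
  [IsScalarTower R A K]
variable {k : Type*} [Field k] [Algebra R k] (π : A →ₐ[R] k)
variable (M : Type*) [AddCommGroup M]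

/-- A frame: a family of divisors of degree `g` in general position, parametrised by a group. -/
structure Frame where
  I : M → Ideal (A ⊗[R] B)
  rel : ∀ x, IsRel A (I x) P.g
  nonsp : ∀ x, Nonsp (P.baseChange k) ((I x).map (sp B π))
  uniq : ∀ x (J : Ideal (K ⊗[R] B)), IsRel K J P.g → Lin J ((I x).map (sp B (incl (R := R) A))) →
    J = (I x).map (sp B (incl (R := R) A))
  inj : Function.Injective I
  tr : ∀ y, ∃ (Y1 Y2 : Ideal (A ⊗[R] B)) (d1 d2 : ℕ), IsRel A Y1 d1 ∧ IsRel A Y2 d2 ∧ ∀ x,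
    Lin ((I x * Y1).map (sp B (incl (R := R) A)))
      ((Y2).map (sp B (incl (R := R) A)) * (I (x + y)).map (sp B (incl (R := R) A))) ∧
    (I x).map (sp B π) ⊔ Y1.map (sp B π) = ⊤ ∧ Y2.map (sp B π) ⊔ (I x).map (sp B π) = ⊤
  S : Fin P.g → A ⊗[R] B
  hS : ∀ x (z : k ⊗[R] B), ∃ c : Fin P.g → k, z - ∑ i, c i • sp B π (S i) ∈ (I x).map (sp B π)

namespace Frame

variable {P A π M} (F : Frame P A π M) (hπ : Function.Surjective π)

include hπ in
lemma exists_coord (x : M) : ∃ p : A ⊗[R] B →ₗ[A] (Fin P.g → A), IsCoord (F.I x) F.S p :=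
  exists_isCoord P π (F.rel x) F.S (F.hS x) hπ

/-- The normalised coordinates. -/
noncomputable def p (x : M) : A ⊗[R] B →ₗ[A] (Fin P.g → A) := (F.exists_coord hπ x).choose

lemma isCoord (x : M) : IsCoord (F.I x) F.S (F.p hπ x) := (F.exists_coord hπ x).choose_spec

/-- The coordinate functions. -/
noncomputable def c (q : A ⊗[R] B) (j : Fin P.g) : M → A := fun x => F.p hπ x q j

lemma c_apply (q : A ⊗[R] B) (j : Fin P.g) (x : M) : F.c hπ q j x = F.p hπ x q j := rfl

lemma c_add (q q' : A ⊗[R] B) (j : Fin P.g) : F.c hπ (q + q') j = F.c hπ q j + F.c hπ q' j := by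
  funext x
  simp [c_apply]

lemma c_smul (a : A) (q : A ⊗[R] B) (j : Fin P.g) : F.c hπ (a • q) j = a • F.c hπ q j := by
  funext x
  simp [c_apply]

/-- Multiplicativity. -/
lemma c_mul (q q' : A ⊗[R] B) (j : Fin P.g) :
    F.c hπ (q * q') j = ∑ i, F.c hπ q' i * F.c hπ (q * F.S i) j := by
  funext x
  have h1 := (F.isCoord hπ x).sub_mem q'
  have h2 := (F.I x).mul_mem_left q h1
  rw [(F.isCoord hπ x).ker, mul_sub, map_sub, sub_eq_zero, Finset.mul_sum, _root_.map_sum] at h2
  rw [c_apply, h2, Finset.sum_apply, Finset.sum_apply]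
  refine Finset.sum_congr rfl fun i _ => ?_
  rw [mul_smul_comm, map_smul]
  rfl

/-- Equivariance. -/
lemma c_equivariant (σ : A →ₐ[R] A) (x x' : M) (hx : (F.I x).map (sp B σ) = F.I x')
    (hS : ∀ i, sp B σ (F.S i) = F.S i) (q : A ⊗[R] B) (hq : sp B σ q = q) (j : Fin P.g) :
    F.c hπ q j x' = σ (F.c hπ q j x) := by
  have h2 : IsCoord (F.I x') (fun i => sp B σ (F.S i)) (F.p hπ x') := by
    simp only [hS]
    exact F.isCoord hπ x'
  have h := (F.isCoord hπ x).baseChange P σ h2 hx q j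
  rw [hq] at h
  exact h

/-- The algebra generated by the coordinate functions. -/
noncomputable def H : Subalgebra A (M → A) :=
  Algebra.adjoin A {f | ∃ (q : A ⊗[R] B) (j : Fin P.g), f = F.c hπ q j}

lemma c_mem (q : A ⊗[R] B) (j : Fin P.g) : F.c hπ q j ∈ F.H hπ :=
  Algebra.subset_adjoin ⟨q, j, rfl⟩

/-- Separation of points. -/
lemma separates {x x' : M} (h : ∀ f ∈ F.H hπ, f x = f x') : x = x' := by
  apply F.inj
  have h1 : F.p hπ x = F.p hπ x' := by
    apply LinearMap.ext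
    intro q
    funext j
    exact h _ (F.c_mem hπ q j)
  ext z
  rw [(F.isCoord hπ x).ker, (F.isCoord hπ x').ker, h1]

/-- Evaluation. -/
noncomputable def ev (x : M) : F.H hπ →ₐ[R] A :=
  ((Pi.evalAlgHom A (fun _ : M => A) x).comp (F.H hπ).val).restrictScalars R

lemma ev_apply (x : M) (f : F.H hπ) : F.ev hπ x f = (f : M → A) x := rfl

/-- constants -/
noncomputable def cst : A →ₐ[R] F.H hπ := IsScalarTower.toAlgHom R A (F.H hπ)

lemma ev_cst (x : M) (a : A) : F.ev hπ x (F.cst hπ a) = a := rfl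

lemma ev_comp_cst (x : M) : (F.ev hπ x).comp (F.cst hπ) = AlgHom.id R A := by
  ext a; rfl

/-- The coordinates over `H`. -/
noncomputable def pH : (F.H hπ) ⊗[R] B →ₗ[F.H hπ] (Fin P.g → F.H hπ) :=
  (P.bas (F.H hπ)).constr (F.H hπ) (fun i j => ⟨F.c hπ (P.bas A i) j, F.c_mem hπ _ _⟩)

lemma ev_pH (x : M) (z : (F.H hπ) ⊗[R] B) (j : Fin P.g) :
    F.ev hπ x (F.pH hπ z j) = F.p hπ x (sp B (F.ev hπ x) z) j := by
  have hz := (P.bas (F.H hπ)).mem_span z
  induction hz using Submodule.span_induction with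
  | zero => simp
  | add y z _ _ hy hz =>
    rw [map_add, map_add, map_add, Pi.add_apply, map_add, Pi.add_apply, hy, hz]
  | smul a y _ hy =>
    rw [map_smul, Pi.smul_apply, smul_eq_mul, map_mul, hy, sp_smul, map_smul, Pi.smul_apply,
      smul_eq_mul]
  | mem y hy =>
    obtain ⟨i, rfl⟩ := hy
    rw [pH, Module.Basis.constr_basis, P.sp_bas]
    rfl

/-- The universal divisor. -/
noncomputable def IH : Ideal ((F.H hπ) ⊗[R] B) := ⨅ x, (F.I x).comap (sp B (F.ev hπ x))

lemma mem_IH {z : (F.H hπ) ⊗[R] B} : z ∈ F.IH hπ ↔ ∀ x, sp B (F.ev hπ x) z ∈ F.I x := by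
  simp [IH]

lemma isCoord_pH : IsCoord (F.IH hπ) (fun i => sp B (F.cst hπ) (F.S i)) (F.pH hπ) := by
  constructor
  · intro z
    rw [mem_IH]
    constructor
    · intro h
      funext j
      apply Subtype.ext
      funext x
      have h1 := F.ev_pH hπ x z j
      rw [((F.isCoord hπ x).ker _).mp (h x)] at h1
      exact h1
    · intro h x
      rw [(F.isCoord hπ x).ker]
      funext j
      rw [← F.ev_pH hπ x z j, h]
      simp
  · intro i
    funext j
    apply Subtype.ext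
    funext x
    have h1 := F.ev_pH hπ x (sp B (F.cst hπ) (F.S i)) j
    have h2 : sp B (F.ev hπ x) (sp B (F.cst hπ) (F.S i)) = F.S i := by
      rw [sp_comp, F.ev_comp_cst hπ x]
      exact congrFun (congrArg DFunLike.coe (Algebra.TensorProduct.map_id)) _
    rw [h2, (F.isCoord hπ x).map_S] at h1
    change F.ev hπ x _ = _
    rw [h1]
    by_cases hij : j = i
    · subst hij; simp
    · rw [Pi.single_eq_of_ne hij, Pi.single_eq_of_ne hij]; simp

lemma isRel_IH : IsRel (F.H hπ) (C := (F.H hπ) ⊗[R] B) (F.IH hπ) P.g :=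
  isRel_of_coord (F.pH hπ) (F.isCoord_pH hπ).surjective (F.isCoord_pH hπ).ker

lemma map_IH (x : M) : (F.IH hπ).map (sp B (F.ev hπ x)) = F.I x := by
  refine ((F.isRel_IH hπ).baseChange P (F.ev hπ x)).eq_of_le (F.rel x) le_rfl ?_
  rw [Ideal.map_le_iff_le_comap]
  exact iInf_le _ x

lemma sp_id' {T : Type*} [CommRing T] [Algebra R T] (z : T ⊗[R] B) :
    sp B (AlgHom.id R T) z = z :=
  congrFun (congrArg DFunLike.coe (Algebra.TensorProduct.map_id)) _

lemma map_sp_id {T : Type*} [CommRing T] [Algebra R T] (J : Ideal (T ⊗[R] B)) :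
    J.map (sp B (AlgHom.id R T)) = J := by
  have : (sp B (AlgHom.id R T)) = AlgHom.id R _ := Algebra.TensorProduct.map_id
  rw [this]
  exact Ideal.map_id J

section Main

variable [IsDedekindDomain (k ⊗[R] B)] [IsDedekindDomain (K ⊗[R] B)] [Infinite k]

include hπ in
/-- Translation over a local ring. -/
theorem exists_translate {T : Type*} [CommRing T] [IsLocalRing T] [Algebra R T] (φ : T →ₐ[R] k)
    (hφ : Function.Surjective φ) (IT : Ideal (T ⊗[R] B)) (hIT : IsRel T IT P.g)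
    (cT : A →ₐ[R] T) (hcT : φ.comp cT = π) (x0 : M)
    (hIT0 : IT.map (sp B φ) = (F.I x0).map (sp B π)) (y : M) :
    ∃ I3 : Ideal (T ⊗[R] B), IsRel T I3 P.g ∧ I3.map (sp B φ) = (F.I (x0 + y)).map (sp B π) ∧
      ∀ (x : M) (t : T →ₐ[R] A), t.comp cT = AlgHom.id R A → IT.map (sp B t) = F.I x →
        I3.map (sp B t) = F.I (x + y) := by
  have hkerA := ker_le_jacobson π
  have hkerT := ker_le_jacobson φ
  obtain ⟨Y1, Y2, d1, d2, hY1, hY2, hY⟩ := F.tr y
  have hY1m : (Y1.map (sp B cT)).map (sp B φ) = Y1.map (sp B π) := by rw [map_map_sp, hcT]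
  have hY2m : (Y2.map (sp B cT)).map (sp B φ) = Y2.map (sp B π) := by rw [map_map_sp, hcT]
  have hJ : IsRel T (IT * Y1.map (sp B cT)) (P.g + d1) :=
    hIT.mul (hY1.baseChange P cT) (sup_eq_top_of_sp P φ hφ hkerT hIT (by
      rw [hIT0, hY1m]; exact (hY x0).2.1))
  have hQ : IsRel T (Y2.map (sp B cT)) d2 := hY2.baseChange P cT
  have hD3 : IsRel k ((F.I (x0 + y)).map (sp B π)) P.g := (F.rel (x0 + y)).baseChange P π
  have hcop : (Y2.map (sp B cT)).map (sp B φ) ⊔ (F.I (x0 + y)).map (sp B π) = ⊤ := by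
    rw [hY2m]; exact (hY (x0 + y)).2.2
  have hJA : IsRel A (F.I x0 * Y1) (P.g + d1) :=
    (F.rel x0).mul hY1 (sup_eq_top_of_sp P π hπ hkerA (F.rel x0) (hY x0).2.1)
  obtain ⟨α, β, hα, hβ, hcls⟩ := lin_special P A π hπ hJA hY2 (F.rel (x0 + y))
    (hY (x0 + y)).2.2 (hY x0).1
  obtain ⟨I3, D', s, s', n, n', d', hI3, hI3m, hD', hJD, hDQI, hs, hs'⟩ :=
    key P φ hφ hJ hQ _ hD3 (F.nonsp (x0 + y)) hcop hα hβ (by
      rw [Ideal.map_mul, hIT0, hY1m, hY2m, ← Ideal.map_mul]; exact hcls)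
  refine ⟨I3, hI3, hI3m, fun x t ht hx => ?_⟩
  have hrel : IsRel A (I3.map (sp B t)) P.g := hI3.baseChange P t
  let tK : T →ₐ[R] K := (incl (R := R) A).comp t
  have e1 : (IT * Y1.map (sp B cT)).map (sp B tK) = (F.I x * Y1).map (sp B (incl (R := R) A)) := by
    rw [Ideal.map_mul, Ideal.map_mul, ← map_map_sp, hx]
    congr 1
    rw [map_map_sp, AlgHom.comp_assoc, ht]
    rfl
  have e2 : (Y2.map (sp B cT) * I3).map (sp B tK) = Y2.map (sp B (incl (R := R) A)) *
      (I3.map (sp B t)).map (sp B (incl (R := R) A)) := by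
    rw [Ideal.map_mul, map_map_sp, map_map_sp]
    congr 2
    change sp B (((incl (R := R) A).comp t).comp cT) = _
    rw [AlgHom.comp_assoc, ht]
    rfl
  have hne : ∀ {u : T ⊗[R] B} {m : ℕ}, IsRel T (Ideal.span {u}) m → sp B tK u ≠ 0 := by
    intro u m hu
    have := (hu.baseChange P tK).ne_bot (P.baseChange K)
    rw [map_span_sp, Ne, Ideal.span_singleton_eq_bot] at this
    exact this
  have hLin1 : Lin ((IT * Y1.map (sp B cT)).map (sp B tK))
      ((Y2.map (sp B cT) * I3).map (sp B tK)) := by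
    refine Lin.of_principal (E := D'.map (sp B tK)) (hne hs) (hne hs') ?_ ?_
    · rw [← Ideal.map_mul, hJD, map_span_sp]
    · rw [← Ideal.map_mul, ← map_span_sp, ← hDQI]
      congr 1; ring
  rw [e1, e2] at hLin1
  have hY2K := (hY2.baseChange P (incl (R := R) A)).ne_bot (P.baseChange K)
  have hLin2 := (hLin1.symm.trans (hY x).1).cancel_left hY2K
  have heq := F.uniq (x + y) _ (hrel.baseChange P (incl (R := R) A)) hLin2
  apply le_antisymm
  · intro z hz
    apply mem_of_sp_mem P A (F.rel (x + y))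
    rw [← heq]
    exact Ideal.mem_map_of_mem _ hz
  · intro z hz
    apply mem_of_sp_mem P A hrel
    rw [heq]
    exact Ideal.mem_map_of_mem _ hz

include hπ in
/-- Translation of coordinate functions over a local ring. -/
theorem exists_translate_coord {T : Type*} [CommRing T] [IsLocalRing T] [Algebra R T]
    (φ : T →ₐ[R] k)
    (hφ : Function.Surjective φ) (IT : Ideal (T ⊗[R] B)) (hIT : IsRel T IT P.g)
    (cT : A →ₐ[R] T) (hcT : φ.comp cT = π) (x0 : M)
    (hIT0 : IT.map (sp B φ) = (F.I x0).map (sp B π)) (y : M) (q : A ⊗[R] B) (j : Fin P.g) :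
    ∃ a : T, ∀ (x : M) (t : T →ₐ[R] A), t.comp cT = AlgHom.id R A → IT.map (sp B t) = F.I x →
        t a = F.c hπ q j (x + y) := by
  obtain ⟨I3, hI3, hI3m, h⟩ := F.exists_translate hπ φ hφ IT hIT cT hcT x0 hIT0 y
  obtain ⟨p3, hp3⟩ := exists_isCoord P φ hI3 (fun i => sp B cT (F.S i)) (by
    intro z
    obtain ⟨c, hc⟩ := F.hS (x0 + y) z
    refine ⟨c, ?_⟩
    rw [hI3m]
    simp only [sp_comp, hcT]
    exact hc) hφ
  refine ⟨p3 (sp B cT q) j, fun x t ht hx => ?_⟩
  have h' : IsCoord (F.I (x + y)) (fun i => sp B t (sp B cT (F.S i))) (F.p hπ (x + y)) := by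
    simp only [sp_comp, ht, sp_id']
    exact F.isCoord hπ (x + y)
  have h2 := hp3.baseChange P t h' (h x t ht hx) (sp B cT q) j
  rw [sp_comp, ht, sp_id'] at h2
  exact h2.symm

end Main

end Frame

end Fermat.Agent.HopfOrder
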