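import Fermat.Agent.HopfOrder.RegRing
import Fermat.Agent.HopfOrder.Translate

/-!
# Dictionary between divisors and ideals
-/

set_option autoImplicit false
set_option linter.unusedSectionVars false

open AlgebraicCurve WithZero Module
open scoped TensorProduct
open Fermat.Agent.RR Fermat.Agent.FF Fermat.Agent.Deuring

namespace Fermat.Agent.HopfOrder

attribute [local instance] nonempty_place finiteResidue

section Gen

/-- A family spanning a complement. -/
lemma exists_compl_family {K V : Type*} [Field K] [AddCommGroup V] [Module K V]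
    (V1 V2 : Submodule K V) [FiniteDimensional K V1] (h : V2 ≤ V1) {d : ℕ}
    (hd : finrank K V1 = finrank K V2 + d) :
    ∃ f : Fin d → V, (∀ j, f j ∈ V1) ∧ ∀ c : Fin d → K, ∑ j, c j • f j ∈ V2 → c = 0 := by
  let V' : Submodule K V1 := V2.comap V1.subtype
  obtain ⟨W, hW⟩ := V'.exists_isCompl
  have h1 : finrank K V' = finrank K V2 := by
    have : V'.map V1.subtype = V2 := by
      rw [Submodule.map_comap_eq, Submodule.range_subtype, inf_eq_right]
      exact h
    rw [← this]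
    exact (Submodule.equivMapOfInjective _ (Submodule.injective_subtype _) V').finrank_eq
  have h2 := Submodule.finrank_add_eq_of_isCompl hW
  have h6 : finrank K W = d := by omega
  let b := finBasisOfFinrankEq K W h6
  refine ⟨fun j => ((b j : V1) : V), fun j => (b j : V1).2, fun c hc => ?_⟩
  have h7 : (∑ j, c j • b j : W) = 0 := by
    have h8 : ((∑ j, c j • b j : W) : V1) ∈ V' := by
      rw [Submodule.mem_comap]
      convert hc using 1
      rw [Submodule.subtype_apply]
      simp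
    have h9 := hW.disjoint.le_bot ⟨h8, (∑ j, c j • b j : W).2⟩
    exact Subtype.ext (by simpa using h9)
  funext j
  exact Fintype.linearIndependent_iff.mp b.linearIndependent c h7 j

/-- A criterion for relative divisors. -/
lemma isRel_of_filtered {T C : Type*} [CommRing T] [CommRing C] [Algebra T C] {J : Ideal C} {d : ℕ}
    (f : Fin d → C) (ex : ∀ x : C, ∃ c : Fin d → T, x - ∑ j, c j • f j ∈ J)
    (uniq : ∀ c : Fin d → T, ∑ j, c j • f j ∈ J → c = 0) : IsRel T J d := by
  let g : (Fin d → T) →ₗ[T] (C ⧸ J) :=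
    (Ideal.Quotient.mkₐ T J).toLinearMap ∘ₗ (Fintype.linearCombination T f)
  have hg : ∀ c, g c = Ideal.Quotient.mk J (∑ j, c j • f j) := fun c => rfl
  refine ⟨(LinearEquiv.ofBijective g ⟨?_, ?_⟩).symm⟩
  · rw [injective_iff_map_eq_zero]
    intro c hc
    rw [hg, Ideal.Quotient.eq_zero_iff_mem] at hc
    exact uniq c hc
  · intro y
    obtain ⟨x, rfl⟩ := Ideal.Quotient.mk_surjective y
    obtain ⟨c, hc⟩ := ex x
    refine ⟨c, ?_⟩
    rw [hg]
    exact (Ideal.Quotient.eq.mpr hc).symm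

variable {K F : Type*} [Field K] [Field F] [Algebra K F] (P0 : Place K F)
variable {C : Type*} [CommRing C] (θ : C →+* F) (hθ : ∀ z, θ z ∈ regRing P0)

/-- `L(n P0 - D)`. -/
noncomputable abbrev LD (n : ℕ) (D : Divisor K F) : Submodule K F :=
  riemannRochSpace (Finsupp.single P0 (n : ℤ) - D)

lemma LD_mono {n m : ℕ} (h : n ≤ m) (D : Divisor K F) : LD P0 n D ≤ LD P0 m D :=
  L_mono (sub_le_sub_right (single_mono (by exact_mod_cast h)) D)

lemma LD_le {n : ℕ} {D : Divisor K F} (hD : 0 ≤ D) : LD P0 n D ≤ LL P0 n :=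
  L_mono (sub_le_self _ hD)

lemma mul_mem_LD {n m : ℕ} {D D' : Divisor K F} {x y : F} (hx : x ∈ LD P0 n D)
    (hy : y ∈ LD P0 m D') : x * y ∈ LD P0 (n + m) (D + D') := by
  have := mem_L_mul hx hy
  have h2 : (Finsupp.single P0 (n : ℤ) - D) + (Finsupp.single P0 (m : ℤ) - D') =
      Finsupp.single P0 ((n + m : ℕ) : ℤ) - (D + D') := by
    push_cast
    rw [Finsupp.single_add]
    abel
  rwa [h2] at this

/-- The ideal of a divisor. -/
noncomputable def ID (D : Divisor K F) : Ideal C where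
  carrier := {z | ∃ n : ℕ, θ z ∈ LD P0 n D}
  add_mem' := by
    rintro x y ⟨n, hn⟩ ⟨m, hm⟩
    refine ⟨n + m, ?_⟩
    rw [map_add]
    exact add_mem (LD_mono P0 (by omega) D hn) (LD_mono P0 (by omega) D hm)
  zero_mem' := ⟨0, by rw [map_zero]; exact Submodule.zero_mem _⟩
  smul_mem' := by
    rintro a x ⟨n, hn⟩
    obtain ⟨m, hm⟩ := hθ a
    refine ⟨m + n, ?_⟩
    rw [smul_eq_mul, map_mul]
    have h1 : θ a ∈ LD P0 m 0 := by rw [LD, sub_zero]; exact hm
    have := mul_mem_LD P0 h1 hn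
    rwa [zero_add] at this

lemma mem_ID {D : Divisor K F} {z : C} : z ∈ ID P0 θ hθ D ↔ ∃ n : ℕ, θ z ∈ LD P0 n D := Iff.rfl

/-- elementwise description -/
lemma mem_LD_iff {f : F} (hf : f ≠ 0) {n : ℕ} {D : Divisor K F} :
    f ∈ LD P0 n D ↔ (D P0 - n ≤ P0.ord f) ∧ ∀ v, v ≠ P0 → D v ≤ v.ord f := by
  classical
  rw [mem_L_iff hf]
  constructor
  · intro h
    constructor
    · have := h P0
      rw [Finsupp.sub_apply, Finsupp.single_eq_same] at this
      omega
    · intro v hv
      have := h v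
      rw [Finsupp.sub_apply, Finsupp.single_eq_of_ne hv] at this
      omega
  · rintro ⟨h1, h2⟩ v
    rw [Finsupp.sub_apply]
    by_cases hv : v = P0
    · subst hv
      rw [Finsupp.single_eq_same]
      omega
    · rw [Finsupp.single_eq_of_ne hv]
      have := h2 v hv
      omega

lemma mem_ID_iff {D : Divisor K F} {z : C} (hz : θ z ≠ 0) :
    z ∈ ID P0 θ hθ D ↔ ∀ v, v ≠ P0 → D v ≤ v.ord (θ z) := by
  rw [mem_ID]
  constructor
  · rintro ⟨n, hn⟩
    exact ((mem_LD_iff P0 hz).mp hn).2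
  · intro h
    refine ⟨(D P0 - P0.ord (θ z)).toNat, (mem_LD_iff P0 hz).mpr ⟨by omega, h⟩⟩

lemma mem_LD_of_mem {D : Divisor K F} (hP : D P0 = 0) {z : C} (hz : z ∈ ID P0 θ hθ D) {n : ℕ}
    (hn : θ z ∈ LL P0 n) : θ z ∈ LD P0 n D := by
  rcases eq_or_ne (θ z) 0 with h | h
  · rw [h]; exact Submodule.zero_mem _
  rw [mem_LD_iff P0 h]
  refine ⟨?_, (mem_ID_iff P0 θ hθ h).mp hz⟩
  have := (mem_L_iff h).mp hn P0
  rw [Finsupp.single_eq_same] at this
  omega

lemma inf_LD {D : Divisor K F} (hP : D P0 = 0) {n m : ℕ} {f : F} (hf : f ∈ LL P0 n)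
    (hf' : f ∈ LD P0 m D) : f ∈ LD P0 n D := by
  rcases eq_or_ne f 0 with rfl | h
  · exact Submodule.zero_mem _
  rw [mem_LD_iff P0 h]
  refine ⟨?_, ((mem_LD_iff P0 h).mp hf').2⟩
  have := (mem_L_iff h).mp hf P0
  rw [Finsupp.single_eq_same] at this
  omega

section Dim

variable [IsFF K F] [IsAlgClosed K]

lemma finrank_LD {n : ℕ} {D : Divisor K F} (hn : 2 * (genusFF K F : ℤ) - 1 + Divisor.degree D ≤ n) :
    (finrank K (LD P0 n D) : ℤ) = n - Divisor.degree D + 1 - genusFF K F := by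
  have h := ell_large (K := K) (F := F) (D := Finsupp.single P0 (n : ℤ) - D) (by
    rw [map_sub, degree_single_one]; omega)
  rw [map_sub, degree_single_one] at h
  exact h

/-- A family of functions spanning a complement. -/
structure IsCompl' {d : ℕ} (N : ℕ) (D : Divisor K F) (f : Fin d → F) : Prop where
  hd : (d : ℤ) = Divisor.degree D
  hN : 2 * (genusFF K F : ℤ) - 1 + Divisor.degree D ≤ N
  mem : ∀ j, f j ∈ LL P0 N
  indep : ∀ c : Fin d → K, ∑ j, c j • f j ∈ LD P0 N D → c = 0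

lemma IsCompl'.uniq {d N : ℕ} {D : Divisor K F} {f : Fin d → F} (h : IsCompl' P0 N D f)
    (hP : D P0 = 0) {m : ℕ} {c : Fin d → K} (hc : ∑ j, c j • f j ∈ LD P0 m D) : c = 0 := by
  apply h.indep
  refine inf_LD P0 hP (Submodule.sum_mem _ fun j _ => Submodule.smul_mem _ _ (h.mem j)) hc

lemma IsCompl'.ex {d N : ℕ} {D : Divisor K F} (hD : 0 ≤ D) {f : Fin d → F}
    (h : IsCompl' P0 N D f) (hP : D P0 = 0) {n : ℕ} (hn : N ≤ n) {x : F} (hx : x ∈ LL P0 n) :
    ∃ c : Fin d → K, x - ∑ j, c j • f j ∈ LD P0 n D := by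
  have hli : LinearIndependent K f := by
    rw [Fintype.linearIndependent_iff]
    intro c hc
    have := h.indep c (by rw [hc]; exact Submodule.zero_mem _)
    exact fun i => congrFun this i
  have h1 : LD P0 n D ⊓ Submodule.span K (Set.range f) = ⊥ := by
    rw [eq_bot_iff]
    rintro y ⟨hy1, hy2⟩
    obtain ⟨c, rfl⟩ := (Submodule.mem_span_range_iff_exists_fun K).mp hy2
    have := h.uniq P0 hP hy1
    rw [this]; simp
  have h2 : LD P0 n D ⊔ Submodule.span K (Set.range f) ≤ LL P0 n := by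
    refine sup_le (LD_le P0 hD) ?_
    rw [Submodule.span_le]
    rintro _ ⟨j, rfl⟩
    exact LL_mono P0 hn (h.mem j)
  have : FiniteDimensional K (Submodule.span K (Set.range f)) :=
    FiniteDimensional.span_of_finite K (Set.finite_range f)
  have h3 := Submodule.finrank_sup_add_finrank_inf_eq (LD P0 n D)
    (Submodule.span K (Set.range f))
  rw [h1, finrank_bot, add_zero, finrank_span_eq_card hli, Fintype.card_fin] at h3
  have hdeg : 0 ≤ Divisor.degree D := degree_nonneg hD
  have hNd := h.hN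
  have hdd := h.hd
  have h4 := finrank_LD P0 (n := n) (D := D) (by omega)
  have h5 := finrank_LL P0 (n := n) (by omega)
  have h6 := Submodule.eq_of_le_of_finrank_le h2 (by omega)
  rw [← h6] at hx
  obtain ⟨y, hy, z, hz, rfl⟩ := Submodule.mem_sup.mp hx
  obtain ⟨c, rfl⟩ := (Submodule.mem_span_range_iff_exists_fun K).mp hz
  exact ⟨c, by simpa using hy⟩

lemma exists_isCompl' {D : Divisor K F} (hD : 0 ≤ D) {N : ℕ}
    (hN : 2 * (genusFF K F : ℤ) - 1 + Divisor.degree D ≤ N) {d : ℕ}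
    (hd : (d : ℤ) = Divisor.degree D) : ∃ f : Fin d → F, IsCompl' P0 N D f := by
  have hdeg : 0 ≤ Divisor.degree D := degree_nonneg hD
  have h4 := finrank_LD P0 (n := N) (D := D) (by omega)
  have h5 := finrank_LL P0 (n := N) (by omega)
  obtain ⟨f, hf, hi⟩ := exists_compl_family (LL P0 N) (LD P0 N D) (LD_le P0 hD) (d := d)
    (by omega)
  exact ⟨f, hd, hN, hf, hi⟩

end Dim

end Gen


section Field

variable {K F : Type*} [Field K] [Field F] [Algebra K F] [IsFF K F] [IsAlgClosed K]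
  (P0 : Place K F)
variable {C : Type*} [CommRing C] [Algebra K C] (θ : C →ₐ[K] F) (hθ : ∀ z, θ z ∈ regRing P0)
  (hi : Function.Injective θ) (hs : ∀ f ∈ regRing P0, ∃ z, θ z = f)

/-- The ideal of a divisor (field case). -/
noncomputable abbrev IF (D : Divisor K F) : Ideal C := ID P0 (θ : C →+* F) hθ D

lemma mem_IF {D : Divisor K F} {z : C} : z ∈ IF P0 θ hθ D ↔ ∃ n : ℕ, θ z ∈ LD P0 n D := Iff.rfl

lemma mem_IF_iff {D : Divisor K F} {z : C} (hz : θ z ≠ 0) :
    z ∈ IF P0 θ hθ D ↔ ∀ v, v ≠ P0 → D v ≤ v.ord (θ z) :=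
  mem_ID_iff P0 (θ : C →+* F) hθ hz

lemma mem_IF_of_eq_zero {D : Divisor K F} {z : C} (hz : θ z = 0) : z ∈ IF P0 θ hθ D :=
  ⟨0, by change θ z ∈ _; rw [hz]; exact Submodule.zero_mem _⟩

include hi in
lemma θ_ne_zero {z : C} (hz : z ≠ 0) : θ z ≠ 0 := fun h => hz (hi (by rw [h, map_zero]))

include hs in
lemma isRel_IF {D : Divisor K F} (hD : 0 ≤ D) (hP : D P0 = 0) {d : ℕ}
    (hd : (d : ℤ) = Divisor.degree D) : IsRel K (IF P0 θ hθ D) d := by
  have hdeg : 0 ≤ Divisor.degree D := degree_nonneg hD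
  obtain ⟨f, hf⟩ := exists_isCompl' P0 hD
    (N := (2 * (genusFF K F : ℤ) + Divisor.degree D).toNat) (by omega) hd
  choose z hz using fun j => hs (f j) ⟨_, hf.mem j⟩
  have hsum : ∀ c : Fin d → K, θ (∑ j, c j • z j) = ∑ j, c j • f j := by
    intro c
    rw [_root_.map_sum]
    exact Finset.sum_congr rfl fun j _ => by rw [map_smul, hz]
  refine isRel_of_filtered z (fun x => ?_) (fun c hc => ?_)
  · obtain ⟨n, hn⟩ := hθ x
    set N := (2 * (genusFF K F : ℤ) + Divisor.degree D).toNat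
    obtain ⟨c, hc⟩ := hf.ex P0 hD hP (n := n + N) (by omega) (LL_mono P0 (by omega) hn)
    refine ⟨c, n + N, ?_⟩
    change θ (x - ∑ j, c j • z j) ∈ _
    rw [map_sub, hsum]
    exact hc
  · obtain ⟨n, hn⟩ := hc
    change θ (∑ j, c j • z j) ∈ _ at hn
    rw [hsum] at hn
    exact hf.uniq P0 hP hn

include hs in
/-- There is an element of the ideal with the exact order at a given place. -/
lemma exists_ord {D : Divisor K F} (hD : 0 ≤ D) {v : Place K F} (hv : v ≠ P0) :
    ∃ z ∈ IF P0 θ hθ D, θ z ≠ 0 ∧ v.ord (θ z) = D v := by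
  classical
  -- an element of `L(n P0 - D)` not in `L(n P0 - D - v)`
  set n := (2 * (genusFF K F : ℤ) + |Divisor.degree D| + 1).toNat with hn
  have habs := le_abs_self (Divisor.degree D)
  have habs2 := neg_abs_le (Divisor.degree D)
  have habs3 := abs_nonneg (Divisor.degree D)
  have h1 := finrank_LD P0 (n := n) (D := D) (by omega)
  have h2 := finrank_LD P0 (n := n) (D := D + Finsupp.single v 1) (by
    rw [map_add, degree_single_one]; omega)
  rw [map_add, degree_single_one] at h2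
  have h3 : ¬ LD P0 n D ≤ LD P0 n (D + Finsupp.single v 1) := by
    intro h
    have := Submodule.finrank_mono h
    omega
  obtain ⟨f, hf, hf'⟩ := Set.not_subset.mp h3
  have hf0 : f ≠ 0 := by
    rintro rfl
    exact hf' (Submodule.zero_mem _)
  have hfL : f ∈ LL P0 n := LD_le P0 hD hf
  have hfD : f ∈ LD P0 n D := hf
  rw [SetLike.mem_coe, mem_LD_iff P0 hf0] at hf hf'
  have h4 : v.ord f = D v := by
    apply le_antisymm _ (hf.2 v hv)
    by_contra hlt
    push Not at hlt
    apply hf'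
    refine ⟨?_, fun u hu => ?_⟩
    · rw [Finsupp.add_apply, Finsupp.single_eq_of_ne hv.symm, add_zero]
      exact hf.1
    · rw [Finsupp.add_apply]
      by_cases huv : u = v
      · subst huv
        rw [Finsupp.single_eq_same]
        omega
      · rw [Finsupp.single_eq_of_ne huv, add_zero]
        exact hf.2 u hu
  obtain ⟨z, rfl⟩ := hs f ⟨n, hfL⟩
  exact ⟨z, ⟨n, hfD⟩, hf0, h4⟩

include hs in
/-- The divisor can be recovered from the ideal. -/
lemma IF_le_iff {D D' : Divisor K F} (hD : 0 ≤ D) :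
    IF P0 θ hθ D ≤ IF P0 θ hθ D' ↔ ∀ v, v ≠ P0 → D' v ≤ D v := by
  constructor
  · intro h v hv
    obtain ⟨z, hz, hz0, hzv⟩ := exists_ord P0 θ hθ hs hD hv
    rw [← hzv]
    exact (mem_ID_iff P0 (θ : C →+* F) hθ hz0).mp (h hz) v hv
  · intro h z hz
    by_cases h0 : θ z = 0
    · exact mem_IF_of_eq_zero P0 θ hθ h0
    · rw [mem_IF_iff P0 θ hθ h0] at hz ⊢
      intro v hv
      exact (h v hv).trans (hz v hv)

include hs in
lemma IF_injective {D D' : Divisor K F} (hD : 0 ≤ D) (hD' : 0 ≤ D') (hP : D P0 = 0)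
    (hP' : D' P0 = 0) (h : IF P0 θ hθ D = IF P0 θ hθ D') : D = D' := by
  ext v
  by_cases hv : v = P0
  · rw [hv, hP, hP']
  · exact le_antisymm ((IF_le_iff P0 θ hθ hs hD').mp h.ge v hv)
      ((IF_le_iff P0 θ hθ hs hD).mp h.le v hv)

lemma IF_mul_le {D D' : Divisor K F} :
    IF P0 θ hθ D * IF P0 θ hθ D' ≤ IF P0 θ hθ (D + D') := by
  rw [Ideal.mul_le]
  rintro x ⟨n, hn⟩ y ⟨m, hm⟩
  refine ⟨n + m, ?_⟩
  rw [map_mul]
  exact mul_mem_LD P0 hn hm

include hs in
lemma IF_mul (P : PoleBasis K C) [IsDedekindDomain C] {D D' : Divisor K F} (hD : 0 ≤ D)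
    (hD' : 0 ≤ D') (hP : D P0 = 0) (hP' : D' P0 = 0) :
    IF P0 θ hθ D * IF P0 θ hθ D' = IF P0 θ hθ (D + D') := by
  have h1 := isRel_IF P0 θ hθ hs hD hP (d := (Divisor.degree D).toNat)
    (by have := degree_nonneg hD; omega)
  have h2 := isRel_IF P0 θ hθ hs hD' hP' (d := (Divisor.degree D').toNat)
    (by have := degree_nonneg hD'; omega)
  have h3 := isRel_IF P0 θ hθ hs (add_nonneg hD hD') (by rw [Finsupp.add_apply, hP, hP', add_zero])
    (d := (Divisor.degree D).toNat + (Divisor.degree D').toNat) (by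
      rw [map_add]
      have := degree_nonneg hD
      have := degree_nonneg hD'
      push_cast
      omega)
  exact (h1.mul_dedekind h2 (h1.ne_bot P) (h2.ne_bot P)).eq_of_le h3 le_rfl (IF_mul_le P0 θ hθ)

include hs in
lemma IF_sup {D D' : Divisor K F} (hD : 0 ≤ D) (hD' : 0 ≤ D') (hP : D P0 = 0) (hP' : D' P0 = 0)
    (hdis : ∀ v, D v = 0 ∨ D' v = 0) : IF P0 θ hθ D ⊔ IF P0 θ hθ D' = ⊤ := by
  have hd1 := degree_nonneg hD
  have hd2 := degree_nonneg hD'
  have h1 := isRel_IF P0 θ hθ hs hD hP (d := (Divisor.degree D).toNat) (by omega)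
  have h2 := isRel_IF P0 θ hθ hs hD' hP' (d := (Divisor.degree D').toNat) (by omega)
  have h3 := isRel_IF P0 θ hθ hs (add_nonneg hD hD') (by rw [Finsupp.add_apply, hP, hP', add_zero])
    (d := (Divisor.degree D).toNat + (Divisor.degree D').toNat) (by
      rw [map_add]
      push_cast
      omega)
  obtain ⟨π1, hs1, hk1⟩ := h1.exists_coord
  obtain ⟨π2, hs2, hk2⟩ := h2.exists_coord
  -- the intersection
  have hinf : ∀ z, z ∈ IF P0 θ hθ D → z ∈ IF P0 θ hθ D' → z ∈ IF P0 θ hθ (D + D') := by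
    intro z hz hz'
    by_cases h0 : θ z = 0
    · exact mem_IF_of_eq_zero P0 θ hθ h0
    · rw [mem_IF_iff P0 θ hθ h0] at hz hz' ⊢
      intro v hv
      rw [Finsupp.add_apply]
      rcases hdis v with h | h
      · rw [h, zero_add]; exact hz' v hv
      · rw [h, add_zero]; exact hz v hv
  let f : (C ⧸ IF P0 θ hθ (D + D')) →ₗ[K] (Fin (Divisor.degree D).toNat → K) ×
      (Fin (Divisor.degree D').toNat → K) :=
    Submodule.liftQ ((IF P0 θ hθ (D + D')).restrictScalars K) (π1.prod π2) (by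
      intro x hx
      rw [LinearMap.mem_ker]
      change (π1 x, π2 x) = 0
      rw [Prod.mk_eq_zero]
      have hx' : x ∈ IF P0 θ hθ (D + D') := hx
      constructor
      · rw [← hk1]
        by_cases h0 : θ x = 0
        · exact mem_IF_of_eq_zero P0 θ hθ h0
        · rw [mem_IF_iff P0 θ hθ h0] at hx' ⊢
          intro v hv
          refine le_trans ?_ (hx' v hv)
          rw [Finsupp.add_apply]
          have := hD' v
          simp only [Finsupp.coe_zero, Pi.zero_apply] at this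
          omega
      · rw [← hk2]
        by_cases h0 : θ x = 0
        · exact mem_IF_of_eq_zero P0 θ hθ h0
        · rw [mem_IF_iff P0 θ hθ h0] at hx' ⊢
          intro v hv
          refine le_trans ?_ (hx' v hv)
          rw [Finsupp.add_apply]
          have := hD v
          simp only [Finsupp.coe_zero, Pi.zero_apply] at this
          omega)
  have hf : ∀ x, f (Ideal.Quotient.mk _ x) = (π1 x, π2 x) := fun x => rfl
  have hinj : Function.Injective f := by
    rw [injective_iff_map_eq_zero]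
    intro y hy
    obtain ⟨x, rfl⟩ := Ideal.Quotient.mk_surjective y
    rw [hf, Prod.mk_eq_zero, ← hk1, ← hk2] at hy
    exact Ideal.Quotient.eq_zero_iff_mem.mpr (hinf x hy.1 hy.2)
  have hfin := h3.finite
  have hsurj : Function.Surjective f := by
    refine (LinearMap.injective_iff_surjective_of_finrank_eq_finrank ?_).mp hinj
    rw [h3.finrank]
    simp
  obtain ⟨y, hy⟩ := hsurj (π1 1, 0)
  obtain ⟨x, rfl⟩ := Ideal.Quotient.mk_surjective y
  rw [hf, Prod.mk.injEq] at hy
  rw [Ideal.eq_top_iff_one]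
  have h4 : (1 : C) = (1 - x) + x := by ring
  rw [h4]
  refine Submodule.add_mem_sup ?_ ?_
  · rw [hk1, map_sub, hy.1, sub_self]
  · rw [hk2, hy.2]

/-- The zero divisor away from `P0`. -/
noncomputable def zdiv (f : F) : Divisor K F := div f - Finsupp.single P0 (P0.ord f)

lemma zdiv_same (f : F) : zdiv P0 f P0 = 0 := by
  rw [zdiv, Finsupp.sub_apply, div_apply, Finsupp.single_eq_same, sub_self]

lemma zdiv_ne (f : F) {v : Place K F} (hv : v ≠ P0) : zdiv P0 f v = v.ord f := by
  rw [zdiv, Finsupp.sub_apply, div_apply, Finsupp.single_eq_of_ne hv, sub_zero]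

lemma zdiv_nonneg {f : F} (hf : f ∈ regRing P0) : 0 ≤ zdiv P0 f := by
  intro v
  rw [Finsupp.coe_zero, Pi.zero_apply]
  by_cases hv : v = P0
  · rw [hv, zdiv_same]
  · rw [zdiv_ne P0 f hv]
    rcases eq_or_ne f 0 with rfl | hf0
    · rw [v.ord_zero]
    · exact (mem_iff_ord_nonneg v hf0).mp ((mem_regRing_iff P0).mp hf v hv)

lemma degree_zdiv (f : F) : Divisor.degree (zdiv P0 f) = -P0.ord f := by
  rw [zdiv, map_sub, degree_div, degree_single_one, zero_sub]

include hi hs in
lemma span_eq_IF {u : C} (hu : u ≠ 0) : Ideal.span {u} = IF P0 θ hθ (zdiv P0 (θ u)) := by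
  have hu0 : θ u ≠ 0 := θ_ne_zero θ hi hu
  apply le_antisymm
  · rw [Ideal.span_singleton_le_iff_mem, mem_IF_iff P0 θ hθ hu0]
    intro v hv
    rw [zdiv_ne P0 _ hv]
  · intro z hz
    by_cases hz0 : θ z = 0
    · have : z = 0 := hi (by rw [hz0, map_zero])
      rw [this]; exact zero_mem _
    rw [mem_IF_iff P0 θ hθ hz0] at hz
    obtain ⟨a, ha⟩ := hs (θ z / θ u) (by
      rw [mem_regRing_iff]
      intro v hv
      rw [mem_iff_ord_nonneg v (div_ne_zero hz0 hu0), div_eq_mul_inv,
        v.ord_mul hz0 (inv_ne_zero hu0), v.ord_inv]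
      have := hz v hv
      rw [zdiv_ne P0 _ hv] at this
      omega)
    rw [Ideal.mem_span_singleton']
    refine ⟨a, hi ?_⟩
    rw [map_mul, ha, div_mul_cancel₀ _ hu0]

include hθ hi hs in
lemma isRel_span {u : C} (hu : u ≠ 0) :
    IsRel K (Ideal.span {u}) (-P0.ord (θ u)).toNat := by
  rw [span_eq_IF P0 θ hθ hi hs hu]
  have h := zdiv_nonneg P0 (hθ u)
  have h1 := degree_zdiv P0 (θ u)
  have h2 := degree_nonneg h
  exact isRel_IF P0 θ hθ hs h (zdiv_same P0 _) (by omega)

include hθ hi hs in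
lemma ord_eq_of_isRel {u : C} (hu : u ≠ 0) {n : ℕ} (h : IsRel K (Ideal.span {u}) n) :
    P0.ord (θ u) = -n := by
  have h1 := isRel_span P0 θ hθ hi hs hu
  have h2 := h1.degree_unique h
  have h3 := degree_nonneg (zdiv_nonneg P0 (hθ u))
  rw [degree_zdiv] at h3
  omega

include hi hs in
/-- Nonspecial divisors. -/
theorem nonsp_IF (P : PoleBasis K C) (hP : ∀ n, P.m0 ≤ n → ∀ z, z ∈ P.fil n ↔ θ z ∈ LL P0 n)
    {D : Divisor K F} (hD : 0 ≤ D) (hDP : D P0 = 0) (hell : ell D ≤ 1) :
    Nonsp P (IF P0 θ hθ D) := by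
  intro E u n hn hu0 hDE hu x hx hxn
  rcases eq_or_ne x 0 with rfl | hx0
  · exact ⟨0, by simp⟩
  have hθx := θ_ne_zero θ hi hx0
  have hθu := θ_ne_zero θ hi hu0
  have hmem : θ x / θ u ∈ riemannRochSpace D := by
    rw [mem_L_iff (div_ne_zero hθx hθu)]
    intro v
    rw [div_eq_mul_inv, v.ord_mul hθx (inv_ne_zero hθu), v.ord_inv]
    by_cases hv : v = P0
    · subst hv
      rw [hDP, ord_eq_of_isRel v θ hθ hi hs hu0 hu]
      have := (mem_L_iff hθx).mp ((hP n hn x).mp hxn) v
      rw [Finsupp.single_eq_same] at this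
      omega
    · obtain ⟨y, hy, hy0, hyv⟩ := exists_ord P0 θ hθ hs hD hv
      have h1 : y * x ∈ Ideal.span {u} := by
        rw [← hDE]; exact Ideal.mul_mem_mul hy hx
      obtain ⟨a, ha⟩ := Ideal.mem_span_singleton'.mp h1
      have h2 := congrArg θ ha
      rw [map_mul, map_mul] at h2
      have ha0 : θ a ≠ 0 := by
        intro h
        rw [h, zero_mul] at h2
        exact mul_ne_zero hy0 hθx h2.symm
      have h3 := congrArg v.ord h2
      rw [v.ord_mul ha0 hθu, v.ord_mul hy0 hθx, hyv] at h3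
      have h4 := (mem_iff_ord_nonneg v ha0).mp ((mem_regRing_iff P0).mp (hθ a) v hv)
      omega
  have hone : (1 : F) ∈ riemannRochSpace D := by
    rw [mem_L_iff one_ne_zero]
    intro v
    rw [v.ord_one]
    have := hD v
    simp only [Finsupp.coe_zero, Pi.zero_apply] at this
    omega
  have hspan : (K ∙ (1 : F)) = riemannRochSpace D := by
    apply Submodule.eq_of_le_of_finrank_le
    · rwa [Submodule.span_singleton_le_iff_mem]
    · rw [finrank_span_singleton one_ne_zero]
      exact hell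
  rw [← hspan] at hmem
  obtain ⟨c, hc⟩ := Submodule.mem_span_singleton.mp hmem
  refine ⟨c, hi ?_⟩
  rw [map_smul, Algebra.smul_def, ← div_eq_iff hθu, ← hc, Algebra.smul_def, mul_one]

include hi hs in
/-- Linearly equivalent divisors give linearly equivalent ideals. -/
theorem lin_IF {D D' : Divisor K F} (hD : 0 ≤ D) (hD' : 0 ≤ D') {h : F} (hh : h ≠ 0)
    (hDD : ∀ v, v ≠ P0 → D v = D' v + v.ord h) : Lin (IF P0 θ hθ D) (IF P0 θ hθ D') := by
  have hE : 0 ≤ (pole h : Divisor K F) := pole_nonneg h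
  -- a denominator
  obtain ⟨f, hf, hf0⟩ : ∃ f ∈ LD P0 ((2 * (genusFF K F : ℤ) +
      Divisor.degree (pole h : Divisor K F)).toNat) (pole h), f ≠ 0 := by
    by_contra hcon
    push Not at hcon
    have h1 : LD P0 ((2 * (genusFF K F : ℤ) +
      Divisor.degree (pole h : Divisor K F)).toNat) (pole h) = ⊥ := (Submodule.eq_bot_iff _).mpr hcon
    have h2 := degree_nonneg hE
    have h3 := finrank_LD P0 (n := (2 * (genusFF K F : ℤ) +
      Divisor.degree (pole h : Divisor K F)).toNat) (D := pole h) (by omega)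
    rw [h1, finrank_bot] at h3
    omega
  obtain ⟨α, rfl⟩ := hs f ⟨_, LD_le P0 hE hf⟩
  obtain ⟨β, hβ⟩ := hs (h * θ α) (by
    rw [mem_regRing_iff]
    intro v hv
    rw [mem_iff_ord_nonneg v (mul_ne_zero hh hf0), v.ord_mul hh hf0]
    have := ((mem_LD_iff P0 hf0).mp hf).2 v hv
    rw [pole_apply] at this
    omega)
  have hβ0 : θ β ≠ 0 := by rw [hβ]; exact mul_ne_zero hh hf0
  have hα0 : α ≠ 0 := by rintro rfl; exact hf0 (map_zero θ)
  have hβ0' : β ≠ 0 := by rintro rfl; exact hβ0 (map_zero θ)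
  refine ⟨α, β, hα0, hβ0', le_antisymm ?_ ?_⟩
  · rw [Ideal.span_singleton_mul_le_iff]
    intro z hz
    by_cases hz0 : θ z = 0
    · have : z = 0 := hi (by rw [hz0, map_zero])
      rw [this, mul_zero]; exact zero_mem _
    rw [mem_IF_iff P0 θ hθ hz0] at hz
    have hdiv0 : θ z / h ≠ 0 := div_ne_zero hz0 hh
    have hord : ∀ v : Place K F, v.ord (θ z / h) = v.ord (θ z) - v.ord h := fun v => by
      rw [div_eq_mul_inv, v.ord_mul hz0 (inv_ne_zero hh), v.ord_inv]; ring
    have hge : ∀ v : Place K F, v ≠ P0 → D' v ≤ v.ord (θ z / h) := by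
      intro v hv
      rw [hord]
      have := hz v hv
      have := hDD v hv
      omega
    obtain ⟨z', hz'⟩ := hs (θ z / h) (by
      rw [mem_regRing_iff]
      intro v hv
      rw [mem_iff_ord_nonneg v hdiv0]
      exact (hD' v).trans (hge v hv))
    rw [Ideal.mem_span_singleton_mul]
    refine ⟨z', ?_, hi ?_⟩
    · rw [mem_IF_iff P0 θ hθ (by rw [hz']; exact hdiv0), hz']
      exact hge
    · rw [map_mul, map_mul, hβ, hz']
      field_simp
  · rw [Ideal.span_singleton_mul_le_iff]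
    intro z hz
    by_cases hz0 : θ z = 0
    · have : z = 0 := hi (by rw [hz0, map_zero])
      rw [this, mul_zero]; exact zero_mem _
    rw [mem_IF_iff P0 θ hθ hz0] at hz
    have hmul0 : h * θ z ≠ 0 := mul_ne_zero hh hz0
    have hge : ∀ v : Place K F, v ≠ P0 → D v ≤ v.ord (h * θ z) := by
      intro v hv
      rw [v.ord_mul hh hz0]
      have := hz v hv
      have := hDD v hv
      omega
    obtain ⟨z', hz'⟩ := hs (h * θ z) (by
      rw [mem_regRing_iff]
      intro v hv
      rw [mem_iff_ord_nonneg v hmul0]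
      exact (hD v).trans (hge v hv))
    rw [Ideal.mem_span_singleton_mul]
    refine ⟨z', ?_, hi ?_⟩
    · rw [mem_IF_iff P0 θ hθ (by rw [hz']; exact hmul0), hz']
      exact hge
    · rw [map_mul, map_mul, hβ, hz']
      ring

end Field

end Fermat.Agent.HopfOrder
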