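import Fermat.Agent.HopfOrder.Special

/-!
# Uniqueness of a nonspecial divisor in its class
-/

set_option autoImplicit false

namespace Fermat.Agent.HopfOrder

open PoleBasis

variable {K B : Type*} [Field K] [CommRing B] [Algebra K B] (P : PoleBasis K B)
  [IsDedekindDomain B] [Infinite K]

/-- A nonspecial divisor is unique in its class, among the divisors of the same degree. -/
theorem uniq_of_nonsp {D J : Ideal B} {d : ℕ} (hD : IsRel K D d) (hJ : IsRel K J d)
    (hns : Nonsp P D) (h : Lin J D) : J = D := by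
  have hD0 := hD.ne_bot P
  have hJ0 := hJ.ne_bot P
  obtain ⟨N0, hN0⟩ := exists_generic P hD0 hD0
  obtain ⟨n, hn0, hnm⟩ : ∃ n, N0 ≤ n ∧ P.m0 < n := ⟨N0 + P.m0 + 1, by omega, by omega⟩
  obtain ⟨s, hs, hsl, E, hE, -⟩ := hN0 n hn0
  have hs0 : s ≠ 0 := by rintro rfl; exact hsl (map_zero _)
  have hsrel : IsRel K (Ideal.span {s}) n := isRel_span_singleton_field P hnm hs hsl
  have hE0 : E ≠ ⊥ := by
    rintro rfl
    rw [Ideal.mul_bot] at hE
    exact span_ne_bot hs0 hE.symm
  obtain ⟨e, he⟩ := exists_isRel P hE0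
  have hDE := hD.mul_dedekind he hD0 hE0
  rw [hE] at hDE
  have hn := hDE.degree_unique hsrel
  obtain ⟨u, hu0, hu⟩ := h.symm.exists_principal (E := E) hs0 hE
  have hJE := hJ.mul_dedekind he hJ0 hE0
  rw [hu, hn] at hJE
  have hun : u ∈ P.fil n := mem_fil_of_degree_le P hnm.le hJE le_rfl
  have huE : u ∈ E := by
    have : u ∈ J * E := by rw [hu]; exact Ideal.mem_span_singleton_self u
    exact Ideal.mul_le_right this
  obtain ⟨c, hcu⟩ := hns E s n hnm.le hs0 hE hsrel u huE hun
  subst hcu
  have hc : c ≠ 0 := by rintro rfl; exact hu0 (zero_smul _ _)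
  have h1 : Ideal.span {c • s} = Ideal.span {s} := by
    apply le_antisymm
    · rw [Ideal.span_singleton_le_iff_mem, Algebra.smul_def]
      exact Ideal.mul_mem_left _ _ (Ideal.mem_span_singleton_self s)
    · rw [Ideal.span_singleton_le_iff_mem]
      have h2 : algebraMap K B c⁻¹ * (c • s) = s := by
        rw [← Algebra.smul_def, inv_smul_smul₀ hc]
      have h3 := Ideal.mul_mem_left (Ideal.span {c • s}) (algebraMap K B c⁻¹)
        (Ideal.mem_span_singleton_self (c • s))
      rwa [h2] at h3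
  rw [h1, ← hE] at hu
  exact mul_right_cancel₀ hE0 hu

end Fermat.Agent.HopfOrder
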