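import Fermat.Agent.HopfOrder.Dict
import Fermat.Agent.HopfOrder.Uniq

/-!
# Dictionary between divisors and ideals, over the valuation ring
-/

set_option autoImplicit false
set_option linter.unusedSectionVars false

open AlgebraicCurve WithZero Module
open scoped TensorProduct
open Fermat.Agent.RR Fermat.Agent.FF Fermat.Agent.Deuring

namespace Fermat.Agent.HopfOrder

attribute [local instance] nonempty_place finiteResidue

variable {K F k F' : Type*} [Field K] [Field F] [Algebra K F] [Field k] [Field F'] [Algebra k F']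
  [IsFF K F] [IsFF k F'] [IsAlgClosed K] [IsAlgClosed k]
variable {G : GaussData K F k F'} {P0 : Place K F}
variable {R : Type*} [CommRing R] [Algebra R K] [Algebra R k] [Algebra R F] [IsScalarTower R K F]
  [Algebra R G.A] [IsScalarTower R G.A K] [Algebra R F'] [IsScalarTower R k F']

/-- The data used in the dictionary. -/
structure Setup (G : GaussData K F k F') (P0 : Place K F) (R : Type*) [CommRing R] [Algebra R K]
    [Algebra R k] [Algebra R F] [IsScalarTower R K F] [Algebra R G.A] [IsScalarTower R G.A K]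
    [Algebra R F'] [IsScalarTower R k F'] where
  𝓡 : RatModel G P0 R
  Rd : RedMap G
  w : Place k F'
  hw : Rd.r (Finsupp.single P0 1) = Finsupp.single w 1
  P : PoleBasis R 𝓡.B
  hg : P.g = genusFF K F
  hm : P.m0 = RatModel.mm Rd
  hfil : ∀ n, RatModel.mm Rd ≤ n → P.fil n = 𝓡.Fil n

/-- Existence of the setup. -/
theorem exists_setup (𝓡 : RatModel G P0 R) (Rd : RedMap G) (w : Place k F')
    (hw : Rd.r (Finsupp.single P0 1) = Finsupp.single w 1) :
    ∃ S : Setup G P0 R, S.𝓡 = 𝓡 ∧ S.Rd = Rd ∧ S.w = w := by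
  obtain ⟨Q, h1, h2, h3⟩ := 𝓡.exists_preFil hw
  obtain ⟨P, h4, h5, h6⟩ := Q.exists_poleBasis
  exact ⟨⟨𝓡, Rd, w, hw, P, h4.trans h1, h5.trans h2, fun n hn => by
    rw [h6 n (by rw [h2]; exact hn), h3]⟩, rfl, rfl, rfl⟩

namespace Setup

variable (S : Setup G P0 R)

/-- The model ring -/
noncomputable abbrev B : Subalgebra R F := S.𝓡.B

lemma genus_eq (S : Setup G P0 R) : genusFF K F = genusFF k F' := RatModel.genus_eq S.Rd S.hw

/-- evaluation over `K` -/
noncomputable def evK : K ⊗[R] S.B →ₐ[K] F := evHom S.B.val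

/-- evaluation over `k` -/
noncomputable def evk : k ⊗[R] S.B →ₐ[k] F' := evHom S.𝓡.red

lemma evK_tmul (c : K) (b : S.B) : S.evK (c ⊗ₜ b) = c • (b : F) := evHom_tmul _ c b

lemma evk_tmul (c : k) (b : S.B) : S.evk (c ⊗ₜ b) = c • S.𝓡.red b := evHom_tmul _ c b

theorem isBC_K : IsBC P0 S.P S.evK := by
  have hmm : 2 * genusFF K F ≤ RatModel.mm S.Rd := by unfold RatModel.mm; omega
  refine isBC P0 S.P S.B.val S.hg (by rw [S.hm]; exact hmm) ?_ ?_
  · intro n hn b hb
    rw [S.hm] at hn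
    rw [S.hfil n hn] at hb
    exact hb
  · intro n hn
    rw [S.hm] at hn
    rw [S.hfil n hn]
    obtain ⟨e, heO, he, heL, hli⟩ := S.𝓡.basis n
    have hK := linearIndependent_of_ρ G heO hli
    have h1 : Submodule.span K (Set.range e) = LL P0 n := by
      apply Submodule.eq_of_le_of_finrank_le
      · rw [Submodule.span_le]
        rintro _ ⟨i, rfl⟩
        exact heL i
      · rw [finrank_span_eq_card hK, Fintype.card_fin]
    rw [← h1]
    apply Submodule.span_mono
    rintro _ ⟨i, rfl⟩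
    exact ⟨⟨e i, he i, heO i, n, heL i⟩, heL i, rfl⟩

theorem isBC_k : IsBC S.w S.P S.evk := by
  have hmm : 2 * genusFF k F' ≤ RatModel.mm S.Rd := by unfold RatModel.mm; omega
  have hn0 : S.Rd.n₀ ≤ RatModel.mm S.Rd := by unfold RatModel.mm; omega
  refine isBC S.w S.P S.𝓡.red (S.hg.trans S.genus_eq) (by rw [S.hm]; exact hmm) ?_ ?_
  · intro n hn b hb
    rw [S.hm] at hn
    rw [S.hfil n hn] at hb
    exact S.𝓡.red_mem_LL S.hw hb
  · intro n hn
    rw [S.hm] at hn
    rw [S.hfil n hn, S.𝓡.span_red, RatModel.redSpace_LL S.hw (by omega)]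

theorem isDedekindDomain_K : IsDedekindDomain (K ⊗[R] S.B) := S.isBC_K.isDedekindDomain

theorem isDedekindDomain_k : IsDedekindDomain (k ⊗[R] S.B) := S.isBC_k.isDedekindDomain

/-- The residue map. -/
noncomputable def π (S : Setup G P0 R) : G.A →ₐ[R] k :=
  { G.res with
    commutes' := fun r => by
      rw [← S.𝓡.res_eq r]
      change G.res _ = _
      congr 1
      apply Subtype.ext
      exact (IsScalarTower.algebraMap_apply R G.A K r).symm }

lemma π_apply (a : G.A) : S.π a = G.res a := rfl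

lemma π_surjective : Function.Surjective S.π := G.res_surj

/-- Evaluation over `A`. -/
noncomputable def evA : G.A ⊗[R] S.B →+* F :=
  (S.evK : K ⊗[R] S.B →+* F).comp (PoleBasis.sp S.B (incl (R := R) G.A) :
    G.A ⊗[R] S.B →+* K ⊗[R] S.B)

lemma evA_apply (z : G.A ⊗[R] S.B) :
    S.evA z = S.evK (PoleBasis.sp S.B (incl (R := R) G.A) z) := rfl

lemma evA_tmul (a : G.A) (b : S.B) : S.evA (a ⊗ₜ b) = (a : K) • (b : F) := by
  rw [evA_apply, PoleBasis.sp_tmul, evK_tmul]
  rfl

lemma evA_smul (a : G.A) (z : G.A ⊗[R] S.B) : S.evA (a • z) = (a : K) • S.evA z := by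
  rw [evA_apply, PoleBasis.sp_smul, map_smul]
  rfl

lemma evA_mem_O (z : G.A ⊗[R] S.B) : S.evA z ∈ G.O := by
  induction z with
  | zero => rw [map_zero]; exact G.O.zero_mem
  | tmul a b =>
    rw [evA_tmul]
    exact G.smul_mem a.2 b.2.2.1
  | add x y hx hy => rw [map_add]; exact G.O.add_mem _ _ hx hy

lemma evA_mem_regRing (z : G.A ⊗[R] S.B) : S.evA z ∈ regRing P0 := S.isBC_K.mem _

/-- Compatibility with the reduction. -/
lemma evk_sp (z : G.A ⊗[R] S.B) :
    S.evk (PoleBasis.sp S.B S.π z) = G.ρ ⟨S.evA z, S.evA_mem_O z⟩ := by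
  let f : G.A ⊗[R] S.B →+* G.O := S.evA.codRestrict G.O.toSubring S.evA_mem_O
  have hf : ∀ z, G.ρ ⟨S.evA z, S.evA_mem_O z⟩ = G.ρ (f z) := fun z => rfl
  rw [hf]
  induction z with
  | zero => rw [map_zero, map_zero, map_zero, map_zero]
  | tmul a b =>
    rw [PoleBasis.sp_tmul, evk_tmul, ← hf]
    have h1 : (a : K) • (b : F) ∈ G.O := G.smul_mem a.2 b.2.2.1
    have h2 := G.ρ_smul a.2 b.2.2.1 h1
    have h3 : (⟨S.evA (a ⊗ₜ b), S.evA_mem_O (a ⊗ₜ b)⟩ : G.O) = ⟨(a : K) • (b : F), h1⟩ :=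
      Subtype.ext (S.evA_tmul a b)
    rw [h3, h2]
    rfl
  | add x y hx hy => rw [map_add, map_add, map_add, map_add, hx, hy]

lemma exists_evA {f : F} (hf : f ∈ G.O) {n : ℕ} (hn : f ∈ LL P0 n) :
    ∃ z : G.A ⊗[R] S.B, S.evA z = f := by
  obtain ⟨e, heO, he, heL, hli⟩ := S.𝓡.basis n
  have hK := linearIndependent_of_ρ G heO hli
  have h1 : Submodule.span K (Set.range e) = LL P0 n := by
    apply Submodule.eq_of_le_of_finrank_le
    · rw [Submodule.span_le]
      rintro _ ⟨i, rfl⟩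
      exact heL i
    · rw [finrank_span_eq_card hK, Fintype.card_fin]
  rw [← h1] at hn
  obtain ⟨c, rfl⟩ := (Submodule.mem_span_range_iff_exists_fun K).mp hn
  have hc : ∀ i, c i ∈ G.A := fun i => G.coord_mem heO hli hf i
  refine ⟨∑ i, (⟨c i, hc i⟩ : G.A) ⊗ₜ (⟨e i, he i, heO i, n, heL i⟩ : S.B), ?_⟩
  rw [_root_.map_sum]
  exact Finset.sum_congr rfl fun i _ => S.evA_tmul _ _

lemma evA_injective : Function.Injective S.evA := by
  rw [injective_iff_map_eq_zero]
  intro z hz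
  rw [evA_apply] at hz
  have h1 := S.isBC_K.inj (hz.trans (map_zero S.evK).symm)
  apply (S.P.bas G.A).repr.injective
  rw [map_zero]
  ext i
  have h2 := S.P.repr_sp (incl (R := R) G.A) z i
  rw [h1, map_zero, Finsupp.zero_apply] at h2
  exact h2.symm

/-- The ideal of a divisor over `A`. -/
noncomputable def IA (D : Divisor K F) : Ideal (G.A ⊗[R] S.B) :=
  ID P0 S.evA S.evA_mem_regRing D

/-- The ideal of a divisor over `K`. -/
noncomputable def IK (D : Divisor K F) : Ideal (K ⊗[R] S.B) := IF P0 S.evK S.isBC_K.mem D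

/-- The ideal of a divisor over `k`. -/
noncomputable def Ik (D : Divisor k F') : Ideal (k ⊗[R] S.B) := IF S.w S.evk S.isBC_k.mem D

lemma mem_IA {D : Divisor K F} {z : G.A ⊗[R] S.B} :
    z ∈ S.IA D ↔ ∃ n : ℕ, S.evA z ∈ LD P0 n D := Iff.rfl

lemma mem_IK {D : Divisor K F} {z : K ⊗[R] S.B} :
    z ∈ S.IK D ↔ ∃ n : ℕ, S.evK z ∈ LD P0 n D := Iff.rfl

lemma mem_Ik {D : Divisor k F'} {z : k ⊗[R] S.B} :
    z ∈ S.Ik D ↔ ∃ n : ℕ, S.evk z ∈ LD S.w n D := Iff.rfl

/-- `D` is effective and its reduction is disjoint from `w`. -/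
structure Good (D : Divisor K F) : Prop where
  nonneg : 0 ≤ D
  red : S.Rd.r D S.w = 0

variable {S}

lemma Good.apply_P0 {D : Divisor K F} (h : S.Good D) : D P0 = 0 := by
  classical
  have h1 : (0 : Divisor K F) ≤ D - Finsupp.single P0 (D P0) := by
    intro v
    rw [Finsupp.sub_apply, Finsupp.single_apply]
    have := h.nonneg v
    simp only [Finsupp.coe_zero, Pi.zero_apply] at this ⊢
    split_ifs with hv
    · subst hv; omega
    · omega
  have h2 := S.Rd.nonneg _ h1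
  obtain ⟨m, hm⟩ : ∃ m : ℕ, D P0 = m := ⟨(D P0).toNat, by
    have := h.nonneg P0
    simp only [Finsupp.coe_zero, Pi.zero_apply] at this
    omega⟩
  rw [map_sub, hm, RatModel.r_single S.hw] at h2
  have h3 := h2 S.w
  rw [Finsupp.sub_apply, h.red, Finsupp.single_eq_same] at h3
  simp only [Finsupp.coe_zero, Pi.zero_apply] at h3
  omega

lemma Good.red_nonneg {D : Divisor K F} (h : S.Good D) : 0 ≤ S.Rd.r D := S.Rd.nonneg D h.nonneg

lemma Good.add {D D' : Divisor K F} (h : S.Good D) (h' : S.Good D') : S.Good (D + D') :=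
  ⟨add_nonneg h.nonneg h'.nonneg, by rw [map_add, Finsupp.add_apply, h.red, h'.red, add_zero]⟩

lemma redSpace_LD_le (n : ℕ) (D : Divisor K F) :
    G.redSpace (LD P0 n D) ≤ LD S.w n (S.Rd.r D) := by
  have := S.Rd.redSpace_le (Finsupp.single P0 (n : ℤ) - D)
  rwa [map_sub, RatModel.r_single S.hw] at this

variable (S)

/-- The independence of the family used in the construction of coordinates. -/
lemma indep_family {D : Divisor K F} (hD : S.Good D) {d N : ℕ} {f : Fin d → F}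
    (hfO : ∀ j, f j ∈ G.O)
    (hf : IsCompl' S.w N (S.Rd.r D) (fun j => G.ρ ⟨f j, hfO j⟩)) {n : ℕ} {ι : Type*} [Fintype ι]
    {b : ι → F} (hb : ∀ i, b i ∈ LD P0 n D) (hbO : ∀ i, b i ∈ G.O)
    (hbi : LinearIndependent k (fun i => G.ρ ⟨b i, hbO i⟩)) :
    ∃ hO : ∀ i, Sum.elim b f i ∈ G.O, LinearIndependent k (fun i => G.ρ ⟨Sum.elim b f i, hO i⟩) := by
  refine ⟨fun i => by rcases i with i | j; exacts [hbO i, hfO j], ?_⟩
  have h1 : LinearIndependent k (Sum.elim (fun i => G.ρ ⟨b i, hbO i⟩)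
      (fun j => G.ρ ⟨f j, hfO j⟩)) := by
    refine LinearIndependent.sum_type hbi ?_ ?_
    · rw [Fintype.linearIndependent_iff]
      intro c hc
      have := hf.indep c (by rw [hc]; exact Submodule.zero_mem _)
      exact fun i => congrFun this i
    · rw [Submodule.disjoint_def]
      intro y hy hy'
      obtain ⟨c, rfl⟩ := (Submodule.mem_span_range_iff_exists_fun k).mp hy'
      have h2 : Submodule.span k (Set.range fun i => G.ρ ⟨b i, hbO i⟩) ≤
          LD S.w n (S.Rd.r D) := by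
        rw [Submodule.span_le]
        rintro _ ⟨i, rfl⟩
        exact redSpace_LD_le n D ⟨b i, hb i, hbO i, rfl⟩
      have h3 := hf.uniq S.w hD.red (h2 hy)
      rw [h3]; simp
  convert h1 using 1
  funext i
  rcases i with i | j <;> rfl

/-- Relative divisors from divisors. -/
theorem isRel_IA {D : Divisor K F} (hD : S.Good D) {d : ℕ} (hd : (d : ℤ) = Divisor.degree D) :
    IsRel G.A (S.IA D) d := by
  classical
  have hdeg : 0 ≤ Divisor.degree D := degree_nonneg hD.nonneg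
  have hgen := S.genus_eq
  -- choose `N`
  obtain ⟨N, hN1, hN2⟩ : ∃ N : ℕ, 2 * (genusFF K F : ℤ) - 1 + Divisor.degree D ≤ N ∧
      S.Rd.n₀ ≤ N := ⟨(2 * (genusFF K F : ℤ) + Divisor.degree D).toNat + S.Rd.n₀.toNat, by omega,
    by omega⟩
  have hdegr : Divisor.degree (S.Rd.r D) = Divisor.degree D := S.Rd.degree_r D
  obtain ⟨fb, hfb⟩ := exists_isCompl' S.w hD.red_nonneg (N := N)
    (by rw [hdegr, ← hgen]; exact hN1) (hd.trans hdegr.symm)
  have hlift : ∀ j, ∃ f : F, ∃ (_ : f ∈ LL P0 N) (h : f ∈ G.O), G.ρ ⟨f, h⟩ = fb j := by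
    intro j
    have := hfb.mem j
    rwa [← RatModel.redSpace_LL S.hw hN2, GaussData.mem_redSpace] at this
  choose f hfL hfO hfr using hlift
  have hf : IsCompl' S.w N (S.Rd.r D) (fun j => G.ρ ⟨f j, hfO j⟩) := by
    have : (fun j => G.ρ ⟨f j, hfO j⟩) = fb := funext hfr
    rw [this]; exact hfb
  -- complement over `K`
  have hfam : ∀ n : ℕ, ∃ (ι : Type) (_ : Fintype ι) (b : ι → F) (hO : ∀ i, Sum.elim b f i ∈ G.O),
      (∀ i, b i ∈ LD P0 n D) ∧ Submodule.span K (Set.range b) = LD P0 n D ∧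
      LinearIndependent k (fun i => G.ρ ⟨Sum.elim b f i, hO i⟩) := by
    intro n
    obtain ⟨b, hb, hbi⟩ := G.ortho (LD P0 n D)
    obtain ⟨hO, hOi⟩ := S.indep_family hD hfO hf (n := n) (b := fun i => ((b i : LD P0 n D) : F))
      (fun i => (b i).2) hb hbi
    refine ⟨_, inferInstance, fun i => ((b i : LD P0 n D) : F), hO, fun i => (b i).2, ?_, hOi⟩
    have h1 := b.span_eq
    have h2 := congrArg (Submodule.map (LD P0 n D).subtype) h1
    rw [Submodule.map_span, Submodule.map_subtype_top, ← Set.range_comp] at h2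
    exact h2
  have hfK : IsCompl' P0 N D f := by
    refine ⟨hd, hN1, hfL, fun c hc => ?_⟩
    obtain ⟨ι, _, b, hO, hb, hspan, hli⟩ := hfam N
    rw [← hspan] at hc
    obtain ⟨a, ha⟩ := (Submodule.mem_span_range_iff_exists_fun K).mp hc
    have h1 := linearIndependent_of_ρ G hO hli
    rw [Fintype.linearIndependent_iff] at h1
    have h2 := h1 (Sum.elim (fun i => -a i) c) (by
      rw [Fintype.sum_sum_type]
      simp only [Sum.elim_inl, Sum.elim_inr, neg_smul, Finset.sum_neg_distrib]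
      rw [ha]
      simp)
    funext j
    exact h2 (Sum.inr j)
  choose z hz using fun j => S.exists_evA (hfO j) (hfL j)
  have hsum : ∀ c : Fin d → G.A, S.evA (∑ j, c j • z j) = ∑ j, (c j : K) • f j := by
    intro c
    rw [_root_.map_sum]
    exact Finset.sum_congr rfl fun j _ => by rw [evA_smul, hz]
  refine isRel_of_filtered z (fun x => ?_) (fun c hc => ?_)
  · obtain ⟨n, hn⟩ := S.evA_mem_regRing x
    have hn' : S.evA x ∈ LL P0 (n + N) := LL_mono P0 (by omega) hn
    obtain ⟨c, hc⟩ := hfK.ex P0 hD.nonneg hD.apply_P0 (n := n + N) (by omega) hn'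
    obtain ⟨ι, _, b, hO, hb, hspan, hli⟩ := hfam (n + N)
    have hc' := hc
    rw [← hspan] at hc
    obtain ⟨a, ha⟩ := (Submodule.mem_span_range_iff_exists_fun K).mp hc
    have hx : S.evA x = ∑ i, (Sum.elim a c : ι ⊕ Fin d → K) i • Sum.elim b f i := by
      rw [Fintype.sum_sum_type]
      simp only [Sum.elim_inl, Sum.elim_inr]
      rw [ha]; abel
    have hcA : ∀ i, (Sum.elim a c : ι ⊕ Fin d → K) i ∈ G.A := fun i =>
      G.coord_mem hO hli (by rw [← hx]; exact S.evA_mem_O x) i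
    refine ⟨fun j => ⟨c j, hcA (Sum.inr j)⟩, n + N, ?_⟩
    rw [map_sub, hsum]
    exact hc'
  · obtain ⟨n, hn⟩ := hc
    rw [hsum] at hn
    have := hfK.uniq P0 hD.apply_P0 hn
    funext j
    exact Subtype.ext (congrFun this j)

theorem isRel_IK {D : Divisor K F} (hD : 0 ≤ D) (hP : D P0 = 0) {d : ℕ}
    (hd : (d : ℤ) = Divisor.degree D) : IsRel K (S.IK D) d :=
  isRel_IF P0 S.evK S.isBC_K.mem S.isBC_K.surj hD hP hd

theorem isRel_Ik {D : Divisor k F'} (hD : 0 ≤ D) (hP : D S.w = 0) {d : ℕ}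
    (hd : (d : ℤ) = Divisor.degree D) : IsRel k (S.Ik D) d :=
  isRel_IF S.w S.evk S.isBC_k.mem S.isBC_k.surj hD hP hd

theorem map_IA_K {D : Divisor K F} (hD : S.Good D) :
    (S.IA D).map (PoleBasis.sp S.B (incl (R := R) G.A)) = S.IK D := by
  have hdeg : 0 ≤ Divisor.degree D := degree_nonneg hD.nonneg
  have h1 := S.isRel_IA hD (d := (Divisor.degree D).toNat) (by omega)
  have h2 := S.isRel_IK hD.nonneg hD.apply_P0 (d := (Divisor.degree D).toNat) (by omega)
  refine (h1.baseChange S.P (incl (R := R) G.A)).eq_of_le h2 le_rfl ?_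
  rw [Ideal.map_le_iff_le_comap]
  rintro z ⟨n, hn⟩
  exact ⟨n, hn⟩

theorem map_IA_k {D : Divisor K F} (hD : S.Good D) :
    (S.IA D).map (PoleBasis.sp S.B S.π) = S.Ik (S.Rd.r D) := by
  have hdeg : 0 ≤ Divisor.degree D := degree_nonneg hD.nonneg
  have h1 := S.isRel_IA hD (d := (Divisor.degree D).toNat) (by omega)
  have h2 := S.isRel_Ik hD.red_nonneg hD.red (d := (Divisor.degree D).toNat)
    (by rw [S.Rd.degree_r]; omega)
  refine (h1.baseChange S.P S.π).eq_of_le h2 le_rfl ?_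
  rw [Ideal.map_le_iff_le_comap]
  rintro z ⟨n, hn⟩
  refine ⟨n, ?_⟩
  change S.evk (PoleBasis.sp S.B S.π z) ∈ _
  rw [S.evk_sp]
  exact redSpace_LD_le n D ⟨S.evA z, hn, S.evA_mem_O z, rfl⟩

end Setup

end Fermat.Agent.HopfOrder
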