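import Fermat.Agent.HopfOrder.Residual

/-!
# Facts on the fibres

`K` is a field and `B` is a Dedekind domain with a pole basis over `K`.
-/

set_option autoImplicit false

open scoped TensorProduct

namespace Fermat.Agent.HopfOrder

open PoleBasis

section Dedekind

variable {K B : Type*} [Field K] [CommRing B] [Algebra K B] [IsDedekindDomain B]
  {J J' : Ideal B} {d d' : ℕ}

/-- Additivity of the codimension. -/
lemma IsRel.mul_dedekind (h : IsRel K J d) (h' : IsRel K J' d') (hJ : J ≠ ⊥) (hJ' : J' ≠ ⊥) :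
    IsRel K (J * J') (d + d') := by
  have hne : J * J' ≠ 0 := mul_ne_zero hJ hJ'
  obtain ⟨a, ha⟩ := IsDedekindDomain.exists_sup_span_eq (I := J * J') (J := J)
    Ideal.mul_le_left hne
  have haJ : a ∈ J := by
    rw [← ha]; exact Ideal.mem_sup_right (Ideal.mem_span_singleton_self a)
  let S := (J * J').restrictScalars K
  let W := (J.restrictScalars K).map S.mkQ
  have hST : S ≤ J.restrictScalars K := fun x hx => Ideal.mul_le_left hx
  -- `a b ∈ J * J'` iff `b ∈ J'`
  have hab : ∀ b, a * b ∈ J * J' ↔ b ∈ J' := by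
    intro b
    refine ⟨fun hb => ?_, fun hb => Ideal.mul_mem_mul haJ hb⟩
    -- write `(a) = J L`
    obtain ⟨L, hL⟩ := Ideal.dvd_iff_le.mpr ((Ideal.span_singleton_le_iff_mem J).mpr haJ)
    have h1 : J' ⊔ L = ⊤ := by
      have h2 : J * (J' ⊔ L) = J * ⊤ := by rw [Ideal.mul_sup, ← hL, ha, Ideal.mul_top]
      exact mul_left_cancel₀ (a := J) hJ h2
    have h3 : L * Ideal.span {b} ≤ J' := by
      have h4 : J * (L * Ideal.span {b}) ≤ J * J' := by
        rw [← mul_assoc, ← hL, Ideal.span_singleton_mul_span_singleton,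
          Ideal.span_singleton_le_iff_mem]
        exact hb
      rw [← Ideal.dvd_iff_le] at h4 ⊢
      exact (mul_dvd_mul_iff_left (a := J) hJ).mp h4
    have h5 : Ideal.span {b} ≤ J' := by
      calc Ideal.span {b} = (J' ⊔ L) * Ideal.span {b} := by rw [h1, Ideal.top_mul]
        _ = J' * Ideal.span {b} ⊔ L * Ideal.span {b} := by rw [Ideal.sup_mul]
        _ ≤ J' := sup_le Ideal.mul_le_left h3
    exact (Ideal.span_singleton_le_iff_mem J').mp h5
  let f0 : B →ₗ[K] (B ⧸ S) := S.mkQ ∘ₗ LinearMap.mulLeft K a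
  let f : B →ₗ[K] W := f0.codRestrict W (fun b => ⟨a * b, J.mul_mem_right _ haJ, rfl⟩)
  have hfs : Function.Surjective f := by
    rintro ⟨_, ⟨x, hx, rfl⟩⟩
    have hx' : x ∈ J := hx
    rw [← ha] at hx'
    obtain ⟨u, hu, v, hv, huv⟩ := Submodule.mem_sup.mp hx'
    obtain ⟨b, rfl⟩ := Ideal.mem_span_singleton'.mp hv
    refine ⟨b, Subtype.ext ?_⟩
    change S.mkQ (a * b) = S.mkQ x
    rw [← huv, map_add]
    have : S.mkQ u = 0 := (Submodule.Quotient.mk_eq_zero S).mpr hu
    rw [this, zero_add, mul_comm]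
  have hfk : ∀ b, b ∈ J' ↔ f b = 0 := by
    intro b
    rw [← hab b]
    constructor
    · intro hb
      exact Subtype.ext ((Submodule.Quotient.mk_eq_zero S).mpr hb)
    · intro hb
      exact (Submodule.Quotient.mk_eq_zero S).mp (congrArg Subtype.val hb)
  -- dimension of `W`
  have hker : LinearMap.ker f = J'.restrictScalars K := by
    ext b; rw [LinearMap.mem_ker, ← hfk b]; rfl
  let eW : (B ⧸ J'.restrictScalars K) ≃ₗ[K] W :=
    (Submodule.quotEquivOfEq _ _ hker.symm).trans (f.quotKerEquivOfSurjective hfs)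
  obtain ⟨e'⟩ := h'
  obtain ⟨e⟩ := h
  have e'' : (B ⧸ J'.restrictScalars K) ≃ₗ[K] (Fin d' → K) := e'
  have e3 : (B ⧸ J.restrictScalars K) ≃ₗ[K] (Fin d → K) := e
  have hWf : Module.Finite K W := Module.Finite.equiv (e''.symm.trans eW)
  have hWr : Module.finrank K W = d' := by
    rw [← (e''.symm.trans eW).finrank_eq]; simp
  let eQ : ((B ⧸ S) ⧸ W) ≃ₗ[K] (B ⧸ J.restrictScalars K) :=
    Submodule.quotientQuotientEquivQuotient S (J.restrictScalars K) hST
  have hQf : Module.Finite K ((B ⧸ S) ⧸ W) := Module.Finite.equiv (eQ.trans e3).symm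
  have hQr : Module.finrank K ((B ⧸ S) ⧸ W) = d := by
    rw [(eQ.trans e3).finrank_eq]; simp
  have hV : Module.Finite K (B ⧸ S) := Module.Finite.of_submodule_quotient W
  have hr := Submodule.finrank_quotient_add_finrank W
  rw [hQr, hWr] at hr
  rw [hr]
  refine isRel_of_module S.mkQ (Submodule.mkQ_surjective S) fun x => ?_
  rw [Submodule.mkQ_apply, Submodule.Quotient.mk_eq_zero]
  rfl

end Dedekind

section PB

variable {K B : Type*} [Field K] [CommRing B] [Algebra K B] (P : PoleBasis K B)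

lemma IsRel.mono_degree {J J' : Ideal B} {d : ℕ} (h : IsRel K J d) (hle : J ≤ J') :
    ∃ d' ≤ d, IsRel K J' d' := by
  have := h.finite
  have hs := Ideal.Quotient.factor_surjective hle
  have : Module.Finite K (B ⧸ J') :=
    Module.Finite.of_surjective (Ideal.Quotient.factorₐ K hle).toLinearMap hs
  refine ⟨Module.finrank K (B ⧸ J'), ?_, ⟨(Module.finBasis K (B ⧸ J')).equivFun⟩⟩
  have := LinearMap.finrank_le_finrank_of_surjective (f := (Ideal.Quotient.factorₐ K hle).toLinearMap) hs
  rwa [h.finrank] at this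

lemma IsRel.degree_unique {J : Ideal B} {d d' : ℕ} (h : IsRel K J d) (h' : IsRel K J d') :
    d = d' := by rw [← h.finrank, h'.finrank]

include P in
lemma not_finite : ¬ Module.Finite K B := by
  intro h
  exact not_finite_iff_infinite.mpr inferInstance (Module.Finite.finite_basis P.b)

include P in
lemma IsRel.ne_bot {J : Ideal B} {d : ℕ} (h : IsRel K J d) : J ≠ ⊥ := by
  rintro rfl
  have := h.finite
  apply not_finite P
  exact Module.Finite.equiv (AlgEquiv.quotientBot K B).toLinearEquiv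

/-- Exact order. -/
lemma exists_exact {x : B} (hx : x ∉ P.fil P.m0) :
    ∃ N, P.m0 < N ∧ x ∈ P.fil N ∧ P.lc N x ≠ 0 := by
  classical
  obtain ⟨n, hn, hxn⟩ := P.exists_mem_fil x
  have hex : ∃ n, P.m0 ≤ n ∧ x ∈ P.fil n := ⟨n, hn, hxn⟩
  let N := Nat.find hex
  obtain ⟨h1, h2⟩ := Nat.find_spec hex
  have hne : N ≠ P.m0 := by
    intro h; apply hx; rw [← h]; exact h2
  have hlt : P.m0 < N := lt_of_le_of_ne h1 hne.symm
  refine ⟨N, hlt, h2, fun h0 => ?_⟩
  have := P.mem_fil_pred hlt h2 h0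
  exact Nat.find_min hex (m := N - 1) (by omega) ⟨by omega, this⟩

variable [IsDomain B]

/-- Multiplying by a basis element one reaches exact order larger than `m0`. -/
lemma exists_mul_exact {u : B} (hu : u ≠ 0) : ∃ k N, P.m0 < k ∧ P.m0 < N ∧
    u * P.b (k - P.g) ∈ P.fil N ∧ P.lc N (u * P.b (k - P.g)) ≠ 0 := by
  by_contra hcon
  push Not at hcon
  have hall : ∀ k, P.m0 < k → u * P.b (k - P.g) ∈ P.fil P.m0 := by
    intro k hk
    by_contra hne
    obtain ⟨N, hN, h1, h2⟩ := exists_exact P hne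
    exact h2 (hcon k N hk hN h1)
  have hg := P.hg
  let M := P.m0 + 2
  let f : (Fin M → K) →ₗ[K] P.fil P.m0 := LinearMap.codRestrict (P.fil P.m0)
    (Fintype.linearCombination K (fun i : Fin M => u * P.b ((P.m0 + 1 + i) - P.g))) (by
      intro c
      rw [Fintype.linearCombination_apply]
      exact Submodule.sum_mem _ fun i _ => Submodule.smul_mem _ _ (hall _ (by omega)))
  have hf : Function.Injective f := by
    rw [injective_iff_map_eq_zero]
    intro c hc
    have h1 : ∑ i : Fin M, c i • (u * P.b ((P.m0 + 1 + i) - P.g)) = 0 := by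
      have := congrArg Subtype.val hc
      rw [← Fintype.linearCombination_apply K]
      exact this
    have h2 : u * ∑ i : Fin M, c i • P.b ((P.m0 + 1 + i) - P.g) = 0 := by
      rw [Finset.mul_sum, ← h1]
      exact Finset.sum_congr rfl fun i _ => by rw [mul_smul_comm]
    have h3 := (mul_eq_zero.mp h2).resolve_left hu
    have hli : LinearIndependent K (fun i : Fin M => P.b ((P.m0 + 1 + i) - P.g)) := by
      apply P.b.linearIndependent.comp
      intro i j hij
      have : P.m0 + 1 + (i : ℕ) - P.g = P.m0 + 1 + (j : ℕ) - P.g := hij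
      exact Fin.ext (by omega)
    funext i
    exact Fintype.linearIndependent_iff.mp hli c h3 i
  have := LinearMap.finrank_le_finrank_of_injective hf
  rw [P.finrank_fil] at this
  simp only [Module.finrank_fintype_fun_eq_card, Fintype.card_fin, M] at this
  omega

include P in
/-- Nonzero ideals have finite codimension. -/
lemma exists_isRel {J : Ideal B} (hJ : J ≠ ⊥) : ∃ d, IsRel K J d := by
  obtain ⟨u, huJ, hu⟩ := Submodule.exists_mem_ne_zero_of_ne_bot hJ
  obtain ⟨k, N, hk, hN, h1, h2⟩ := exists_mul_exact P hu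
  have h3 := isRel_span_singleton_field P hN h1 h2
  obtain ⟨d, -, hd⟩ := h3.mono_degree
    ((Ideal.span_singleton_le_iff_mem J).mpr (J.mul_mem_right _ huJ))
  exact ⟨d, hd⟩

end PB

section PBD

variable {K B : Type*} [Field K] [CommRing B] [Algebra K B] (P : PoleBasis K B)
  [IsDedekindDomain B]

omit [IsDedekindDomain B] in
lemma b_ne_zero (i : ℕ) : P.b i ≠ 0 := P.b.ne_zero i

omit [IsDedekindDomain B] in
lemma span_ne_bot {x : B} (hx : x ≠ 0) : Ideal.span {x} ≠ ⊥ := by
  rwa [Ne, Ideal.span_singleton_eq_bot]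

/-- Codimension of principal ideals in terms of the pole order. -/
lemma isRel_of_exact {n : ℕ} (hn : P.m0 < n) {u : B} (hu : u ∈ P.fil n) (hl : P.lc n u ≠ 0) :
    IsRel K (Ideal.span {u}) n := isRel_span_singleton_field P hn hu hl

lemma degree_le_of_mem_fil {n d : ℕ} (hn : P.m0 ≤ n) {u : B} (hu0 : u ≠ 0) (hu : u ∈ P.fil n)
    (hd : IsRel K (Ideal.span {u}) d) : d ≤ n := by
  obtain ⟨k, N, hk, hN, h1, h2⟩ := exists_mul_exact P hu0
  have hg := P.hg
  have hb : P.b (k - P.g) ∈ P.fil k := P.b_mem_fil (by omega)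
  have h3 := isRel_of_exact P hN h1 h2
  have h4 : IsRel K (Ideal.span {P.b (k - P.g)}) k :=
    isRel_of_exact P hk hb (by rw [P.lc_b]; exact one_ne_zero)
  have h5 := hd.mul_dedekind h4 (span_ne_bot hu0) (span_ne_bot (b_ne_zero P _))
  rw [Ideal.span_singleton_mul_span_singleton] at h5
  have h6 : N = d + k := h3.degree_unique h5
  by_contra hlt
  apply h2
  exact P.lc_eq_zero_of_mem (n := n + k) (by omega) hN (P.mul_mem_fil hn hk.le hu hb)

lemma mem_fil_of_degree_le {n d : ℕ} (hn : P.m0 ≤ n) {u : B}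
    (hd : IsRel K (Ideal.span {u}) d) (hdn : d ≤ n) : u ∈ P.fil n := by
  by_cases h : u ∈ P.fil P.m0
  · exact P.fil_mono hn h
  · obtain ⟨N, hN, h1, h2⟩ := exists_exact P h
    have := (isRel_of_exact P hN h1 h2).degree_unique hd
    exact P.fil_mono (by omega) h1

lemma lc_ne_zero_of_degree_eq {n : ℕ} (hn : P.m0 < n) {u : B} (hu0 : u ≠ 0)
    (hd : IsRel K (Ideal.span {u}) n) : P.lc n u ≠ 0 := by
  intro h0
  have h1 := mem_fil_of_degree_le P hn.le hd le_rfl
  have h2 := P.mem_fil_pred hn h1 h0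
  have := degree_le_of_mem_fil P (by omega) hu0 h2 hd
  omega

omit [IsDedekindDomain B] in
/-- A finite-codimensional ideal and large `fil n` span everything. -/
lemma exists_fil_sup {J : Ideal B} {d : ℕ} (h : IsRel K J d) :
    ∃ n0, ∀ n, n0 ≤ n → ∀ y : B, ∃ z ∈ P.fil n, y - z ∈ J := by
  obtain ⟨π, hs, hk⟩ := h.exists_coord
  choose e he using fun i : Fin d => hs (Pi.single i 1)
  choose m hm using fun i : Fin d => P.exists_le_mem_fil (e i)
  refine ⟨Finset.univ.sup m, fun n hn y => ?_⟩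
  refine ⟨∑ i, π y i • e i, Submodule.sum_mem _ fun i _ => Submodule.smul_mem _ _
    (hm i n ((Finset.le_sup (Finset.mem_univ i)).trans hn)), ?_⟩
  rw [hk, map_sub, map_sum, sub_eq_zero]
  funext j
  simp only [map_smul, he, Finset.sum_apply, Pi.smul_apply, smul_eq_mul]
  rw [Finset.sum_eq_single j]
  · simp
  · intro k _ hk
    rw [Pi.single_eq_of_ne hk.symm]; simp
  · simp

/-- Generic sections. -/
lemma exists_generic [Infinite K] {J Q : Ideal B} (hJ : J ≠ ⊥) (hQ : Q ≠ ⊥) :
    ∃ N0, ∀ n, N0 ≤ n → ∃ s ∈ P.fil n, P.lc n s ≠ 0 ∧ ∃ D : Ideal B,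
      J * D = Ideal.span {s} ∧ D ⊔ Q = ⊤ := by
  classical
  let PP := (UniqueFactorizationMonoid.normalizedFactors Q).toFinset
  have hPP : ∀ p, p ∈ PP ↔ p.IsPrime ∧ Q ≤ p := by
    intro p
    rw [Multiset.mem_toFinset]
    exact Ideal.mem_normalizedFactors_iff hQ
  -- elements of `J` outside `J p`
  have hex : ∀ p : Ideal B, ∃ x : B, p ∈ PP → x ∈ J ∧ x ∉ J * p := by
    intro p
    by_cases hp : p ∈ PP
    · by_contra hcon
      push Not at hcon
      have h1 : J ≤ J * p := by
        intro x hx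
        by_contra hxp
        obtain ⟨-, h2⟩ := hcon x
        exact hxp (h2 hx)
      have h2 : J * p = J * ⊤ := by
        rw [Ideal.mul_top]; exact le_antisymm Ideal.mul_le_left h1
      have h3 := mul_left_cancel₀ (a := J) hJ h2
      exact ((hPP p).mp hp).1.ne_top h3
    · exact ⟨0, fun h => absurd h hp⟩
  choose x hx using hex
  choose m hm using fun p : Ideal B => P.exists_le_mem_fil (x p)
  obtain ⟨u, huJ, hu0⟩ := Submodule.exists_mem_ne_zero_of_ne_bot hJ
  obtain ⟨k, N, hk, hN, h1, h2⟩ := exists_mul_exact P hu0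
  have hg := P.hg
  refine ⟨PP.sup m + (N + P.m0 + 1), fun n hn => ?_⟩
  let V : Submodule K B := J.restrictScalars K ⊓ P.fil n
  let Vp : Ideal B → Submodule K V := fun p => ((J * p).restrictScalars K).comap V.subtype
  let Vl : Submodule K V := (LinearMap.ker (P.lc n)).comap V.subtype
  let F : Finset (Subspace K V) := insert Vl (PP.image Vp)
  have htop : (⊤ : Subspace K V) ∉ F := by
    intro hmem
    rcases Finset.mem_insert.mp hmem with h | h
    · -- leading coefficient
      have h3 : (u * P.b (k - P.g)) * P.b (n - N - P.g) ∈ V := by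
        refine ⟨J.mul_mem_right _ (J.mul_mem_right _ huJ), ?_⟩
        have := P.mul_mem_fil hN.le (m := n - N) (by omega) h1
          (P.b_mem_fil (i := n - N - P.g) (by omega))
        rwa [show N + (n - N) = n by omega] at this
      have h4 : (⟨_, h3⟩ : V) ∈ Vl := by rw [← h]; trivial
      have h5 : P.lc n ((u * P.b (k - P.g)) * P.b (n - N - P.g)) = 0 := h4
      have h6 := P.lc_mul hN (m := n - N) (by omega) h1
          (P.b_mem_fil (i := n - N - P.g) (by omega))
      rw [show N + (n - N) = n by omega, h5, P.lc_b, mul_one] at h6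
      exact h2 h6.symm
    · obtain ⟨p, hp, hpe⟩ := Finset.mem_image.mp h
      have h3 : x p ∈ V := ⟨(hx p hp).1, hm p n (by
        have := Finset.le_sup (f := m) hp
        omega)⟩
      have h4 : (⟨_, h3⟩ : V) ∈ Vp p := by rw [hpe]; trivial
      exact (hx p hp).2 h4
  have hne := Subspace.biUnion_ne_univ_of_top_notMem htop
  obtain ⟨s, hs⟩ := (Set.ne_univ_iff_exists_notMem _).mp hne
  simp only [Set.mem_iUnion, not_exists] at hs
  refine ⟨s, s.2.2, fun h0 => hs Vl (Finset.mem_insert_self _ _) h0, ?_⟩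
  have hsJ : (s : B) ∈ J := s.2.1
  obtain ⟨D, hD⟩ := Ideal.dvd_iff_le.mpr ((Ideal.span_singleton_le_iff_mem J).mpr hsJ)
  refine ⟨D, hD.symm, ?_⟩
  by_contra hne'
  obtain ⟨p, hpm, hple⟩ := Ideal.exists_le_maximal _ hne'
  have hp : p ∈ PP := (hPP p).mpr ⟨hpm.isPrime, le_sup_right.trans hple⟩
  refine hs (Vp p) (Finset.mem_insert_of_mem (Finset.mem_image_of_mem _ hp)) ?_
  change (s : B) ∈ J * p
  have h7 : Ideal.span {(s : B)} ≤ J * p := by
    rw [hD]; exact Ideal.mul_mono_right (le_sup_left.trans hple)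
  exact h7 (Ideal.mem_span_singleton_self _)

/-- Nonspecial divisors: every section of the complementary divisor of minimal degree is a
multiple of the given one. -/
def Nonsp (D : Ideal B) : Prop := ∀ (E : Ideal B) (u : B) (n : ℕ), P.m0 ≤ n → u ≠ 0 →
  D * E = Ideal.span {u} → IsRel K (Ideal.span {u}) n → ∀ x ∈ E, x ∈ P.fil n → ∃ c : K, x = c • u

lemma nonsp_of_one {D E : Ideal B} {u : B} {n : ℕ} (hn : P.m0 ≤ n) (hu0 : u ≠ 0)
    (hDE : D * E = Ideal.span {u}) (hu : IsRel K (Ideal.span {u}) n)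
    (h : ∀ x ∈ E, x ∈ P.fil n → ∃ c : K, x = c • u) : Nonsp P D := by
  intro E' u' n' hn' hu0' hDE' hu' x hx hxn
  rcases eq_or_ne x 0 with rfl | hx0
  · exact ⟨0, by simp⟩
  -- `u' E = u E'`
  have h1 : Ideal.span {u'} * E = Ideal.span {u} * E' := by
    rw [← hDE, ← hDE']; ring
  have h2 : x * u ∈ Ideal.span {u'} * E := by
    rw [h1, mul_comm x u]
    exact Ideal.mul_mem_mul (Ideal.mem_span_singleton_self u) hx
  obtain ⟨y, hy, hyx⟩ := Ideal.mem_span_singleton_mul.mp h2
  have hy0 : y ≠ 0 := by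
    rintro rfl
    rw [mul_zero] at hyx
    exact (mul_ne_zero hx0 hu0) hyx.symm
  obtain ⟨dx, hdx⟩ := exists_isRel P (span_ne_bot hx0)
  obtain ⟨dy, hdy⟩ := exists_isRel P (span_ne_bot hy0)
  have h3 := hdx.mul_dedekind hu (span_ne_bot hx0) (span_ne_bot hu0)
  have h4 := hu'.mul_dedekind hdy (span_ne_bot hu0') (span_ne_bot hy0)
  rw [Ideal.span_singleton_mul_span_singleton] at h3 h4
  rw [hyx] at h4
  have h5 := h3.degree_unique h4
  have h6 := degree_le_of_mem_fil P hn' hx0 hxn hdx
  have h7 : y ∈ P.fil n := mem_fil_of_degree_le P hn hdy (by omega)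
  obtain ⟨c, hc⟩ := h y hy h7
  refine ⟨c, ?_⟩
  rw [hc, mul_smul_comm] at hyx
  have h8 : (c • u') * u = x * u := by rw [smul_mul_assoc, hyx]
  exact (mul_right_cancel₀ hu0 h8).symm

/-- If the sections of `E` in `fil n` are one-dimensional, with `n = deg E + g`, then `fil n`
surjects onto `B ⧸ E`. -/
lemma fil_sup_of_one_dim {E : Ideal B} {e n : ℕ} (hE : IsRel K E e) (hn : P.m0 ≤ n)
    (hen : e + P.g = n) {u : B} (h : ∀ x ∈ E, x ∈ P.fil n → ∃ c : K, x = c • u) (y : B) :
    ∃ z ∈ P.fil n, y - z ∈ E := by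
  obtain ⟨π, hs, hk⟩ := hE.exists_coord
  let f : P.fil n →ₗ[K] (Fin e → K) := π ∘ₗ (P.fil n).subtype
  have hkerle : LinearMap.ker f ≤ (Submodule.span K {u}).comap (P.fil n).subtype := by
    intro x hx
    have hx' : (x : B) ∈ E := (hk _).mpr hx
    obtain ⟨c, hc⟩ := h x hx' x.2
    rw [Submodule.mem_comap, Submodule.subtype_apply, hc]
    exact Submodule.smul_mem _ _ (Submodule.mem_span_singleton_self u)
  have h1 : Module.finrank K (LinearMap.ker f) ≤ 1 := by
    let g : LinearMap.ker f →ₗ[K] Submodule.span K {u} :=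
      (((P.fil n).subtype ∘ₗ (LinearMap.ker f).subtype)).codRestrict _ (fun x => hkerle x.2)
    have hg : Function.Injective g := by
      intro a b hab
      have h0 : ((a : P.fil n) : B) = ((b : P.fil n) : B) :=
        congrArg (fun z : Submodule.span K {u} => (z : B)) hab
      exact Subtype.ext (Subtype.ext h0)
    exact (LinearMap.finrank_le_finrank_of_injective hg).trans
      ((finrank_span_le_card ({u} : Set B)).trans (by simp))
  have h2 := f.finrank_range_add_finrank_ker
  rw [P.finrank_fil] at h2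
  have hg := P.hg
  have h3 : LinearMap.range f = ⊤ := by
    apply Submodule.eq_top_of_finrank_eq
    apply le_antisymm (Submodule.finrank_le _)
    simp only [Module.finrank_fintype_fun_eq_card, Fintype.card_fin]
    omega
  obtain ⟨z, hz⟩ := LinearMap.range_eq_top.mp h3 (π y)
  refine ⟨z, z.2, ?_⟩
  rw [hk, map_sub, ← hz]
  exact sub_self _

include P in
/-- The algebra is not a field. -/
lemma not_isField : ¬ IsField B := by
  intro hf
  have hg := P.hg
  have h1 : IsRel K (Ideal.span {P.b (P.m0 + 1 - P.g)}) (P.m0 + 1) :=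
    isRel_of_exact P (by omega) (P.b_mem_fil (by omega)) (by rw [P.lc_b]; exact one_ne_zero)
  let _ := hf.toField
  have h2 : Ideal.span {P.b (P.m0 + 1 - P.g)} = ⊤ :=
    Ideal.span_singleton_eq_top.mpr (by
      obtain ⟨c, hc⟩ := hf.mul_inv_cancel (b_ne_zero P (P.m0 + 1 - P.g))
      exact IsUnit.of_mul_eq_one _ hc)
  have h3 := h1.finrank
  rw [h2] at h3
  have : Subsingleton (B ⧸ (⊤ : Ideal B)) := Ideal.Quotient.subsingleton_iff.mpr rfl
  rw [Module.finrank_zero_of_subsingleton] at h3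
  omega

include P in
/-- For algebraically closed fields, maximal ideals have codimension one. -/
lemma isRel_one_of_isMaximal [IsAlgClosed K] {p : Ideal B} (hp : p.IsMaximal) : IsRel K p 1 := by
  have hne : p ≠ ⊥ := by
    rintro rfl
    exact not_isField P (Ring.isField_iff_maximal_bot.mpr hp)
  obtain ⟨d, hd⟩ := exists_isRel P hne
  have := hd.finite
  let _ := Ideal.Quotient.field p
  have : Algebra.IsIntegral K (B ⧸ p) := Algebra.IsIntegral.of_finite K _
  have hbij := IsAlgClosed.algebraMap_bijective_of_isIntegral (k := K) (K := B ⧸ p)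
  rw [isRel_iff_finrank]
  refine ⟨inferInstance, ?_⟩
  have e := (AlgEquiv.ofBijective (Algebra.ofId K (B ⧸ p)) hbij).toLinearEquiv
  rw [← e.finrank_eq, Module.finrank_self]

end PBD

end Fermat.Agent.HopfOrder
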