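import Fermat.Agent.HopfOrder.DictA
import Fermat.Agent.HopfOrder.Stable
import Fermat.Agent.HopfOrder.FinType

/-!
# The frame attached to a family of divisors in general position
-/

set_option autoImplicit false
set_option linter.unusedSectionVars false

open AlgebraicCurve WithZero Module
open scoped TensorProduct
open Fermat.Agent.RR Fermat.Agent.FF Fermat.Agent.Deuring

namespace Fermat.Agent.HopfOrder

attribute [local instance] nonempty_place finiteResidue

section Common

/-- Common complements. -/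
lemma exists_common_family {k V ι : Type*} [Field k] [Infinite k] [AddCommGroup V] [Module k V]
    [Finite ι] {g : ℕ} (p : ι → V →ₗ[k] (Fin g → k)) (hp : ∀ x, Function.Surjective (p x)) :
    ∀ i ≤ g, ∃ s : Fin i → V, ∀ x, LinearIndependent k (fun j => p x (s j)) := by
  classical
  cases nonempty_fintype ι
  intro i
  induction i with
  | zero => exact fun _ => ⟨Fin.elim0, fun x => linearIndependent_empty_type⟩
  | succ i ih =>
    intro hi
    obtain ⟨s, hs⟩ := ih (by omega)
    let U : ι → Subspace k V := fun x => (Submodule.span k (Set.range fun j => p x (s j))).comap (p x)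
    have hU : ∀ x, U x ≠ ⊤ := by
      intro x h
      have h1 : Submodule.span k (Set.range fun j => p x (s j)) = ⊤ := by
        rw [eq_top_iff]
        intro y _
        obtain ⟨v, rfl⟩ := hp x y
        have : v ∈ U x := by rw [h]; trivial
        exact this
      have h2 := finrank_span_eq_card (hs x)
      rw [h1, finrank_top, Fintype.card_fin, Module.finrank_fintype_fun_eq_card,
        Fintype.card_fin] at h2
      omega
    have hne := Subspace.biUnion_ne_univ_of_top_notMem (k := k) (s := Finset.univ.image U) (by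
      intro h
      obtain ⟨x, -, hx⟩ := Finset.mem_image.mp h
      exact hU x hx)
    obtain ⟨v, hv⟩ := (Set.ne_univ_iff_exists_notMem _).mp hne
    simp only [Set.mem_iUnion, not_exists] at hv
    refine ⟨Fin.cons v s, fun x => ?_⟩
    have h3 : (fun j => p x ((Fin.cons v s : Fin (i + 1) → V) j)) =
        Fin.cons (p x v) (fun j => p x (s j)) := by
      funext j
      refine Fin.cases ?_ (fun j => ?_) j <;> rfl
    rw [h3, linearIndependent_finCons]
    exact ⟨hs x, fun h => hv (U x) (Finset.mem_image_of_mem _ (Finset.mem_univ x)) h⟩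

/-- Sections spanning all the quotients. -/
lemma exists_common_sections {k C ι : Type*} [Field k] [Infinite k] [CommRing C] [Algebra k C]
    [Finite ι] {g : ℕ} (J : ι → Ideal C) (hJ : ∀ x, IsRel k (J x) g) :
    ∃ s : Fin g → C, ∀ x z, ∃ c : Fin g → k, z - ∑ i, c i • s i ∈ J x := by
  choose p hp hk using fun x => (hJ x).exists_coord
  obtain ⟨s, hs⟩ := exists_common_family p hp g le_rfl
  refine ⟨s, fun x z => ?_⟩
  have h1 : Submodule.span k (Set.range fun j => p x (s j)) = ⊤ := by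
    apply Submodule.eq_top_of_finrank_eq
    rw [finrank_span_eq_card (hs x), Fintype.card_fin, Module.finrank_fintype_fun_eq_card,
      Fintype.card_fin]
  have h2 : p x z ∈ Submodule.span k (Set.range fun j => p x (s j)) := by rw [h1]; trivial
  obtain ⟨c, hc⟩ := (Submodule.mem_span_range_iff_exists_fun k).mp h2
  refine ⟨c, ?_⟩
  rw [hk, map_sub, _root_.map_sum, sub_eq_zero, ← hc]
  exact Finset.sum_congr rfl fun i _ => (map_smul _ _ _).symm

end Common

variable {K F k F' : Type*} [Field K] [Field F] [Algebra K F] [Field k] [Field F'] [Algebra k F']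
  [IsFF K F] [IsFF k F'] [IsAlgClosed K] [IsAlgClosed k]
variable {G : GaussData K F k F'} {P0 : Place K F}
variable {R : Type*} [CommRing R] [Algebra R K] [Algebra R k] [Algebra R F] [IsScalarTower R K F]
  [Algebra R G.A] [IsScalarTower R G.A K] [Algebra R F'] [IsScalarTower R k F']

/-- The reduction does not decrease `ell`. -/
lemma ell_le_ell_red (Rd : RedMap G) (D : Divisor K F) : ell D ≤ ell (Rd.r D) := by
  unfold ell
  rw [← G.finrank_redSpace]
  exact Submodule.finrank_mono (Rd.redSpace_le D)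

/-- A family of divisors in general position. -/
structure GenPos (S : Setup G P0 R) (M : Type*) [AddCommGroup M] where
  D : M → Divisor K F
  nonneg : ∀ x, 0 ≤ D x
  deg : ∀ x, Divisor.degree (D x) = genusFF K F
  inj : Function.Injective D
  ell_red : ∀ x, ell (S.Rd.r (D x)) ≤ 1
  red_w : ∀ x, S.Rd.r (D x) S.w = 0
  tr : ∀ y, ∃ E1 E2 : Divisor K F, S.Good E1 ∧ S.Good E2 ∧
    (∀ x, ∃ h : F, h ≠ 0 ∧ D x + E1 = E2 + D (x + y) + div h) ∧
    ∀ x v, (S.Rd.r E1 v = 0 ∨ S.Rd.r (D x) v = 0) ∧ (S.Rd.r E2 v = 0 ∨ S.Rd.r (D x) v = 0)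

namespace GenPos

variable {S : Setup G P0 R} {M : Type*} [AddCommGroup M] (Q : GenPos S M)

lemma good (x : M) : S.Good (Q.D x) := ⟨Q.nonneg x, Q.red_w x⟩

lemma isRel (x : M) : IsRel G.A (S.IA (Q.D x)) S.P.g :=
  S.isRel_IA (Q.good x) (by rw [Q.deg, S.hg])

lemma nonsp_k (x : M) : Nonsp (S.P.baseChange k) (S.Ik (S.Rd.r (Q.D x))) :=
  nonsp_IF S.w S.evk S.isBC_k.mem S.isBC_k.inj S.isBC_k.surj (S.P.baseChange k)
    S.isBC_k.fil (Q.good x).red_nonneg (Q.red_w x) (Q.ell_red x)

lemma nonsp_K (x : M) : Nonsp (S.P.baseChange K) (S.IK (Q.D x)) :=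
  nonsp_IF P0 S.evK S.isBC_K.mem S.isBC_K.inj S.isBC_K.surj (S.P.baseChange K)
    S.isBC_K.fil (Q.nonneg x) (Q.good x).apply_P0
    ((ell_le_ell_red S.Rd (Q.D x)).trans (Q.ell_red x))

/-- Lifting of sections along a section of the residue map. -/
noncomputable def liftSec (S : Setup G P0 R) (lift : k → G.A) (z : k ⊗[R] S.B) : G.A ⊗[R] S.B :=
  ∑ j ∈ ((S.P.bas k).repr z).support, lift ((S.P.bas k).repr z j) • S.P.bas G.A j

lemma sp_liftSec {lift : k → G.A} (hl : ∀ a, G.res (lift a) = a) (z : k ⊗[R] S.B) :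
    PoleBasis.sp S.B S.π (liftSec S lift z) = z := by
  conv_rhs => rw [← (S.P.bas k).linearCombination_repr z, Finsupp.linearCombination_apply,
    Finsupp.sum]
  rw [liftSec, _root_.map_sum]
  refine Finset.sum_congr rfl fun j _ => ?_
  rw [PoleBasis.sp_smul, PoleBasis.sp_bas, Setup.π_apply, hl]

lemma sp_liftSec_fixed {lift : k → G.A} {σ : G.A →ₐ[R] G.A} (hσ : ∀ a, σ (lift a) = lift a)
    (z : k ⊗[R] S.B) : PoleBasis.sp S.B σ (liftSec S lift z) = liftSec S lift z := by
  rw [liftSec, _root_.map_sum]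
  refine Finset.sum_congr rfl fun j _ => ?_
  rw [PoleBasis.sp_smul, PoleBasis.sp_bas, hσ]

/-- The frame. -/
theorem exists_frame [Finite M] (lift : k → G.A) (hl : ∀ a, G.res (lift a) = a) :
    ∃ Fr : Frame S.P G.A S.π M, (∀ x, Fr.I x = S.IA (Q.D x)) ∧
      ∀ σ : G.A →ₐ[R] G.A, (∀ a, σ (lift a) = lift a) → ∀ i, PoleBasis.sp S.B σ (Fr.S i) = Fr.S i := by
  classical
  have hinf : Infinite k := IsAlgClosed.instInfinite
  have hinfK : Infinite K := IsAlgClosed.instInfinite
  have hDK : IsDedekindDomain (K ⊗[R] S.B) := S.isDedekindDomain_K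
  have hDk : IsDedekindDomain (k ⊗[R] S.B) := S.isDedekindDomain_k
  have hrelk : ∀ x, IsRel k (S.Ik (S.Rd.r (Q.D x))) S.P.g := fun x =>
    S.isRel_Ik (Q.good x).red_nonneg (Q.red_w x) (by rw [S.Rd.degree_r, Q.deg, S.hg])
  obtain ⟨s, hs⟩ := exists_common_sections (fun x => S.Ik (S.Rd.r (Q.D x))) hrelk
  have hrelK : ∀ x, IsRel K (S.IK (Q.D x)) S.P.g := fun x =>
    S.isRel_IK (Q.nonneg x) (Q.good x).apply_P0 (by rw [Q.deg, S.hg])
  refine ⟨⟨fun x => S.IA (Q.D x), Q.isRel, ?_, ?_, ?_, ?_, fun i => liftSec S lift (s i), ?_⟩,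
    fun x => rfl, fun σ hσ i => sp_liftSec_fixed hσ (s i)⟩
  · intro x
    rw [S.map_IA_k (Q.good x)]
    exact Q.nonsp_k x
  · intro x J hJ hlin
    rw [S.map_IA_K (Q.good x)] at hlin ⊢
    exact uniq_of_nonsp (S.P.baseChange K) (hrelK x) hJ (Q.nonsp_K x) hlin
  · intro x y hxy
    apply Q.inj
    have h1 : S.IK (Q.D x) = S.IK (Q.D y) := by
      rw [← S.map_IA_K (Q.good x), ← S.map_IA_K (Q.good y)]
      exact congrArg _ hxy
    exact IF_injective P0 S.evK S.isBC_K.mem S.isBC_K.surj (Q.nonneg x) (Q.nonneg y)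
      (Q.good x).apply_P0 (Q.good y).apply_P0 h1
  · intro y
    obtain ⟨E1, E2, hE1, hE2, hlin, hdis⟩ := Q.tr y
    refine ⟨S.IA E1, S.IA E2, (Divisor.degree E1).toNat, (Divisor.degree E2).toNat,
      S.isRel_IA hE1 (by have := degree_nonneg hE1.nonneg; omega),
      S.isRel_IA hE2 (by have := degree_nonneg hE2.nonneg; omega), fun x => ⟨?_, ?_, ?_⟩⟩
    · rw [Ideal.map_mul, S.map_IA_K (Q.good x), S.map_IA_K hE1, S.map_IA_K hE2,
        S.map_IA_K (Q.good (x + y))]
      unfold Setup.IK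
      rw [IF_mul P0 S.evK S.isBC_K.mem S.isBC_K.surj (S.P.baseChange K) (Q.nonneg x) hE1.nonneg
        (Q.good x).apply_P0 hE1.apply_P0,
        IF_mul P0 S.evK S.isBC_K.mem S.isBC_K.surj (S.P.baseChange K) hE2.nonneg
        (Q.nonneg (x + y)) hE2.apply_P0 (Q.good (x + y)).apply_P0]
      obtain ⟨h, hh, hdiv⟩ := hlin x
      refine lin_IF P0 S.evK S.isBC_K.mem S.isBC_K.inj S.isBC_K.surj
        (add_nonneg (Q.nonneg x) hE1.nonneg) (add_nonneg hE2.nonneg (Q.nonneg _)) hh ?_
      intro v _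
      rw [hdiv, Finsupp.add_apply (E2 + Q.D (x + y)), div_apply]
    · rw [S.map_IA_k (Q.good x), S.map_IA_k hE1]
      exact IF_sup S.w S.evk S.isBC_k.mem S.isBC_k.surj (Q.good x).red_nonneg hE1.red_nonneg
        (Q.red_w x) hE1.red (fun v => (hdis x v).1.symm)
    · rw [S.map_IA_k (Q.good x), S.map_IA_k hE2]
      exact IF_sup S.w S.evk S.isBC_k.mem S.isBC_k.surj hE2.red_nonneg (Q.good x).red_nonneg
        hE2.red (Q.red_w x) (fun v => (hdis x v).2)
  · intro x z
    obtain ⟨c, hc⟩ := hs x z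
    refine ⟨c, ?_⟩
    rw [S.map_IA_k (Q.good x)]
    simp only [sp_liftSec hl]
    exact hc

end GenPos

end Fermat.Agent.HopfOrder
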