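import Fermat.Agent.HopfOrder.PoleBasis

/-!
# Construction of pole bases from filtrations
-/

set_option autoImplicit false

namespace Fermat.Agent.HopfOrder

/-- A filtered algebra with graded pieces free of rank one, for large indices. -/
structure PreFil (R B : Type*) [CommRing R] [CommRing B] [Algebra R B] where
  g : ℕ
  m0 : ℕ
  hg : g ≤ m0
  Fil : ℕ → Submodule R B
  mono : Monotone Fil
  exh : ∀ x, ∃ n, x ∈ Fil n
  one_mem : (1 : B) ∈ Fil m0
  mul_mem : ∀ n m, m0 ≤ n → m0 ≤ m → ∀ x ∈ Fil n, ∀ y ∈ Fil m, x * y ∈ Fil (n + m)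
  b0 : Module.Basis (Fin (m0 + 1 - g)) R (Fil m0)
  β : ℕ → B
  β_mem : ∀ n, m0 < n → β n ∈ Fil n
  ex : ∀ n, m0 < n → ∀ x ∈ Fil n, ∃ a : R, x - a • β n ∈ Fil (n - 1)
  uniq : ∀ n, m0 < n → ∀ a : R, a • β n ∈ Fil (n - 1) → a = 0
  lead : ∀ n m, m0 < n → m0 < m → ∃ u : R, IsUnit u ∧ β n * β m - u • β (n + m) ∈ Fil (n + m - 1)

namespace PreFil

variable {R B : Type*} [CommRing R] [CommRing B] [Algebra R B] (Q : PreFil R B)

lemma mem_mono {n m : ℕ} (h : n ≤ m) {x : B} (hx : x ∈ Q.Fil n) : x ∈ Q.Fil m := Q.mono h hx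

open Classical in
/-- The leading coefficient -/
noncomputable def L (n : ℕ) (x : B) : R :=
  if h : Q.m0 < n ∧ x ∈ Q.Fil n then (Q.ex n h.1 x h.2).choose else 0

lemma L_spec {n : ℕ} (hn : Q.m0 < n) {x : B} (hx : x ∈ Q.Fil n) :
    x - Q.L n x • Q.β n ∈ Q.Fil (n - 1) := by
  unfold L
  rw [dif_pos ⟨hn, hx⟩]
  exact (Q.ex n hn x hx).choose_spec

lemma L_unique {n : ℕ} (hn : Q.m0 < n) {x : B} (hx : x ∈ Q.Fil n) {a : R}
    (ha : x - a • Q.β n ∈ Q.Fil (n - 1)) : Q.L n x = a := by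
  have h := Submodule.sub_mem _ ha (Q.L_spec hn hx)
  have h2 : (Q.L n x - a) • Q.β n ∈ Q.Fil (n - 1) := by
    convert h using 1
    rw [sub_smul]; abel
  exact sub_eq_zero.mp (Q.uniq n hn _ h2)

lemma L_eq_zero_iff {n : ℕ} (hn : Q.m0 < n) {x : B} (hx : x ∈ Q.Fil n) :
    Q.L n x = 0 ↔ x ∈ Q.Fil (n - 1) := by
  constructor
  · intro h
    have := Q.L_spec hn hx
    rwa [h, zero_smul, sub_zero] at this
  · intro h
    exact Q.L_unique hn hx (by rwa [zero_smul, sub_zero])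

lemma L_sub {n : ℕ} (hn : Q.m0 < n) {x y : B} (hx : x ∈ Q.Fil n) (hy : y ∈ Q.Fil n) :
    Q.L n (x - y) = Q.L n x - Q.L n y := by
  apply Q.L_unique hn (Submodule.sub_mem _ hx hy)
  have := Submodule.sub_mem _ (Q.L_spec hn hx) (Q.L_spec hn hy)
  convert this using 1
  rw [sub_smul]; abel

lemma L_smul {n : ℕ} (hn : Q.m0 < n) {x : B} (hx : x ∈ Q.Fil n) (a : R) :
    Q.L n (a • x) = a * Q.L n x := by
  apply Q.L_unique hn (Submodule.smul_mem _ _ hx)
  have := Submodule.smul_mem _ a (Q.L_spec hn hx)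
  convert this using 1
  rw [smul_sub, mul_smul]

lemma L_β {n : ℕ} (hn : Q.m0 < n) : Q.L n (Q.β n) = 1 := by
  apply Q.L_unique hn (Q.β_mem n hn)
  rw [one_smul, sub_self]
  exact Submodule.zero_mem _

/-- The structure units. -/
noncomputable def u (n m : ℕ) : R := Q.L (n + m) (Q.β n * Q.β m)

lemma isUnit_u {n m : ℕ} (hn : Q.m0 < n) (hm : Q.m0 < m) : IsUnit (Q.u n m) := by
  obtain ⟨v, hv, h⟩ := Q.lead n m hn hm
  unfold u
  rwa [Q.L_unique (by omega) (Q.mul_mem n m hn.le hm.le _ (Q.β_mem n hn) _ (Q.β_mem m hm)) h]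

lemma L_mul {n m : ℕ} (hn : Q.m0 < n) (hm : Q.m0 < m) {x y : B} (hx : x ∈ Q.Fil n)
    (hy : y ∈ Q.Fil m) : Q.L (n + m) (x * y) = Q.u n m * (Q.L n x * Q.L m y) := by
  have hxy := Q.mul_mem n m hn.le hm.le x hx y hy
  have hbb := Q.mul_mem n m hn.le hm.le _ (Q.β_mem n hn) _ (Q.β_mem m hm)
  apply Q.L_unique (by omega) hxy
  have h1 := Q.mem_mono (show n - 1 + m ≤ n + m - 1 by omega)
    (Q.mul_mem (n - 1) m (by omega) hm.le _ (Q.L_spec hn hx) _ hy)
  have h2 := Q.mem_mono (show n + (m - 1) ≤ n + m - 1 by omega)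
    (Q.mul_mem n (m - 1) hn.le (by omega) _ (Q.β_mem n hn) _ (Q.L_spec hm hy))
  have h3 := Q.L_spec (n := n + m) (by omega) hbb
  have h := Submodule.add_mem _ (Submodule.add_mem _ h1 (Submodule.smul_mem _ (Q.L n x) h2))
    (Submodule.smul_mem _ (Q.L n x * Q.L m y) h3)
  convert h using 1
  change _ = _ + _ + (Q.L n x * Q.L m y) • (Q.β n * Q.β m - Q.u n m • Q.β (n + m))
  simp only [Algebra.smul_def, map_mul]
  ring

lemma pow_mem {n : ℕ} (hn : Q.m0 < n) {x : B} (hx : x ∈ Q.Fil n) (k : ℕ) :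
    x ^ (k + 1) ∈ Q.Fil (n * (k + 1)) := by
  induction k with
  | zero => simpa using hx
  | succ k ih =>
    rw [pow_succ, show n * (k + 1 + 1) = n * (k + 1) + n by ring]
    exact Q.mul_mem _ _ (by nlinarith) hn.le _ ih _ hx

lemma isUnit_L_pow {n : ℕ} (hn : Q.m0 < n) {x : B} (hx : x ∈ Q.Fil n) (hu : IsUnit (Q.L n x))
    (k : ℕ) : IsUnit (Q.L (n * (k + 1)) (x ^ (k + 1))) := by
  induction k with
  | zero => simpa using hu
  | succ k ih =>
    rw [pow_succ, show n * (k + 1 + 1) = n * (k + 1) + n by ring,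
      Q.L_mul (by nlinarith) hn (Q.pow_mem hn hx k) hx]
    exact (Q.isUnit_u (by nlinarith) hn).mul (ih.mul hu)

/-- Normalisation of the generators. -/
lemma exists_normalise : ∃ c : ℕ → R, (∀ n, Q.m0 < n → IsUnit (c n)) ∧
    ∀ n m, Q.m0 < n → Q.m0 < m →
      (c n • Q.β n) * (c m • Q.β m) - c (n + m) • Q.β (n + m) ∈ Q.Fil (n + m - 1) := by
  classical
  set a := Q.m0 + 1 with ha
  -- `n` large
  have hp : ∀ n, Q.m0 < n → ∃ v : R, IsUnit v ∧
      (v • Q.β n) * (Q.β a) ^ n - (Q.β (a + 1)) ^ n ∈ Q.Fil ((a + 1) * n - 1) := by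
    intro n hn
    obtain ⟨k, rfl⟩ : ∃ k, n = k + 1 := ⟨n - 1, by omega⟩
    have h1 := Q.pow_mem (n := a) (by omega) (Q.β_mem a (by omega)) k
    have h2 := Q.pow_mem (n := a + 1) (by omega) (Q.β_mem (a + 1) (by omega)) k
    have hu1 := Q.isUnit_L_pow (n := a) (by omega) (Q.β_mem a (by omega))
      (by rw [Q.L_β (by omega)]; exact isUnit_one) k
    have hu2 := Q.isUnit_L_pow (n := a + 1) (by omega) (Q.β_mem (a + 1) (by omega))
      (by rw [Q.L_β (by omega)]; exact isUnit_one) k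
    have ha' : Q.m0 < a * (k + 1) := by nlinarith
    have h3 := Q.mul_mem (k + 1) (a * (k + 1)) hn.le ha'.le _ (Q.β_mem _ hn) _ h1
    have h4 := Q.L_mul hn ha' (Q.β_mem _ hn) h1
    rw [show k + 1 + a * (k + 1) = (a + 1) * (k + 1) by ring] at h3 h4
    rw [Q.L_β hn, one_mul] at h4
    have hu3 : IsUnit (Q.L ((a + 1) * (k + 1)) (Q.β (k + 1) * Q.β a ^ (k + 1))) := by
      rw [h4]; exact (Q.isUnit_u hn ha').mul hu1
    obtain ⟨w, hw⟩ := hu3
    refine ⟨Q.L ((a + 1) * (k + 1)) (Q.β (a + 1) ^ (k + 1)) * (↑w⁻¹ : R),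
      hu2.mul (Units.isUnit _), ?_⟩
    have ha2 : Q.m0 < (a + 1) * (k + 1) := by nlinarith
    rw [← Q.L_eq_zero_iff ha2 (Submodule.sub_mem _ (by
      rw [smul_mul_assoc]; exact Submodule.smul_mem _ _ h3) h2), Q.L_sub ha2 (by
      rw [smul_mul_assoc]; exact Submodule.smul_mem _ _ h3) h2, smul_mul_assoc,
      Q.L_smul ha2 h3, ← hw, mul_assoc, Units.inv_mul, mul_one, sub_self]
  choose! c hc hcn using hp
  refine ⟨c, hc, fun n m hn hm => ?_⟩
  have hnm : Q.m0 < n + m := by omega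
  obtain ⟨k, hk⟩ : ∃ k, n + m = k + 1 := ⟨n + m - 1, by omega⟩
  set z := (c n • Q.β n) * (c m • Q.β m) - c (n + m) • Q.β (n + m) with hz
  have hzm : z ∈ Q.Fil (n + m) := by
    refine Submodule.sub_mem _ (Q.mul_mem n m hn.le hm.le _ ?_ _ ?_) ?_
    · exact Submodule.smul_mem _ _ (Q.β_mem n hn)
    · exact Submodule.smul_mem _ _ (Q.β_mem m hm)
    · exact Submodule.smul_mem _ _ (Q.β_mem _ hnm)
  have ha1 : Q.m0 < a * (n + m) := by nlinarith
  have hpow : Q.β a ^ (n + m) ∈ Q.Fil (a * (n + m)) := by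
    rw [hk]; exact Q.pow_mem (by omega) (Q.β_mem a (by omega)) k
  have hupow : IsUnit (Q.L (a * (n + m)) (Q.β a ^ (n + m))) := by
    rw [hk]
    exact Q.isUnit_L_pow (by omega) (Q.β_mem a (by omega))
      (by rw [Q.L_β (by omega)]; exact isUnit_one) k
  -- the product with the power
  have key : z * Q.β a ^ (n + m) ∈ Q.Fil ((a + 1) * (n + m) - 1) := by
    have e1 := hcn n hn
    have e2 := hcn m hm
    have e3 := hcn (n + m) hnm
    have m1 : (c n • Q.β n) * Q.β a ^ n ∈ Q.Fil ((a + 1) * n) := by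
      obtain ⟨i, hi⟩ : ∃ i, n = i + 1 := ⟨n - 1, by omega⟩
      have := Q.mul_mem n (a * n) hn.le (by nlinarith) _
        (Submodule.smul_mem _ (c n) (Q.β_mem n hn)) _ (by
          have := Q.pow_mem (n := a) (by omega) (Q.β_mem a (by omega)) i
          rwa [← hi] at this)
      rwa [show n + a * n = (a + 1) * n by ring] at this
    have m2 : Q.β (a + 1) ^ m ∈ Q.Fil ((a + 1) * m) := by
      obtain ⟨i, hi⟩ : ∃ i, m = i + 1 := ⟨m - 1, by omega⟩
      have := Q.pow_mem (n := a + 1) (by omega) (Q.β_mem (a + 1) (by omega)) i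
      rwa [← hi] at this
    have f1 := Q.mem_mono (m := (a + 1) * (n + m) - 1)
      (show (a + 1) * n - 1 + (a + 1) * m ≤ (a + 1) * (n + m) - 1 by
        have : 0 < (a + 1) * n := Nat.mul_pos (by omega) (by omega)
        rw [mul_add]; omega)
      (Q.mul_mem _ _ (by
        have : a + 1 ≤ (a + 1) * n := Nat.le_mul_of_pos_right _ (by omega)
        omega) (by nlinarith) _ e1 _ m2)
    have f2 := Q.mem_mono (m := (a + 1) * (n + m) - 1)
      (show (a + 1) * n + ((a + 1) * m - 1) ≤ (a + 1) * (n + m) - 1 by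
        have : 0 < (a + 1) * m := Nat.mul_pos (by omega) (by omega)
        rw [mul_add]; omega)
      (Q.mul_mem _ _ (by nlinarith) (by
        have : a + 1 ≤ (a + 1) * m := Nat.le_mul_of_pos_right _ (by omega)
        omega) _ m1 _ e2)
    have := Submodule.sub_mem _ (Submodule.add_mem _ f1 f2) e3
    convert this using 1
    rw [hz]
    simp only [Algebra.smul_def, pow_add]
    ring
  have hL := Q.L_mul hnm ha1 hzm hpow
  rw [show n + m + a * (n + m) = (a + 1) * (n + m) by ring] at hL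
  have hmem : z * Q.β a ^ (n + m) ∈ Q.Fil ((a + 1) * (n + m)) := Q.mem_mono (Nat.sub_le _ _) key
  rw [(Q.L_eq_zero_iff (by nlinarith) hmem).mpr key] at hL
  have hLz : Q.L (n + m) z = 0 := by
    have h1 := (Q.isUnit_u hnm ha1)
    have h2 : Q.u (n + m) (a * (n + m)) * (Q.L (n + m) z *
      Q.L (a * (n + m)) (Q.β a ^ (n + m))) = 0 := hL.symm
    rw [h1.mul_right_eq_zero, hupow.mul_left_eq_zero] at h2
    exact h2
  exact (Q.L_eq_zero_iff hnm hzm).mp hLz

section Basis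

variable (c : ℕ → R) (hc : ∀ n, Q.m0 < n → IsUnit (c n))

/-- The basis vectors. -/
noncomputable def vec (i : ℕ) : B :=
  if h : i < Q.m0 + 1 - Q.g then (Q.b0 ⟨i, h⟩ : B) else c (i + Q.g) • Q.β (i + Q.g)

lemma vec_of_lt {i : ℕ} (h : i < Q.m0 + 1 - Q.g) : Q.vec c i = (Q.b0 ⟨i, h⟩ : B) := by
  rw [vec, dif_pos h]

lemma vec_of_ge {i : ℕ} (h : Q.m0 + 1 - Q.g ≤ i) : Q.vec c i = c (i + Q.g) • Q.β (i + Q.g) := by
  rw [vec, dif_neg (by omega)]

lemma vec_mem {n i : ℕ} (hn : Q.m0 ≤ n) (hi : i < n + 1 - Q.g) : Q.vec c i ∈ Q.Fil n := by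
  have hg := Q.hg
  by_cases h : i < Q.m0 + 1 - Q.g
  · rw [Q.vec_of_lt c h]
    exact Q.mem_mono hn (Q.b0 ⟨i, h⟩).2
  · rw [Q.vec_of_ge c (by omega)]
    exact Q.mem_mono (by omega) (Submodule.smul_mem _ _ (Q.β_mem (i + Q.g) (by omega)))

include hc in
lemma span_vec {n : ℕ} (hn : Q.m0 ≤ n) :
    Submodule.span R (Q.vec c '' Set.Iio (n + 1 - Q.g)) = Q.Fil n := by
  apply le_antisymm
  · rw [Submodule.span_le]
    rintro _ ⟨i, hi, rfl⟩
    exact Q.vec_mem c hn hi
  · induction n, hn using Nat.le_induction with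
    | base =>
      intro x hx
      have h1 : x = ∑ i, Q.b0.repr ⟨x, hx⟩ i • (Q.b0 i : B) := by
        have := congrArg Subtype.val (Q.b0.sum_repr ⟨x, hx⟩)
        rw [AddSubmonoidClass.coe_finsetSum] at this
        exact this.symm
      rw [h1]
      refine Submodule.sum_mem _ fun i _ => Submodule.smul_mem _ _ ?_
      refine Submodule.subset_span ⟨i, i.2, ?_⟩
      rw [Q.vec_of_lt c i.2]
    | succ n hn ih =>
      intro x hx
      have hg := Q.hg
      obtain ⟨a, ha⟩ := Q.ex (n + 1) (by omega) x hx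
      rw [Nat.add_sub_cancel] at ha
      have h1 := Submodule.span_mono (R := R) (Set.image_mono (f := Q.vec c)
        (Set.Iio_subset_Iio (show n + 1 - Q.g ≤ n + 1 + 1 - Q.g by omega))) (ih ha)
      obtain ⟨v, hv⟩ := hc (n + 1) (by omega)
      have h2 : Q.β (n + 1) = (↑v⁻¹ : R) • Q.vec c (n + 1 - Q.g) := by
        rw [Q.vec_of_ge c (by omega), show n + 1 - Q.g + Q.g = n + 1 by omega, ← hv, smul_smul,
          Units.inv_mul, one_smul]
      have h3 : x = (x - a • Q.β (n + 1)) + (a * (↑v⁻¹ : R)) • Q.vec c (n + 1 - Q.g) := by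
        rw [h2, mul_smul]; abel
      rw [h3]
      refine Submodule.add_mem _ h1 (Submodule.smul_mem _ _ (Submodule.subset_span ⟨_, ?_, rfl⟩))
      simp only [Set.mem_Iio]
      omega

include hc in
lemma linearIndependent_vec : LinearIndependent R (Q.vec c) := by
  classical
  rw [linearIndependent_iff]
  intro l hl
  have hg := Q.hg
  -- coefficients of large index vanish
  have hbig : ∀ N, (∀ i, N < i → l i = 0) → Q.m0 + 1 - Q.g ≤ N → l N = 0 := by
    intro N hN hNg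
    rw [Finsupp.linearCombination_apply, Finsupp.sum] at hl
    by_contra hne
    have hmem : N ∈ l.support := Finsupp.mem_support_iff.mpr hne
    rw [← Finset.add_sum_erase _ _ hmem] at hl
    have hrest : ∑ i ∈ l.support.erase N, l i • Q.vec c i ∈ Q.Fil (N + Q.g - 1) := by
      refine Submodule.sum_mem _ fun i hi => Submodule.smul_mem _ _ ?_
      have h1 := Finset.ne_of_mem_erase hi
      have h2 := Finsupp.mem_support_iff.mp (Finset.mem_of_mem_erase hi)
      have h3 : i < N := by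
        by_contra hge
        exact h2 (hN i (by omega))
      exact Q.vec_mem c (by omega) (by omega)
    have h4 : l N • Q.vec c N ∈ Q.Fil (N + Q.g - 1) := by
      have : l N • Q.vec c N = -∑ i ∈ l.support.erase N, l i • Q.vec c i :=
        eq_neg_of_add_eq_zero_left hl
      rw [this]
      exact Submodule.neg_mem _ hrest
    rw [Q.vec_of_ge c hNg, smul_smul] at h4
    have h5 := Q.uniq (N + Q.g) (by omega) _ h4
    exact hne ((hc (N + Q.g) (by omega)).mul_left_eq_zero.mp h5)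
  have hall : ∀ i, Q.m0 + 1 - Q.g ≤ i → l i = 0 := by
    intro i hi
    by_contra hne
    let s := l.support.filter (fun i => Q.m0 + 1 - Q.g ≤ i)
    have hs : s.Nonempty := ⟨i, Finset.mem_filter.mpr ⟨Finsupp.mem_support_iff.mpr hne, hi⟩⟩
    obtain ⟨N, hN, hmax⟩ := s.exists_max_image id hs
    have hN' := Finset.mem_filter.mp hN
    refine Finsupp.mem_support_iff.mp hN'.1 (hbig N (fun j hj => ?_) hN'.2)
    by_contra hj0
    have := hmax j (Finset.mem_filter.mpr ⟨Finsupp.mem_support_iff.mpr hj0, by omega⟩)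
    simp only [id] at this
    omega
  -- the remaining relation is among the `b0 i`
  have h6 : ∑ i : Fin (Q.m0 + 1 - Q.g), l i • (Q.b0 i : B) = 0 := by
    rw [Finsupp.linearCombination_apply, Finsupp.sum] at hl
    rw [← hl]
    have h7 : l.support ⊆ Finset.range (Q.m0 + 1 - Q.g) := by
      intro i hi
      rw [Finset.mem_range]
      by_contra hge
      exact Finsupp.mem_support_iff.mp hi (hall i (by omega))
    rw [Finset.sum_subset h7 (fun i _ hi => by
      rw [Finsupp.notMem_support_iff.mp hi, zero_smul]), Finset.sum_range]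
    exact Finset.sum_congr rfl fun i _ => by rw [Q.vec_of_lt c i.2]
  have h8 : ∑ i : Fin (Q.m0 + 1 - Q.g), l i • Q.b0 i = 0 := by
    apply Subtype.ext
    rw [AddSubmonoidClass.coe_finsetSum]
    exact h6
  have h9 := Fintype.linearIndependent_iff.mp Q.b0.linearIndependent (fun i => l i) h8
  ext i
  by_cases h : i < Q.m0 + 1 - Q.g
  · exact h9 ⟨i, h⟩
  · exact hall i (by omega)

end Basis

/-- A filtered algebra gives a pole basis. -/
theorem exists_poleBasis : ∃ P : PoleBasis R B, P.g = Q.g ∧ P.m0 = Q.m0 ∧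
    ∀ n, Q.m0 ≤ n → P.fil n = Q.Fil n := by
  obtain ⟨c, hc, hcn⟩ := Q.exists_normalise
  have hg := Q.hg
  have hsp : ⊤ ≤ Submodule.span R (Set.range (Q.vec c)) := by
    intro x _
    obtain ⟨n, hn⟩ := Q.exh x
    have h1 : x ∈ Q.Fil (n + Q.m0) := Q.mem_mono (by omega) hn
    rw [← Q.span_vec c hc (by omega : Q.m0 ≤ n + Q.m0)] at h1
    exact Submodule.span_mono (Set.image_subset_range _ _) h1
  let b : Module.Basis ℕ R B := Module.Basis.mk (Q.linearIndependent_vec c hc) hsp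
  have hb : (b : ℕ → B) = Q.vec c := Module.Basis.coe_mk _ _
  have hfil : ∀ n, Q.m0 ≤ n → Submodule.span R (b '' Set.Iio (n + 1 - Q.g)) = Q.Fil n := by
    intro n hn
    rw [hb]
    exact Q.span_vec c hc hn
  have hrepr : ∀ n, Q.m0 ≤ n → ∀ x ∈ Q.Fil n, ∀ i, n + 1 - Q.g ≤ i → b.repr x i = 0 := by
    intro n hn x hx i hi
    rw [← hfil n hn, b.mem_span_image] at hx
    by_contra hne
    have := hx (Finset.mem_coe.mpr (Finsupp.mem_support_iff.mpr hne))
    simp only [Set.mem_Iio] at this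
    omega
  refine ⟨⟨Q.g, Q.m0, Q.hg, b, ?_, ?_, ?_⟩, rfl, rfl, hfil⟩
  · rw [hfil _ le_rfl]; exact Q.one_mem
  · intro n m hn hm i hi j hj
    rw [hfil _ (by omega), hb]
    exact Q.mul_mem n m hn hm _ (Q.vec_mem c hn hi) _ (Q.vec_mem c hm hj)
  · intro n m hn hm
    have h1 := hcn n m hn hm
    have h2 : b (n - Q.g) = c n • Q.β n := by
      rw [hb, Q.vec_of_ge c (by omega), show n - Q.g + Q.g = n by omega]
    have h3 : b (m - Q.g) = c m • Q.β m := by
      rw [hb, Q.vec_of_ge c (by omega), show m - Q.g + Q.g = m by omega]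
    have h4 : b (n + m - Q.g) = c (n + m) • Q.β (n + m) := by
      rw [hb, Q.vec_of_ge c (by omega), show n + m - Q.g + Q.g = n + m by omega]
    rw [← h2, ← h3, ← h4] at h1
    have h5 := hrepr (n + m - 1) (by omega) _ h1 (n + m - Q.g) (by omega)
    rw [map_sub, Finsupp.sub_apply, b.repr_self, Finsupp.single_eq_same, sub_eq_zero] at h5
    exact h5

end PreFil

end Fermat.Agent.HopfOrder
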