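import Fermat.Agent.HopfOrder.MkPole
import Fermat.Agent.Deuring.Genus
import Fermat.Agent.Deuring.DivLemmas

/-!
# Integral models of the ring of functions with poles at one point
-/

set_option autoImplicit false
set_option linter.unusedSectionVars false

open AlgebraicCurve WithZero Module
open scoped TensorProduct
open Fermat.Agent.RR Fermat.Agent.FF Fermat.Agent.Deuring

namespace Fermat.Agent.HopfOrder

attribute [local instance] nonempty_place finiteResidue

section GD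

variable {K F k F' : Type*} [Field K] [Field F] [Algebra K F] [Field k] [Field F'] [Algebra k F']
  (G : GaussData K F k F')

/-- Elements with independent reductions are independent. -/
lemma linearIndependent_of_ρ {ι : Type*} [Fintype ι] {b : ι → F} (hb : ∀ i, b i ∈ G.O)
    (hli : LinearIndependent k (fun i => G.ρ ⟨b i, hb i⟩)) : LinearIndependent K b := by
  classical
  rw [Fintype.linearIndependent_iff]
  intro c hc i
  by_contra hne
  have h1 : ∑ j, ((c i)⁻¹ * c j) • b j = 0 := by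
    have := congrArg (fun x => (c i)⁻¹ • x) hc
    simpa [Finset.smul_sum, mul_smul] using this
  have h2 : ∀ j, (c i)⁻¹ * c j ∈ G.A := fun j => G.coord_mem hb hli (by rw [h1]; exact G.O.zero_mem) j
  have h3 : ∑ j, G.res ⟨_, h2 j⟩ • G.ρ ⟨b j, hb j⟩ = 0 := by
    have h4 : ∀ j, ((c i)⁻¹ * c j) • b j ∈ G.O := fun j => G.smul_mem (h2 j) (hb j)
    have h5 := G.ρ_sum Finset.univ (fun j => ((c i)⁻¹ * c j) • b j) h4
      (by rw [h1]; exact G.O.zero_mem)
    have h6 : (⟨∑ j, ((c i)⁻¹ * c j) • b j, by rw [h1]; exact G.O.zero_mem⟩ : G.O) = 0 :=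
      Subtype.ext h1
    rw [h6, map_zero] at h5
    rw [h5]
    exact Finset.sum_congr rfl fun j _ => (G.ρ_smul (h2 j) (hb j) (h4 j)).symm
  have h7 := Fintype.linearIndependent_iff.mp hli _ h3 i
  have h8 : (⟨(c i)⁻¹ * c i, h2 i⟩ : G.A) = 1 := Subtype.ext (inv_mul_cancel₀ hne)
  rw [h8, map_one] at h7
  exact one_ne_zero h7

end GD

section One

variable {K F : Type*} [Field K] [Field F] [Algebra K F] (P0 : Place K F)

/-- Functions with a pole of order at most `n` at `P0` and no other pole. -/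
noncomputable abbrev LL (n : ℕ) : Submodule K F :=
  riemannRochSpace (Finsupp.single P0 (n : ℤ) : Divisor K F)

lemma single_mono {P0 : Place K F} {n m : ℤ} (h : n ≤ m) :
    (Finsupp.single P0 n : Divisor K F) ≤ Finsupp.single P0 m := by
  classical
  intro v
  rw [Finsupp.single_apply, Finsupp.single_apply]
  split_ifs
  · exact h
  · rfl

lemma LL_mono {n m : ℕ} (h : n ≤ m) : LL P0 n ≤ LL P0 m :=
  L_mono (single_mono (by exact_mod_cast h))

lemma one_mem_LL (n : ℕ) : (1 : F) ∈ LL P0 n := by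
  rw [mem_L_iff one_ne_zero]
  classical
  intro v
  rw [v.ord_one, Finsupp.single_apply]
  split_ifs
  · simp
  · simp

lemma algebraMap_mem_LL (n : ℕ) (c : K) : algebraMap K F c ∈ LL P0 n := by
  rw [Algebra.algebraMap_eq_smul_one]
  exact Submodule.smul_mem _ _ (one_mem_LL P0 n)

lemma mul_mem_LL {n m : ℕ} {x y : F} (hx : x ∈ LL P0 n) (hy : y ∈ LL P0 m) :
    x * y ∈ LL P0 (n + m) := by
  have := mem_L_mul hx hy
  rwa [← Finsupp.single_add, ← Nat.cast_add] at this

/-- The ring of functions regular away from `P0`. -/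
noncomputable def regRing : Subalgebra K F where
  carrier := {f | ∃ n : ℕ, f ∈ LL P0 n}
  mul_mem' := by
    rintro x y ⟨n, hn⟩ ⟨m, hm⟩
    exact ⟨n + m, mul_mem_LL P0 hn hm⟩
  add_mem' := by
    rintro x y ⟨n, hn⟩ ⟨m, hm⟩
    exact ⟨n + m, Submodule.add_mem _ (LL_mono P0 (by omega) hn) (LL_mono P0 (by omega) hm)⟩
  algebraMap_mem' c := ⟨0, algebraMap_mem_LL P0 0 c⟩

lemma mem_regRing {f : F} : f ∈ regRing P0 ↔ ∃ n : ℕ, f ∈ LL P0 n := Iff.rfl

section Dim

variable [IsFF K F] [IsAlgClosed K]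

lemma finrank_LL {n : ℕ} (hn : 2 * genusFF K F ≤ n + 1) :
    (finrank K (LL P0 n) : ℤ) = n + 1 - genusFF K F := by
  have h := ell_large (K := K) (F := F) (D := Finsupp.single P0 (n : ℤ)) (by
    rw [degree_single_one]; omega)
  rw [degree_single_one] at h
  exact h

lemma exists_notMem_LL {n : ℕ} (hn : 2 * genusFF K F ≤ n) (hn0 : 0 < n) :
    ∃ x ∈ LL P0 n, x ∉ LL P0 (n - 1) := by
  by_contra hcon
  push Not at hcon
  have h1 : finrank K (LL P0 n) ≤ finrank K (LL P0 (n - 1)) := Submodule.finrank_mono hcon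
  have h2 := finrank_LL P0 (n := n) (by omega)
  have h3 := finrank_LL P0 (n := n - 1) (by omega)
  omega

end Dim

/-- the order at `P0` of an element of `LL n` not in `LL (n-1)` -/
lemma ord_eq_of_notMem {n : ℕ} (hn : 0 < n) {x : F} (hx : x ∈ LL P0 n)
    (hx' : x ∉ LL P0 (n - 1)) : P0.ord x = -n := by
  classical
  have hx0 : x ≠ 0 := by rintro rfl; exact hx' (Submodule.zero_mem _)
  rw [mem_L_iff hx0] at hx hx'
  push Not at hx'
  obtain ⟨v, hv⟩ := hx'
  have h1 := hx v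
  by_cases hvP : v = P0
  · subst hvP
    rw [Finsupp.single_eq_same] at h1 hv
    push_cast [Nat.cast_sub (show 1 ≤ n by omega)] at hv
    omega
  · rw [Finsupp.single_eq_of_ne hvP] at h1 hv
    omega

lemma notMem_LL_of_ord {n : ℕ} (hn : 0 < n) {x : F} (hx : P0.ord x = -n) :
    x ∉ LL P0 (n - 1) := by
  intro h
  have hx0 : x ≠ 0 := by
    rintro rfl
    rw [P0.ord_zero] at hx
    omega
  have := (mem_L_iff hx0).mp h P0
  rw [Finsupp.single_eq_same, hx] at this
  push_cast [Nat.cast_sub (show 1 ≤ n by omega)] at this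
  omega

/-- One-dimensionality of the graded pieces. -/
lemma exists_sub_smul_mem [IsFF K F] [IsAlgClosed K] {n : ℕ} (hn : 2 * genusFF K F ≤ n)
    (hn0 : 0 < n) {β : F} (hβ : β ∈ LL P0 n) (hβ' : β ∉ LL P0 (n - 1)) {x : F}
    (hx : x ∈ LL P0 n) : ∃ c : K, x - c • β ∈ LL P0 (n - 1) := by
  have h2 := finrank_LL P0 (n := n) (by omega)
  have h3 := finrank_LL P0 (n := n - 1) (by omega)
  have h4 : finrank K (LL P0 n) = finrank K (LL P0 (n - 1)) + 1 := by omega
  have h5 : LL P0 (n - 1) ⊔ (K ∙ β) ≤ LL P0 n := by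
    apply sup_le (LL_mono P0 (Nat.sub_le _ _))
    rwa [Submodule.span_singleton_le_iff_mem]
  have h6 : LL P0 (n - 1) < LL P0 (n - 1) ⊔ (K ∙ β) := by
    refine lt_of_le_of_ne le_sup_left fun h => hβ' ?_
    rw [h]
    exact Submodule.mem_sup_right (Submodule.mem_span_singleton_self β)
  have : FiniteDimensional K ↥(LL P0 (n - 1) ⊔ (K ∙ β)) := Submodule.finiteDimensional_of_le h5
  have h7 := Submodule.finrank_lt_finrank_of_lt h6
  have h8 := Submodule.eq_of_le_of_finrank_le h5 (by omega)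
  rw [← h8] at hx
  obtain ⟨y, hy, z, hz, rfl⟩ := Submodule.mem_sup.mp hx
  obtain ⟨c, rfl⟩ := Submodule.mem_span_singleton.mp hz
  exact ⟨c, by simpa using hy⟩

end One


section Rat

variable {K F k F' : Type*} [Field K] [Field F] [Algebra K F] [Field k] [Field F'] [Algebra k F']
  [IsFF K F] [IsFF k F'] [IsAlgClosed K] [IsAlgClosed k]
variable (G : GaussData K F k F') (P0 : Place K F)
variable (R : Type*) [CommRing R] [Algebra R K] [Algebra R k] [Algebra R F] [IsScalarTower R K F]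

/-- A rational structure on the functions with poles at `P0`. -/
structure RatModel where
  FQ : Subalgebra R F
  A_mem : ∀ r : R, algebraMap R K r ∈ G.A
  res_eq : ∀ r : R, G.res ⟨_, A_mem r⟩ = algebraMap R k r
  inj : Function.Injective (algebraMap R K)
  local_ : ∀ r : R, algebraMap R k r ≠ 0 → IsUnit r
  coord : ∀ {d : ℕ} (e : Fin d → F), (∀ i, e i ∈ FQ) → LinearIndependent K e →
    ∀ c : Fin d → K, (∑ i, c i • e i) ∈ FQ → (∀ i, c i ∈ G.A) → ∀ i, ∃ r : R, algebraMap R K r = c i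
  basis : ∀ n : ℕ, ∃ (b : Fin (finrank K (LL P0 n)) → F) (hb : ∀ i, b i ∈ G.O),
    (∀ i, b i ∈ FQ) ∧ (∀ i, b i ∈ LL P0 n) ∧
      LinearIndependent k (fun i => G.ρ ⟨b i, hb i⟩)

namespace RatModel

variable {G P0 R} (𝓡 : RatModel G P0 R)

/-- The model ring. -/
noncomputable def B : Subalgebra R F where
  carrier := {f | f ∈ 𝓡.FQ ∧ f ∈ G.O ∧ f ∈ regRing P0}
  mul_mem' := by
    rintro x y ⟨h1, h2, h3⟩ ⟨h1', h2', h3'⟩
    exact ⟨mul_mem h1 h1', mul_mem h2 h2', mul_mem h3 h3'⟩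
  add_mem' := by
    rintro x y ⟨h1, h2, h3⟩ ⟨h1', h2', h3'⟩
    exact ⟨add_mem h1 h1', add_mem h2 h2', add_mem h3 h3'⟩
  algebraMap_mem' r := by
    refine ⟨𝓡.FQ.algebraMap_mem r, ?_, ?_⟩
    · rw [IsScalarTower.algebraMap_apply R K F]
      exact (G.mem_O_iff _).mpr (𝓡.A_mem r)
    · rw [IsScalarTower.algebraMap_apply R K F]
      exact (regRing P0).algebraMap_mem _

lemma mem_B {f : F} : f ∈ 𝓡.B ↔ f ∈ 𝓡.FQ ∧ f ∈ G.O ∧ f ∈ regRing P0 := Iff.rfl

/-- The filtration. -/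
noncomputable def Fil (n : ℕ) : Submodule R 𝓡.B :=
  ((LL P0 n).restrictScalars R).comap 𝓡.B.val.toLinearMap

lemma mem_Fil {n : ℕ} {f : 𝓡.B} : f ∈ 𝓡.Fil n ↔ (f : F) ∈ LL P0 n := Iff.rfl

/-- Coordinates with respect to an orthonormal rational family. -/
lemma exists_coord_R {d : ℕ} {e : Fin d → F} (he : ∀ i, e i ∈ 𝓡.FQ) (heO : ∀ i, e i ∈ G.O)
    (hli : LinearIndependent k (fun i => G.ρ ⟨e i, heO i⟩)) {c : Fin d → K} {f : F}
    (hf : f ∈ 𝓡.FQ) (hfO : f ∈ G.O) (hfc : f = ∑ i, c i • e i) :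
    ∃ r : Fin d → R, f = ∑ i, r i • e i ∧ ∀ i, algebraMap R K (r i) = c i := by
  have h1 : ∀ i, c i ∈ G.A := fun i => G.coord_mem heO hli (by rw [← hfc]; exact hfO) i
  choose r hr using 𝓡.coord e he (linearIndependent_of_ρ G heO hli) c (by rw [← hfc]; exact hf) h1
  refine ⟨r, ?_, hr⟩
  rw [hfc]
  refine Finset.sum_congr rfl fun i _ => ?_
  rw [← hr i, algebraMap_smul]

/-- The basis of each filtration step. -/
lemma exists_basis (n : ℕ) : ∃ b : Basis (Fin (finrank K (LL P0 n))) R (𝓡.Fil n),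
    ∃ hb : ∀ i, ((b i : 𝓡.B) : F) ∈ G.O,
      LinearIndependent k (fun i => G.ρ ⟨((b i : 𝓡.B) : F), hb i⟩) := by
  obtain ⟨e, heO, he, heL, hli⟩ := 𝓡.basis n
  have hK := linearIndependent_of_ρ G heO hli
  let e' : Fin (finrank K (LL P0 n)) → 𝓡.Fil n := fun i => ⟨⟨e i, he i, heO i, n, heL i⟩, heL i⟩
  have hind : LinearIndependent R e' := by
    rw [Fintype.linearIndependent_iff]
    intro r hr i
    have h1 : ∑ i, algebraMap R K (r i) • e i = 0 := by
      have := congrArg (fun x : 𝓡.Fil n => ((x : 𝓡.B) : F)) hr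
      simp only [ZeroMemClass.coe_zero] at this
      rw [← this]
      push_cast
      exact Finset.sum_congr rfl fun i _ => by rw [algebraMap_smul]
    apply 𝓡.inj
    rw [map_zero]
    exact Fintype.linearIndependent_iff.mp hK _ h1 i
  have hspan : ⊤ ≤ Submodule.span R (Set.range e') := by
    rintro ⟨⟨f, hf1, hf2, hf3⟩, hf⟩ -
    have hfL : f ∈ LL P0 n := hf
    -- `e` is a basis of `LL n`
    have h1 : Submodule.span K (Set.range e) = LL P0 n := by
      apply Submodule.eq_of_le_of_finrank_le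
      · rw [Submodule.span_le]
        rintro _ ⟨i, rfl⟩
        exact heL i
      · rw [finrank_span_eq_card hK, Fintype.card_fin]
    rw [← h1] at hfL
    obtain ⟨c, hc⟩ := (Submodule.mem_span_range_iff_exists_fun K).mp hfL
    obtain ⟨r, hr, -⟩ := 𝓡.exists_coord_R he heO hli hf1 hf2 hc.symm
    rw [Submodule.mem_span_range_iff_exists_fun]
    refine ⟨r, ?_⟩
    apply Subtype.ext
    apply Subtype.ext
    push_cast
    exact hr.symm
  refine ⟨Basis.mk hind hspan, fun i => ?_, ?_⟩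
  · rw [Basis.mk_apply]; exact heO i
  · convert hli using 2 with i
    congr 1
    apply Subtype.ext
    exact congrArg (fun x : 𝓡.Fil n => ((x : 𝓡.B) : F)) (Basis.mk_apply hind hspan i)

variable [Algebra R F'] [IsScalarTower R k F']

/-- The reduction map on the model ring. -/
noncomputable def red : 𝓡.B →ₐ[R] F' where
  toFun f := G.ρ ⟨f, f.2.2.1⟩
  map_one' := map_one G.ρ
  map_mul' _ _ := G.ρ_mul _ _ _
  map_zero' := map_zero G.ρ
  map_add' _ _ := G.ρ_add _ _ _
  commutes' r := by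
    have h1 : (⟨((algebraMap R 𝓡.B r : 𝓡.B) : F), (algebraMap R 𝓡.B r : 𝓡.B).2.2.1⟩ : G.O) =
        ⟨algebraMap K F (algebraMap R K r), (G.mem_O_iff _).mpr (𝓡.A_mem r)⟩ :=
      Subtype.ext (IsScalarTower.algebraMap_apply R K F r)
    rw [h1, G.ρ_algebraMap ⟨_, 𝓡.A_mem r⟩, 𝓡.res_eq, ← IsScalarTower.algebraMap_apply]

lemma red_apply (f : 𝓡.B) : 𝓡.red f = G.ρ ⟨f, f.2.2.1⟩ := rfl

variable {Rd : RedMap G} {w : Place k F'} (hw : Rd.r (Finsupp.single P0 1) = Finsupp.single w 1)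

include hw in
lemma r_single (n : ℕ) : Rd.r (Finsupp.single P0 (n : ℤ)) = Finsupp.single w (n : ℤ) := by
  have h1 : (Finsupp.single P0 (n : ℤ) : Divisor K F) = n • Finsupp.single P0 (1 : ℤ) := by
    rw [← Finsupp.smul_single_one, natCast_zsmul]
  have h2 : (Finsupp.single w (n : ℤ) : Divisor k F') = n • Finsupp.single w (1 : ℤ) := by
    rw [← Finsupp.smul_single_one, natCast_zsmul]
  rw [h1, map_nsmul, hw, ← h2]

include hw in
lemma redSpace_LL_le (n : ℕ) : G.redSpace (LL P0 n) ≤ LL w n := by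
  have := Rd.redSpace_le (Finsupp.single P0 (n : ℤ))
  rwa [r_single hw] at this

include hw in
lemma redSpace_LL {n : ℕ} (hn : Rd.n₀ ≤ n) : G.redSpace (LL P0 n) = LL w n := by
  have := Rd.redSpace_L (Finsupp.single P0 (n : ℤ)) (by rwa [degree_single_one])
  rwa [r_single hw] at this

include hw in
lemma red_mem_LL {n : ℕ} {f : 𝓡.B} (hf : f ∈ 𝓡.Fil n) : 𝓡.red f ∈ LL w n :=
  redSpace_LL_le hw n ⟨f, hf, f.2.2.1, rfl⟩

/-- the range of the reduction spans. -/
lemma span_red (n : ℕ) :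
    Submodule.span k (𝓡.red '' (𝓡.Fil n : Set 𝓡.B)) = G.redSpace (LL P0 n) := by
  apply le_antisymm
  · rw [Submodule.span_le]
    rintro _ ⟨f, hf, rfl⟩
    exact ⟨f, hf, f.2.2.1, rfl⟩
  · obtain ⟨e, heO, he, heL, hli⟩ := 𝓡.basis n
    have h1 : G.redSpace (LL P0 n) ≤
        Submodule.span k (Set.range fun i => G.ρ ⟨e i, heO i⟩) := by
      have h2 : Submodule.span k (Set.range fun i => G.ρ ⟨e i, heO i⟩) ≤
          G.redSpace (LL P0 n) := by
        rw [Submodule.span_le]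
        rintro _ ⟨i, rfl⟩
        exact ⟨e i, heL i, heO i, rfl⟩
      refine (Submodule.eq_of_le_of_finrank_le h2 ?_).ge
      rw [G.finrank_redSpace, finrank_span_eq_card hli, Fintype.card_fin]
    refine h1.trans (Submodule.span_mono ?_)
    rintro _ ⟨i, rfl⟩
    exact ⟨⟨e i, he i, heO i, n, heL i⟩, heL i, rfl⟩

omit [IsFF k F'] [IsFF K F] [IsAlgClosed K] [IsAlgClosed k] in
/-- The index from which everything is regular. -/
noncomputable def mm [HasPrincipalDivisors K F] [HasPrincipalDivisors k F'] (Rd : RedMap G) : ℕ :=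
  Rd.n₀.toNat + 2 * genusFF K F + 2 * genusFF k F' + 1

lemma genus_eq (Rd : RedMap G) {w : Place k F'}
    (hw : Rd.r (Finsupp.single P0 1) = Finsupp.single w 1) : genusFF K F = genusFF k F' := by
  have h1 := redSpace_LL hw (n := mm Rd) (by unfold mm; omega)
  have h2 := G.finrank_redSpace (LL P0 (mm Rd))
  rw [h1] at h2
  have h3 := finrank_LL P0 (n := mm Rd) (by unfold mm; omega)
  have h4 := finrank_LL w (n := mm Rd) (by unfold mm; omega)
  omega

include hw in
lemma exists_β {n : ℕ} (hn : mm Rd < n) :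
    ∃ β ∈ 𝓡.Fil n, 𝓡.red β ∉ LL w (n - 1) := by
  unfold mm at hn
  by_contra hcon
  push Not at hcon
  obtain ⟨x, hx, hx'⟩ := exists_notMem_LL w (n := n) (by omega) (by omega)
  apply hx'
  rw [← redSpace_LL hw (n := n) (by omega), ← 𝓡.span_red n] at hx
  have h1 : Submodule.span k (𝓡.red '' (𝓡.Fil n : Set 𝓡.B)) ≤ LL w (n - 1) := by
    rw [Submodule.span_le]
    rintro _ ⟨f, hf, rfl⟩
    exact hcon f hf
  exact h1 hx

include hw in
/-- Division by `β`. -/
lemma exists_sub_smul {n : ℕ} (hn : mm Rd < n) {β : 𝓡.B} (hβ : β ∈ 𝓡.Fil n)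
    (hβ' : 𝓡.red β ∉ LL w (n - 1)) {x : 𝓡.B} (hx : x ∈ 𝓡.Fil n) :
    ∃ a : R, x - a • β ∈ 𝓡.Fil (n - 1) := by
  unfold mm at hn
  have hβK : (β : F) ∉ LL P0 (n - 1) := fun h => hβ' (𝓡.red_mem_LL hw (n := n - 1) h)
  obtain ⟨c, hc⟩ := exists_sub_smul_mem P0 (n := n) (by omega) (by omega) hβ hβK hx
  obtain ⟨e, heO, he, heL, hli⟩ := 𝓡.basis (n - 1)
  have hK := linearIndependent_of_ρ G heO hli
  have h1 : Submodule.span K (Set.range e) = LL P0 (n - 1) := by
    apply Submodule.eq_of_le_of_finrank_le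
    · rw [Submodule.span_le]
      rintro _ ⟨i, rfl⟩
      exact heL i
    · rw [finrank_span_eq_card hK, Fintype.card_fin]
  rw [← h1] at hc
  obtain ⟨d, hd⟩ := (Submodule.mem_span_range_iff_exists_fun K).mp hc
  -- the family `β, e`
  let e' : Fin (finrank K (LL P0 (n - 1)) + 1) → F := Fin.cons (β : F) e
  let c' : Fin (finrank K (LL P0 (n - 1)) + 1) → K := Fin.cons c d
  have he'O : ∀ i, e' i ∈ G.O := by
    intro i
    refine Fin.cases ?_ (fun j => ?_) i
    · exact β.2.2.1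
    · exact heO j
  have he'Q : ∀ i, e' i ∈ 𝓡.FQ := by
    intro i
    refine Fin.cases ?_ (fun j => ?_) i
    · exact β.2.1
    · exact he j
  have hli' : LinearIndependent k (fun i => G.ρ ⟨e' i, he'O i⟩) := by
    have h2 : (fun i => G.ρ ⟨e' i, he'O i⟩) = Fin.cons (𝓡.red β) (fun i => G.ρ ⟨e i, heO i⟩) := by
      funext i
      refine Fin.cases ?_ (fun j => ?_) i
      · rfl
      · rfl
    rw [h2]
    rw [linearIndependent_finCons]
    refine ⟨hli, fun hmem => hβ' ?_⟩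
    have h3 : Submodule.span k (Set.range fun i => G.ρ ⟨e i, heO i⟩) ≤ LL w (n - 1) := by
      rw [Submodule.span_le]
      rintro _ ⟨i, rfl⟩
      exact redSpace_LL_le hw (n - 1) ⟨e i, heL i, heO i, rfl⟩
    exact h3 hmem
  have hxe : (x : F) = ∑ i, c' i • e' i := by
    rw [Fin.sum_univ_succ]
    simp only [c', e', Fin.cons_zero, Fin.cons_succ]
    rw [hd]
    change (x : F) = c • (β : F) + ((x : F) - c • (β : F))
    abel
  obtain ⟨r, hr, hrc⟩ := 𝓡.exists_coord_R he'Q he'O hli' x.2.1 x.2.2.1 hxe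
  refine ⟨r 0, ?_⟩
  rw [mem_Fil]
  have h4 : ((x - r 0 • β : 𝓡.B) : F) = ∑ i, r (Fin.succ i) • e i := by
    push_cast
    rw [hr, Fin.sum_univ_succ]
    simp only [e', Fin.cons_zero, Fin.cons_succ]
    abel
  rw [h4]
  refine Submodule.sum_mem _ fun i _ => ?_
  rw [← algebraMap_smul K]
  exact Submodule.smul_mem _ _ (heL i)

include hw in
lemma smul_β_mem {n : ℕ} {β : 𝓡.B}
    (hβ' : 𝓡.red β ∉ LL w (n - 1)) {a : R} (h : a • β ∈ 𝓡.Fil (n - 1)) : a = 0 := by
  have hβK : (β : F) ∉ LL P0 (n - 1) := fun h => hβ' (𝓡.red_mem_LL hw (n := n - 1) h)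
  by_contra ha
  apply hβK
  have h1 : algebraMap R K a ≠ 0 := fun h0 => ha (𝓡.inj (by rw [h0, map_zero]))
  have h2 : algebraMap R K a • (β : F) ∈ LL P0 (n - 1) := by
    rw [algebraMap_smul]; exact h
  have h3 := Submodule.smul_mem _ (algebraMap R K a)⁻¹ h2
  rwa [inv_smul_smul₀ h1] at h3

include hw in
/-- The filtered algebra. -/
theorem exists_preFil : ∃ Q : PreFil R 𝓡.B, Q.g = genusFF K F ∧ Q.m0 = mm Rd ∧
    Q.Fil = 𝓡.Fil := by
  classical
  have hgen := genus_eq Rd hw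
  set m := mm Rd with hm
  have hm' : m = Rd.n₀.toNat + 2 * genusFF K F + 2 * genusFF k F' + 1 := rfl
  choose! β hβ hβ' using fun (n : ℕ) (hn : m < n) => 𝓡.exists_β hw hn
  obtain ⟨b, -, -⟩ := 𝓡.exists_basis m
  have hrank : finrank K (LL P0 m) = m + 1 - genusFF K F := by
    have := finrank_LL P0 (n := m) (by omega)
    omega
  refine ⟨⟨genusFF K F, m, by omega, 𝓡.Fil, ?_, ?_, ?_, ?_, ?_, β, hβ, ?_, ?_, ?_⟩, rfl, rfl, rfl⟩
  · intro i j hij x hx
    exact LL_mono P0 hij hx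
  · intro x
    exact x.2.2.2
  · exact one_mem_LL P0 m
  · intro i j _ _ x hx y hy
    exact mul_mem_LL P0 hx hy
  · exact b.reindex (finCongr hrank)
  · intro n hn x hx
    exact 𝓡.exists_sub_smul hw hn (hβ n hn) (hβ' n hn) hx
  · intro n hn a ha
    exact 𝓡.smul_β_mem hw (hβ' n hn) ha
  · intro i j hi hj
    have hij : m < i + j := by omega
    have h1 : β i * β j ∈ 𝓡.Fil (i + j) := mul_mem_LL P0 (hβ i hi) (hβ j hj)
    obtain ⟨u, hu⟩ := 𝓡.exists_sub_smul hw hij (hβ _ hij) (hβ' _ hij) h1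
    refine ⟨u, 𝓡.local_ u fun h0 => ?_, hu⟩
    have h2 := 𝓡.red_mem_LL hw hu
    rw [map_sub, map_mul, map_smul, Algebra.smul_def u, IsScalarTower.algebraMap_apply R k F', h0,
      map_zero, zero_mul, sub_zero] at h2
    have h3 := ord_eq_of_notMem w (by omega) (𝓡.red_mem_LL hw (hβ i hi)) (hβ' i hi)
    have h4 := ord_eq_of_notMem w (by omega) (𝓡.red_mem_LL hw (hβ j hj)) (hβ' j hj)
    have h5 : 𝓡.red (β i) ≠ 0 := by
      intro h; rw [h, w.ord_zero] at h3; omega
    have h6 : 𝓡.red (β j) ≠ 0 := by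
      intro h; rw [h, w.ord_zero] at h4; omega
    refine notMem_LL_of_ord w (n := i + j) (by omega) ?_ h2
    rw [w.ord_mul h5 h6, h3, h4]
    push_cast
    ring

end RatModel

end Rat

end Fermat.Agent.HopfOrder
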