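import Mathlib

/-!
# Algebras with a pole basis

`B` is an `R`-algebra with a basis `b 0, b 1, …` adapted to a filtration "by pole order at a point".
`fil n` (for `n ≥ m0`) is the free module on the first `n + 1 - g` basis vectors, and is to be
thought of as the module of functions with a pole of order at most `n`.
-/

set_option autoImplicit false

open scoped TensorProduct

namespace Fermat.Agent.HopfOrder

/-- A pole basis of an algebra. -/
structure PoleBasis (R B : Type*) [CommRing R] [CommRing B] [Algebra R B] where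
  g : ℕ
  m0 : ℕ
  hg : g ≤ m0
  b : Module.Basis ℕ R B
  one_mem : (1 : B) ∈ Submodule.span R (b '' Set.Iio (m0 + 1 - g))
  mul_mem : ∀ n m, m0 ≤ n → m0 ≤ m → ∀ i < n + 1 - g, ∀ j < m + 1 - g,
    b i * b j ∈ Submodule.span R (b '' Set.Iio (n + m + 1 - g))
  lead : ∀ n m, m0 < n → m0 < m → b.repr (b (n - g) * b (m - g)) (n + m - g) = 1

namespace PoleBasis

section Basic

variable {R B : Type*} [CommRing R] [CommRing B] [Algebra R B] (P : PoleBasis R B)

/-- The filtration step. -/
def fil (n : ℕ) : Submodule R B := Submodule.span R (P.b '' Set.Iio (n + 1 - P.g))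

/-- The coefficient of the `n`-th leading term. -/
noncomputable def lc (n : ℕ) : B →ₗ[R] R := P.b.coord (n - P.g)

lemma lc_apply (n : ℕ) (x : B) : P.lc n x = P.b.repr x (n - P.g) := rfl

lemma mem_fil {n : ℕ} {x : B} : x ∈ P.fil n ↔ ∀ i, n + 1 - P.g ≤ i → P.b.repr x i = 0 := by
  rw [fil, P.b.mem_span_image]
  constructor
  · intro h i hi
    by_contra hne
    have := h (Finset.mem_coe.mpr (Finsupp.mem_support_iff.mpr hne))
    exact absurd this (by simpa using hi)
  · intro h i hi
    by_contra hne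
    exact (Finsupp.mem_support_iff.mp (Finset.mem_coe.mp hi)) (h i (by simpa using hne))

lemma fil_mono {n m : ℕ} (h : n ≤ m) : P.fil n ≤ P.fil m := by
  intro x hx
  rw [mem_fil] at hx ⊢
  intro i hi
  exact hx i (by omega)

lemma b_mem_fil {n i : ℕ} (hi : i < n + 1 - P.g) : P.b i ∈ P.fil n :=
  Submodule.subset_span ⟨i, hi, rfl⟩

lemma one_mem_fil {n : ℕ} (hn : P.m0 ≤ n) : (1 : B) ∈ P.fil n :=
  P.fil_mono hn P.one_mem

lemma exists_mem_fil (x : B) : ∃ n, P.m0 ≤ n ∧ x ∈ P.fil n := by
  refine ⟨P.m0 + P.g + ((P.b.repr x).support.sup id + 1), by omega, ?_⟩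
  rw [mem_fil]
  intro i hi
  by_contra hne
  have h1 : i ≤ (P.b.repr x).support.sup id :=
    Finset.le_sup (f := id) (Finsupp.mem_support_iff.mpr hne)
  omega

lemma exists_le_mem_fil (x : B) : ∃ n, ∀ m, n ≤ m → x ∈ P.fil m := by
  obtain ⟨n, -, h⟩ := P.exists_mem_fil x
  exact ⟨n, fun m hm => P.fil_mono hm h⟩

lemma mul_mem_fil {n m : ℕ} (hn : P.m0 ≤ n) (hm : P.m0 ≤ m) {x y : B} (hx : x ∈ P.fil n)
    (hy : y ∈ P.fil m) : x * y ∈ P.fil (n + m) := by
  induction hx using Submodule.span_induction with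
  | mem x hx =>
    obtain ⟨i, hi, rfl⟩ := hx
    induction hy using Submodule.span_induction with
    | mem y hy =>
      obtain ⟨j, hj, rfl⟩ := hy
      exact P.mul_mem n m hn hm i hi j hj
    | zero => rw [mul_zero]; exact zero_mem _
    | add y z _ _ hy hz => rw [mul_add]; exact add_mem hy hz
    | smul a y _ hy => rw [mul_smul_comm]; exact Submodule.smul_mem _ _ hy
  | zero => rw [zero_mul]; exact zero_mem _
  | add x z _ _ hx hz => rw [add_mul]; exact add_mem hx hz
  | smul a x _ hx => rw [smul_mul_assoc]; exact Submodule.smul_mem _ _ hx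

lemma mem_fil_pred {n : ℕ} (hn : P.m0 < n) {x : B} (hx : x ∈ P.fil n) (h : P.lc n x = 0) :
    x ∈ P.fil (n - 1) := by
  rw [mem_fil] at hx ⊢
  intro i hi
  have := P.hg
  rcases eq_or_ne i (n - P.g) with rfl | hne
  · exact h
  · exact hx i (by omega)

lemma lc_eq_zero_of_mem {n m : ℕ} (hnm : n < m) (hm : P.m0 < m) {x : B} (hx : x ∈ P.fil n) :
    P.lc m x = 0 := by
  rw [mem_fil] at hx
  have := P.hg
  exact hx _ (by omega)

lemma sub_mem_fil_pred {n : ℕ} (hn : P.m0 < n) {x : B} (hx : x ∈ P.fil n) :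
    x - P.lc n x • P.b (n - P.g) ∈ P.fil (n - 1) := by
  have hg := P.hg
  apply P.mem_fil_pred hn
  · exact sub_mem hx (Submodule.smul_mem _ _ (P.b_mem_fil (by omega)))
  · rw [map_sub, map_smul, lc_apply P n (P.b (n - P.g)), P.b.repr_self, Finsupp.single_eq_same]
    simp

lemma lc_mul {n m : ℕ} (hn : P.m0 < n) (hm : P.m0 < m) {x y : B} (hx : x ∈ P.fil n)
    (hy : y ∈ P.fil m) : P.lc (n + m) (x * y) = P.lc n x * P.lc m y := by
  obtain ⟨x', hx', hxe⟩ : ∃ x' ∈ P.fil (n - 1), x = x' + P.lc n x • P.b (n - P.g) :=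
    ⟨_, P.sub_mem_fil_pred hn hx, by abel⟩
  obtain ⟨y', hy', hye⟩ : ∃ y' ∈ P.fil (m - 1), y = y' + P.lc m y • P.b (m - P.g) :=
    ⟨_, P.sub_mem_fil_pred hm hy, by abel⟩
  have hg := P.hg
  have h1 : P.lc (n + m) (x' * y) = 0 :=
    P.lc_eq_zero_of_mem (n := n - 1 + m) (by omega) (by omega)
      (P.mul_mem_fil (by omega) hm.le hx' hy)
  have h2 : P.lc (n + m) (P.b (n - P.g) * y') = 0 :=
    P.lc_eq_zero_of_mem (n := n + (m - 1)) (by omega) (by omega)
      (P.mul_mem_fil hn.le (by omega) (P.b_mem_fil (by omega)) hy')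
  have h3 : P.lc (n + m) (P.b (n - P.g) * P.b (m - P.g)) = 1 := P.lead n m hn hm
  have : x * y = x' * y + P.lc n x • (P.b (n - P.g) * y') +
      (P.lc n x * P.lc m y) • (P.b (n - P.g) * P.b (m - P.g)) := by
    conv_lhs => rw [hxe]
    rw [add_mul, add_assoc]
    congr 1
    conv_lhs => rw [hye]
    rw [mul_add, smul_mul_assoc, mul_smul_comm, smul_mul_assoc, smul_smul, mul_comm (P.lc m y)]
  rw [this, map_add, map_add, h1, map_smul, h2, map_smul, h3]
  simp

lemma lc_b {n : ℕ} : P.lc n (P.b (n - P.g)) = 1 := by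
  rw [lc_apply, P.b.repr_self, Finsupp.single_eq_same]

/-- `fil n` is free with basis the first basis vectors. -/
noncomputable def filBasis (n : ℕ) : Module.Basis (Set.Iio (n + 1 - P.g)) R (P.fil n) :=
  (Module.Basis.span (P.b.linearIndependent.comp ((↑) : Set.Iio (n + 1 - P.g) → ℕ)
    Subtype.val_injective)).map (LinearEquiv.ofEq _ _ (by
      rw [fil, Set.image_eq_range]; rfl))

instance (n : ℕ) : Module.Free R (P.fil n) := Module.Free.of_basis (P.filBasis n)

instance (n : ℕ) : Module.Finite R (P.fil n) := Module.Finite.of_basis (P.filBasis n)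

lemma finrank_fil [Nontrivial R] (n : ℕ) : Module.finrank R (P.fil n) = n + 1 - P.g := by
  rw [Module.finrank_eq_card_basis (P.filBasis n)]
  simp

end Basic

section BaseChange

variable {R B : Type*} [CommRing R] [CommRing B] [Algebra R B] (P : PoleBasis R B)

/-- Specialisation of coefficients. -/
noncomputable def sp (B : Type*) [CommRing B] [Algebra R B] {T T' : Type*} [CommRing T]
    [Algebra R T] [CommRing T'] [Algebra R T'] (φ : T →ₐ[R] T') : T ⊗[R] B →ₐ[R] T' ⊗[R] B :=
  Algebra.TensorProduct.map φ (AlgHom.id R B)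

section Sp

variable {T T' T'' : Type*} [CommRing T] [Algebra R T] [CommRing T'] [Algebra R T'] [CommRing T'']
  [Algebra R T''] (φ : T →ₐ[R] T') (ψ : T' →ₐ[R] T'')

@[simp] lemma sp_tmul (t : T) (x : B) : sp B φ (t ⊗ₜ x) = φ t ⊗ₜ x := by simp [sp]

lemma sp_smul (t : T) (x : T ⊗[R] B) : sp B φ (t • x) = φ t • sp B φ x := by
  rw [Algebra.smul_def, Algebra.smul_def, map_mul]
  simp [Algebra.TensorProduct.algebraMap_apply]

lemma sp_algebraMap (t : T) :
    sp B φ (algebraMap T (T ⊗[R] B) t) = algebraMap T' (T' ⊗[R] B) (φ t) := by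
  simp [Algebra.TensorProduct.algebraMap_apply]

lemma sp_comp (x : T ⊗[R] B) : sp B ψ (sp B φ x) = sp B (ψ.comp φ) x := by
  induction x with
  | zero => simp
  | tmul t b => simp
  | add x y hx hy => rw [map_add, map_add, map_add, hx, hy]

lemma sp_surjective (hφ : Function.Surjective φ) : Function.Surjective (sp B φ) := by
  intro x
  induction x with
  | zero => exact ⟨0, map_zero _⟩
  | tmul t b =>
    obtain ⟨s, rfl⟩ := hφ t
    exact ⟨s ⊗ₜ b, sp_tmul φ s b⟩
  | add x y hx hy =>
    obtain ⟨a, rfl⟩ := hx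
    obtain ⟨c, rfl⟩ := hy
    exact ⟨a + c, map_add _ _ _⟩

end Sp

variable (T : Type*) [CommRing T] [Algebra R T]

/-- the basis of the base change -/
noncomputable def bas : Module.Basis ℕ T (T ⊗[R] B) := Algebra.TensorProduct.basis T P.b

lemma bas_apply (i : ℕ) : P.bas T i = 1 ⊗ₜ P.b i := by simp [bas]

variable {T} in
lemma repr_tmul (t : T) (x : B) (i : ℕ) :
    (P.bas T).repr (t ⊗ₜ x) i = t * algebraMap R T (P.b.repr x i) := by
  simp [bas, Algebra.TensorProduct.basis_repr_tmul]

variable {T} in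
lemma tmul_mem_span {s : Set ℕ} {x : B} (hx : x ∈ Submodule.span R (P.b '' s)) (t : T) :
    t ⊗ₜ[R] x ∈ Submodule.span T (P.bas T '' s) := by
  induction hx using Submodule.span_induction with
  | mem x hx =>
    obtain ⟨i, hi, rfl⟩ := hx
    have : t ⊗ₜ[R] P.b i = t • P.bas T i := by
      rw [bas_apply, TensorProduct.smul_tmul']; simp
    rw [this]
    exact Submodule.smul_mem _ _ (Submodule.subset_span ⟨i, hi, rfl⟩)
  | zero => rw [TensorProduct.tmul_zero]; exact zero_mem _
  | add y z _ _ hy hz => rw [TensorProduct.tmul_add]; exact add_mem hy hz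
  | smul a y _ hy =>
    rw [TensorProduct.tmul_smul, ← algebraMap_smul T a]
    exact Submodule.smul_mem _ _ hy

/-- Base change of a pole basis. -/
noncomputable def baseChange : PoleBasis T (T ⊗[R] B) where
  g := P.g
  m0 := P.m0
  hg := P.hg
  b := P.bas T
  one_mem := P.tmul_mem_span P.one_mem 1
  mul_mem n m hn hm i hi j hj := by
    rw [bas_apply, bas_apply, Algebra.TensorProduct.tmul_mul_tmul, one_mul]
    exact P.tmul_mem_span (P.mul_mem n m hn hm i hi j hj) 1
  lead n m hn hm := by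
    rw [bas_apply, bas_apply, Algebra.TensorProduct.tmul_mul_tmul, one_mul, repr_tmul,
      P.lead n m hn hm, map_one, one_mul]

@[simp] lemma baseChange_g : (P.baseChange T).g = P.g := rfl
@[simp] lemma baseChange_m0 : (P.baseChange T).m0 = P.m0 := rfl
@[simp] lemma baseChange_b : (P.baseChange T).b = P.bas T := rfl

variable {T} {T' : Type*} [CommRing T'] [Algebra R T'] (φ : T →ₐ[R] T')

lemma repr_sp (x : T ⊗[R] B) (i : ℕ) : (P.bas T').repr (sp B φ x) i = φ ((P.bas T).repr x i) := by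
  induction x with
  | zero => simp
  | tmul t b => rw [sp_tmul, repr_tmul, repr_tmul, map_mul, AlgHom.commutes]
  | add x y hx hy =>
    rw [map_add, map_add, Finsupp.add_apply, hx, hy, map_add, Finsupp.add_apply, map_add]

lemma sp_bas (i : ℕ) : sp B φ (P.bas T i) = P.bas T' i := by
  rw [bas_apply, bas_apply, sp_tmul, map_one]

lemma lc_sp (n : ℕ) (x : T ⊗[R] B) :
    (P.baseChange T').lc n (sp B φ x) = φ ((P.baseChange T).lc n x) := by
  rw [lc_apply, lc_apply]
  exact P.repr_sp φ x _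

lemma sp_mem_fil {n : ℕ} {x : T ⊗[R] B} (hx : x ∈ (P.baseChange T).fil n) :
    sp B φ x ∈ (P.baseChange T').fil n := by
  rw [mem_fil] at hx ⊢
  intro i hi
  have h1 := P.repr_sp φ x i
  have h2 := hx i hi
  rw [baseChange_b] at h2 ⊢
  rw [h1, h2, map_zero]

lemma exists_fil_lift (hφ : Function.Surjective φ) {n : ℕ} {y : T' ⊗[R] B}
    (hy : y ∈ (P.baseChange T').fil n) : ∃ x ∈ (P.baseChange T).fil n, sp B φ x = y := by
  rw [fil] at hy
  induction hy using Submodule.span_induction with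
  | mem x hx =>
    obtain ⟨i, hi, rfl⟩ := hx
    exact ⟨P.bas T i, Submodule.subset_span ⟨i, hi, rfl⟩, P.sp_bas φ i⟩
  | zero => exact ⟨0, zero_mem _, map_zero _⟩
  | add y z _ _ hy hz =>
    obtain ⟨a, ha, rfl⟩ := hy
    obtain ⟨c, hc, rfl⟩ := hz
    exact ⟨a + c, add_mem ha hc, map_add _ _ _⟩
  | smul a y _ hy =>
    obtain ⟨c, hc, rfl⟩ := hy
    obtain ⟨a, rfl⟩ := hφ a
    exact ⟨a • c, Submodule.smul_mem _ _ hc, sp_smul φ a c⟩

/-- An element of the kernel of the specialisation of an element of `fil n` is a combination of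
basis vectors with coefficients in the kernel. -/
lemma mem_smul_fil_of_sp_eq_zero {n : ℕ} {x : T ⊗[R] B} (hx : x ∈ (P.baseChange T).fil n)
    (h : sp B φ x = 0) : x ∈ (RingHom.ker φ.toRingHom) • (P.baseChange T).fil n := by
  have h1 : ∀ i, (P.bas T).repr x i ∈ RingHom.ker φ.toRingHom := by
    intro i
    have := P.repr_sp φ x i
    rw [h, map_zero, Finsupp.zero_apply] at this
    exact this.symm
  rw [← (P.bas T).linearCombination_repr x, Finsupp.linearCombination_apply, Finsupp.sum]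
  refine Submodule.sum_mem _ fun i hi => ?_
  refine Submodule.smul_mem_smul (h1 i) ?_
  refine Submodule.subset_span ⟨i, ?_, rfl⟩
  by_contra hne
  rw [mem_fil] at hx
  exact (Finsupp.mem_support_iff.mp hi) (hx i (by simpa using hne))

include P in
lemma mem_smul_top_of_sp_eq_zero {x : T ⊗[R] B} (h : sp B φ x = 0) :
    x ∈ (RingHom.ker φ.toRingHom) • (⊤ : Submodule T (T ⊗[R] B)) := by
  obtain ⟨n, -, hn⟩ := (P.baseChange T).exists_mem_fil x
  exact Submodule.smul_mono le_rfl le_top (P.mem_smul_fil_of_sp_eq_zero φ hn h)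

end BaseChange

end PoleBasis

end Fermat.Agent.HopfOrder
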