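import Fermat.Agent.HopfOrder.RelDiv

/-!
# Principal relative divisors

If `s ∈ fil n` has unit leading coefficient, then `(s)` is a relative divisor of degree `n`.
-/

set_option autoImplicit false

open scoped TensorProduct

namespace Fermat.Agent.HopfOrder

open PoleBasis

section Span

variable {R B : Type*} [CommRing R] [CommRing B] [Algebra R B] (P : PoleBasis R B)

/-- Division with remainder by an element with unit leading coefficient. -/
lemma exists_div {n : ℕ} (hn : P.m0 < n) {s : B} (hs : s ∈ P.fil n) (hu : IsUnit (P.lc n s))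
    (x : B) : ∃ y w, w ∈ P.fil (P.m0 + n) ∧ x = w + s * y := by
  obtain ⟨N, -, hN⟩ := P.exists_mem_fil x
  induction N using Nat.strong_induction_on generalizing x with
  | _ N ih =>
    rcases le_or_gt N (P.m0 + n) with h | h
    · exact ⟨0, x, P.fil_mono h hN, by ring⟩
    · obtain ⟨u, hu⟩ := hu
      have hg := P.hg
      have hb : P.b (N - n - P.g) ∈ P.fil (N - n) := P.b_mem_fil (by omega)
      have h1 : s * P.b (N - n - P.g) ∈ P.fil N := by
        have := P.mul_mem_fil hn.le (by omega : P.m0 ≤ N - n) hs hb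
        rwa [show n + (N - n) = N by omega] at this
      have h2 : P.lc N (s * P.b (N - n - P.g)) = P.lc n s := by
        have := P.lc_mul hn (by omega : P.m0 < N - n) hs hb
        rw [show n + (N - n) = N by omega, P.lc_b, mul_one] at this
        exact this
      let c : R := P.lc N x * (↑u⁻¹ : R)
      have h3 : x - c • (s * P.b (N - n - P.g)) ∈ P.fil (N - 1) := by
        apply P.mem_fil_pred (by omega)
        · exact sub_mem hN (Submodule.smul_mem _ _ h1)
        · rw [map_sub, map_smul, h2, ← hu, smul_eq_mul, mul_assoc, Units.inv_mul, mul_one, sub_self]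
      obtain ⟨y, w, hw, hxy⟩ := ih (N - 1) (by omega) _ h3
      refine ⟨y + c • P.b (N - n - P.g), w, hw, ?_⟩
      rw [mul_add, ← add_assoc, ← hxy, mul_smul_comm]
      ring

lemma mem_fil_of_mul_mem {n : ℕ} (hn : P.m0 < n) {s : B} (hs : s ∈ P.fil n)
    (hu : IsUnit (P.lc n s)) {k : ℕ} (hk : P.m0 ≤ k) {x : B} (hx : s * x ∈ P.fil (k + n)) :
    x ∈ P.fil k := by
  obtain ⟨N, -, hN⟩ := P.exists_mem_fil x
  induction N using Nat.strong_induction_on with
  | _ N ih =>
    rcases le_or_gt N k with h | h
    · exact P.fil_mono h hN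
    · apply ih (N - 1) (by omega)
      apply P.mem_fil_pred (by omega) hN
      have h1 := P.lc_mul hn (by omega : P.m0 < N) hs hN
      rw [P.lc_eq_zero_of_mem (n := k + n) (by omega) (by omega) hx] at h1
      obtain ⟨u, hu⟩ := hu
      rw [← hu] at h1
      rw [← Units.inv_mul_cancel_left u (P.lc N x), ← h1, mul_zero]

lemma mul_eq_zero_of_lc {n : ℕ} (hn : P.m0 < n) {s : B} (hs : s ∈ P.fil n)
    (hu : IsUnit (P.lc n s)) {x : B} (h0 : ∀ y ∈ P.fil P.m0, s * y = 0 → y = 0)
    (hx : s * x = 0) : x = 0 := by
  apply h0 x _ hx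
  apply mem_fil_of_mul_mem P hn hs hu le_rfl
  rw [hx]; exact zero_mem _

/-- If multiplication by `s` on `fil m0` has a retraction, then `(s)` is a relative divisor. -/
lemma isRel_span_of_retraction [IsLocalRing R] {n : ℕ} (hn : P.m0 < n) {s : B} (hs : s ∈ P.fil n)
    (hu : IsUnit (P.lc n s)) (r : B →ₗ[R] P.fil P.m0) (hr : ∀ u : P.fil P.m0, r (s * u) = u) :
    IsRel R (Ideal.span {s}) n := by
  let W := P.fil (P.m0 + n)
  let rW : W →ₗ[R] P.fil P.m0 := r ∘ₗ W.subtype
  let D := LinearMap.ker rW
  have hsU : ∀ u : P.fil P.m0, s * (u : B) ∈ W := by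
    intro u
    have := P.mul_mem_fil hn.le le_rfl hs u.2
    rwa [add_comm n] at this
  let f : P.fil P.m0 →ₗ[R] W :=
    ((LinearMap.mulLeft R s) ∘ₗ (P.fil P.m0).subtype).codRestrict W hsU
  have hrf : ∀ u, rW (f u) = u := fun u => hr u
  let p : W →ₗ[R] D := (LinearMap.id - f ∘ₗ rW).codRestrict D (by
    intro w
    rw [LinearMap.mem_ker, LinearMap.sub_apply, map_sub]
    change rW w - rW (f (rW w)) = 0
    rw [hrf, sub_self])
  have hp : ∀ w, ((p w : W) : B) = w - s * (rW w : B) := fun w => rfl
  have hpD : ∀ w : D, p w = w := by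
    intro w
    apply Subtype.ext
    apply Subtype.ext
    rw [hp, LinearMap.mem_ker.mp w.2]
    simp
  have : Module.Finite R D := Module.Finite.of_surjective p (fun w => ⟨w, hpD w⟩)
  have : Module.Projective R D := Module.Projective.of_split D.subtype p (by
    ext w; rw [LinearMap.comp_apply]; exact congrArg _ (congrArg _ (hpD w)))
  have : Module.Flat R D := Module.Flat.of_projective
  have : Module.Free R D := Module.free_of_flat_of_isLocalRing (R := R) (P := D)
  let e : W ≃ₗ[R] (P.fil P.m0) × D :=
    LinearEquiv.ofBijective (rW.prod p) ⟨by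
      rw [injective_iff_map_eq_zero]
      intro w hw
      have h1 : rW w = 0 := congrArg Prod.fst hw
      have h2 : p w = 0 := congrArg Prod.snd hw
      apply Subtype.ext
      have := hp w
      rw [h1, h2] at this
      simpa using this.symm, by
      rintro ⟨u, d⟩
      refine ⟨f u + d, ?_⟩
      have h1 : rW (f u + d) = u := by
        rw [map_add, hrf, LinearMap.mem_ker.mp d.2, add_zero]
      have h2 : p (f u + d) = d := by
        apply Subtype.ext
        apply Subtype.ext
        rw [hp, h1]
        change s * (u : B) + d - s * u = d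
        ring
      change (rW (f u + d), p (f u + d)) = _
      rw [h1, h2]⟩
  have hrank : Module.finrank R D = n := by
    have h1 := e.finrank_eq
    rw [Module.finrank_prod] at h1
    have h2 : Module.finrank R W = P.m0 + n + 1 - P.g := P.finrank_fil _
    have h3 : Module.finrank R (P.fil P.m0) = P.m0 + 1 - P.g := P.finrank_fil _
    have := P.hg
    omega
  let h : D →ₗ[R] (B ⧸ Ideal.span {s}) :=
    (Ideal.Quotient.mkₐ R (Ideal.span {s})).toLinearMap ∘ₗ W.subtype ∘ₗ D.subtype
  have hbij : Function.Bijective h := by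
    constructor
    · rw [injective_iff_map_eq_zero]
      intro d hd
      have hd' : ((d : W) : B) ∈ Ideal.span {s} := Ideal.Quotient.eq_zero_iff_mem.mp hd
      obtain ⟨x, hx⟩ := Ideal.mem_span_singleton'.mp hd'
      have hxU : x ∈ P.fil P.m0 := by
        apply mem_fil_of_mul_mem P hn hs hu le_rfl
        rw [mul_comm, hx]
        exact d.1.2
      have h1 : r (s * x) = ⟨x, hxU⟩ := hr ⟨x, hxU⟩
      rw [mul_comm, hx] at h1
      have h2 : r ((d : W) : B) = 0 := LinearMap.mem_ker.mp d.2
      rw [h2] at h1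
      have h3 : x = 0 := (congrArg Subtype.val h1).symm
      apply Subtype.ext
      apply Subtype.ext
      rw [← hx, h3]; simp
    · intro y
      obtain ⟨x, rfl⟩ := Ideal.Quotient.mk_surjective y
      obtain ⟨z, w, hw, hxw⟩ := exists_div P hn hs hu x
      refine ⟨p ⟨w, hw⟩, ?_⟩
      change Ideal.Quotient.mk _ (((p ⟨w, hw⟩ : W) : B)) = _
      rw [hp, Ideal.Quotient.eq, hxw, Ideal.mem_span_singleton']
      exact ⟨-(r w : B) - z, by
        change (-(r w : B) - z) * s = w - s * (r w : B) - (w + s * z)
        ring⟩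
  exact hrank ▸ ⟨(LinearEquiv.ofBijective h hbij).symm.trans (Module.finBasis R D).equivFun⟩

end Span

section Local

variable {R B : Type*} [CommRing R] [CommRing B] [Algebra R B] (P : PoleBasis R B)
variable {T κ : Type*} [CommRing T] [Algebra R T] [Field κ] [Algebra R κ]
  (φ : T →ₐ[R] κ)

/-- Over a field with domain fibre, multiplication has a retraction. -/
lemma exists_retraction_field (K : Type*) [Field K] [Algebra K B] (P : PoleBasis K B) [IsDomain B]
    {s : B} (hs : s ≠ 0) : ∃ r : B →ₗ[K] P.fil P.m0, ∀ u : P.fil P.m0, r (s * u) = u := by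
  let f : P.fil P.m0 →ₗ[K] B := (LinearMap.mulLeft K s) ∘ₗ (P.fil P.m0).subtype
  have hf : LinearMap.ker f = ⊥ := by
    rw [LinearMap.ker_eq_bot']
    intro u hu
    have : s * (u : B) = 0 := hu
    rcases mul_eq_zero.mp this with h | h
    · exact absurd h hs
    · exact Subtype.ext h
  obtain ⟨r, hr⟩ := f.exists_leftInverse_of_injective hf
  exact ⟨r, fun u => LinearMap.congr_fun hr u⟩

lemma exists_retraction [IsLocalRing T] (hφ : Function.Surjective φ) [IsDomain (κ ⊗[R] B)]
    {s : T ⊗[R] B} (hs : sp B φ s ≠ 0) :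
    ∃ r : T ⊗[R] B →ₗ[T] (P.baseChange T).fil P.m0,
      ∀ u : (P.baseChange T).fil P.m0, r (s * u) = u := by
  have hker : RingHom.ker φ.toRingHom ≤ (⊥ : Ideal T).jacobson := by
    rw [IsLocalRing.jacobson_eq_maximalIdeal ⊥ bot_ne_top]
    exact IsLocalRing.le_maximalIdeal (RingHom.ker_ne_top _)
  obtain ⟨rκ, hrκ⟩ := exists_retraction_field κ (P.baseChange κ) hs
  choose g hg hg' using fun i : ℕ => P.exists_fil_lift φ hφ (rκ (P.bas κ i)).2
  let G : T ⊗[R] B →ₗ[T] (P.baseChange T).fil P.m0 :=
    (P.bas T).constr T (fun i => ⟨g i, hg i⟩)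
  have hG : ∀ x, sp B φ (G x : T ⊗[R] B) = rκ (sp B φ x) := by
    intro x
    rw [← (P.bas T).linearCombination_repr x, Finsupp.linearCombination_apply, Finsupp.sum,
      map_sum, map_sum, map_sum]
    push_cast
    rw [map_sum]
    refine Finset.sum_congr rfl fun i _ => ?_
    rw [map_smul, sp_smul, P.sp_bas, map_smul]
    push_cast
    rw [sp_smul]
    congr 1
    rw [Module.Basis.constr_basis]
    exact hg' i
  let f : (P.baseChange T).fil P.m0 →ₗ[T] (P.baseChange T).fil P.m0 :=
    G ∘ₗ (LinearMap.mulLeft T s) ∘ₗ ((P.baseChange T).fil P.m0).subtype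
  have hf : ∀ u, f u = G (s * u) := fun u => rfl
  have hsurj : Function.Surjective f := by
    rw [← LinearMap.range_eq_top, eq_top_iff]
    apply Submodule.le_of_le_smul_of_le_jacobson_bot Module.Finite.fg_top hker
    intro u _
    have h1 : sp B φ ((u : T ⊗[R] B) - f u) = 0 := by
      rw [map_sub, hf, hG, map_mul]
      have := hrκ ⟨sp B φ (u : T ⊗[R] B), P.sp_mem_fil φ u.2⟩
      rw [this, sub_self]
    have h2 := P.mem_smul_fil_of_sp_eq_zero φ (n := P.m0) (x := (u : T ⊗[R] B) - f u)
      (sub_mem u.2 (f u).2) h1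
    have h3 : u - f u ∈ (RingHom.ker φ.toRingHom) •
        (⊤ : Submodule T ((P.baseChange T).fil P.m0)) := by
      have h4 : (RingHom.ker φ.toRingHom) • (P.baseChange T).fil P.m0 =
          Submodule.map ((P.baseChange T).fil P.m0).subtype ((RingHom.ker φ.toRingHom) •
            (⊤ : Submodule T ((P.baseChange T).fil P.m0))) := by
        rw [Submodule.map_smul'', Submodule.map_subtype_top]
      rw [h4] at h2
      obtain ⟨y, hy, hyx⟩ := h2
      have : y = u - f u := Subtype.ext hyx
      rwa [this] at hy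
    have : u = f u + (u - f u) := by abel
    rw [this]
    exact Submodule.add_mem_sup (LinearMap.mem_range_self f u) h3
  have hinj : Function.Injective f :=
    OrzechProperty.injective_of_surjective_endomorphism f hsurj
  let e := LinearEquiv.ofBijective f ⟨hinj, hsurj⟩
  refine ⟨e.symm.toLinearMap ∘ₗ G, fun u => ?_⟩
  rw [LinearMap.comp_apply, ← hf]
  exact e.symm_apply_apply u

variable [IsLocalRing T] (hφ : Function.Surjective φ) [IsDomain (κ ⊗[R] B)]

include hφ in
/-- A section with unit leading coefficient defines a relative divisor. -/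
theorem isRel_span_singleton {n : ℕ} (hn : P.m0 < n) {s : T ⊗[R] B}
    (hs : s ∈ (P.baseChange T).fil n) (hu : IsUnit ((P.baseChange T).lc n s)) :
    IsRel T (Ideal.span {s}) n := by
  have hne : sp B φ s ≠ 0 := by
    intro h0
    have h1 := P.lc_sp φ n s
    rw [h0, map_zero] at h1
    exact (hu.map φ).ne_zero h1.symm
  obtain ⟨r, hr⟩ := exists_retraction P φ hφ hne
  exact isRel_span_of_retraction (P.baseChange T) hn hs hu r hr

end Local

section Field

variable {K B : Type*} [Field K] [CommRing B] [Algebra K B] (P : PoleBasis K B) [IsDomain B]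

/-- Over a field, an element of exact pole order `n > m0` has codimension `n`. -/
theorem isRel_span_singleton_field {n : ℕ} (hn : P.m0 < n) {s : B}
    (hs : s ∈ P.fil n) (hu : P.lc n s ≠ 0) : IsRel K (Ideal.span {s}) n := by
  have hne : s ≠ 0 := by rintro rfl; exact hu (map_zero _)
  obtain ⟨r, hr⟩ := exists_retraction_field K P hne
  exact isRel_span_of_retraction P hn hs hu.isUnit r hr

end Field

end Fermat.Agent.HopfOrder
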