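import Fermat.Agent.MW.Descent
import Fermat.Agent.GaussVal.Field

/-!
# Rational structures on function fields: Galois descent and orthonormal rational bases
-/

set_option autoImplicit false
set_option linter.unusedSectionVars false

open ModularCurve AlgebraicCurve Module HahnSeries
open Fermat.Agent.GaussVal

namespace Fermat.Agent.HopfOrder

section LinInd

/-- Linear independence is preserved by extension of scalars. -/
lemma linInd_ext {κ₀ κ : Type*} [Field κ₀] [Field κ] [Algebra κ₀ κ] {X ι : Type*} [Fintype ι]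
    (w : ι → X → κ₀) (hw : ∀ c : ι → κ₀, (∀ n, ∑ i, c i * w i n = 0) → ∀ i, c i = 0)
    (c : ι → κ) (hc : ∀ n, ∑ i, c i * algebraMap κ₀ κ (w i n) = 0) (i : ι) : c i = 0 := by
  by_contra hne
  obtain ⟨φ, hφ⟩ : ∃ φ : κ →ₗ[κ₀] κ₀, φ (c i) ≠ 0 := by
    by_contra hcon
    push Not at hcon
    exact hne ((Module.forall_dual_apply_eq_zero_iff κ₀ (c i)).mp hcon)
  apply hφ
  apply hw (fun i => φ (c i))
  intro n
  have h1 := congrArg φ (hc n)
  rw [map_zero, _root_.map_sum] at h1
  rw [← h1]
  refine Finset.sum_congr rfl fun i _ => ?_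
  rw [mul_comm (c i), ← Algebra.smul_def, map_smul, smul_eq_mul, mul_comm]

end LinInd

section Span

variable {L : Type*} [Field L] [Algebra ℚ L] {F₀ : IntermediateField ℚ (LaurentSeries ℚ)}

lemma coe_smul_eq (r : ℚ) (x : F₀) :
    ((r • x : F₀) : LaurentSeries ℚ) = algebraMap ℚ (LaurentSeries ℚ) r * x := by
  rw [Algebra.smul_def, MulMemClass.coe_mul]
  congr 1
  exact (eq_ratCast (F₀.subtype.comp (algebraMap ℚ F₀)) r).trans
    (eq_ratCast (algebraMap ℚ (LaurentSeries ℚ)) r).symm

lemma coe_sum_eq {ι : Type*} (s : Finset ι) (f : ι → F₀) :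
    ((∑ i ∈ s, f i : F₀) : LaurentSeries ℚ) = ∑ i ∈ s, (f i : LaurentSeries ℚ) :=
  AddSubmonoidClass.coe_finsetSum _ _

lemma coeffEmb_algebraMap (r : ℚ) : coeffEmb L (algebraMap ℚ (LaurentSeries ℚ) r) =
    algebraMap L (LaurentSeries L) (algebraMap ℚ L r) := by
  rw [algebraMap_laurentSeries_eq_single, algebraMap_laurentSeries_eq_single, coeffEmb,
    coeffMap_single]

/-- The compositum is spanned by the rational elements. -/
theorem exists_sum_of_mem_baseChange [Algebra.IsAlgebraic ℚ L] {x : LaurentSeries L}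
    (hx : x ∈ laurentBaseChange L F₀) :
    ∃ (ι : Type) (_ : Fintype ι) (c : ι → L) (f : ι → F₀),
      x = ∑ i, algebraMap L (LaurentSeries L) (c i) * coeffEmb L (f i) := by
  let F' : Subfield (LaurentSeries L) := F₀.toSubfield.map (coeffEmb L)
  have hF' : ∀ y ∈ F₀, coeffEmb L y ∈ F' := fun y hy => ⟨y, hy, rfl⟩
  have halg : ∀ y ∈ Set.range (algebraMap L (LaurentSeries L)), IsAlgebraic F' y := by
    rintro _ ⟨c, rfl⟩
    have hc : IsIntegral ℚ c := Algebra.IsIntegral.isIntegral c
    apply IsIntegral.isAlgebraic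
    let f : ℚ →+* F' := (algebraMap L (LaurentSeries L)).comp (algebraMap ℚ L) |>.codRestrict F'
      (fun r => by
        rw [RingHom.comp_apply, ← coeffEmb_algebraMap]
        exact hF' _ (F₀.algebraMap_mem r))
    obtain ⟨p, hp, hp0⟩ := hc
    refine ⟨p.map f, hp.map f, ?_⟩
    rw [Polynomial.eval₂_map]
    have h1 : (algebraMap F' (LaurentSeries L)).comp f =
        (algebraMap L (LaurentSeries L)).comp (algebraMap ℚ L) := RingHom.ext fun r => rfl
    rw [h1, ← Polynomial.hom_eval₂, hp0, map_zero]
  have h1 : x ∈ IntermediateField.adjoin F' (Set.range (algebraMap L (LaurentSeries L))) := by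
    rw [mem_laurentBaseChange_iff] at hx
    have hle : Subfield.closure (Set.range (algebraMap L (LaurentSeries L)) ∪
          (⇑(coeffEmb L) '' (F₀ : Set (LaurentSeries ℚ)))) ≤
        (IntermediateField.adjoin F' (Set.range (algebraMap L (LaurentSeries L)))).toSubfield := by
      rw [Subfield.closure_le]
      rintro y (hy | ⟨z, hz, rfl⟩)
      · exact IntermediateField.subset_adjoin F' _ hy
      · exact (IntermediateField.adjoin F' _).algebraMap_mem ⟨_, hF' z hz⟩
    exact hle hx
  have h2 : x ∈ Algebra.adjoin F' (Set.range (algebraMap L (LaurentSeries L))) := by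
    rw [← IntermediateField.adjoin_toSubalgebra_of_isAlgebraic halg]
    exact h1
  clear h1 hx
  induction h2 using Algebra.adjoin_induction with
  | mem y hy =>
    obtain ⟨c, rfl⟩ := hy
    exact ⟨Unit, inferInstance, fun _ => c, fun _ => 1, by simp⟩
  | algebraMap y =>
    obtain ⟨_, z, hz, rfl⟩ := y
    refine ⟨Unit, inferInstance, fun _ => 1, fun _ => ⟨z, hz⟩, ?_⟩
    rw [Finset.sum_const, map_one, one_mul]
    simp
    rfl
  | add x y _ _ hx hy =>
    obtain ⟨ι, _, c, G, rfl⟩ := hx
    obtain ⟨κ, _, d, H, rfl⟩ := hy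
    refine ⟨ι ⊕ κ, inferInstance, Sum.elim c d, Sum.elim G H, ?_⟩
    rw [Fintype.sum_sum_type]
    rfl
  | mul x y _ _ hx hy =>
    obtain ⟨ι, _, c, G, rfl⟩ := hx
    obtain ⟨κ, _, d, H, rfl⟩ := hy
    refine ⟨ι × κ, inferInstance, fun p => c p.1 * d p.2, fun p => G p.1 * H p.2, ?_⟩
    rw [Finset.sum_mul_sum, Fintype.sum_prod_type]
    apply Finset.sum_congr rfl
    intro i _
    apply Finset.sum_congr rfl
    intro j _
    rw [MulMemClass.coe_mul, map_mul (algebraMap L (LaurentSeries L)), map_mul]
    ring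

/-- A basis of `F₀` stays a basis over `L`. -/
theorem exists_finsupp_of_mem_baseChange [Algebra.IsAlgebraic ℚ L] {J : Type*}
    (B : Basis J ℚ F₀) {x : LaurentSeries L} (hx : x ∈ laurentBaseChange L F₀) :
    ∃ c : J →₀ L, x = c.sum fun j a => algebraMap L (LaurentSeries L) a * coeffEmb L (B j) := by
  classical
  have h0 : ∀ j : J, algebraMap L (LaurentSeries L) 0 * coeffEmb L (B j) = 0 := fun j => by
    rw [map_zero, zero_mul]
  have hadd : ∀ (j : J) (a b : L), algebraMap L (LaurentSeries L) (a + b) * coeffEmb L (B j) =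
      algebraMap L (LaurentSeries L) a * coeffEmb L (B j) +
        algebraMap L (LaurentSeries L) b * coeffEmb L (B j) := fun j a b => by
    rw [map_add, add_mul]
  obtain ⟨ι, _, c, f, rfl⟩ := exists_sum_of_mem_baseChange hx
  clear hx
  have key : ∀ s : Finset ι, ∃ d : J →₀ L, ∑ i ∈ s, algebraMap L (LaurentSeries L) (c i) *
      coeffEmb L (f i) = d.sum fun j a => algebraMap L (LaurentSeries L) a * coeffEmb L (B j) := by
    intro s
    induction s using Finset.induction_on with
    | empty => exact ⟨0, by simp⟩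
    | insert i s hi ih =>
      obtain ⟨d, hd⟩ := ih
      refine ⟨(B.repr (f i)).mapRange (fun r => c i * algebraMap ℚ L r) (by simp) + d, ?_⟩
      rw [Finset.sum_insert hi, hd, Finsupp.sum_add_index' h0 hadd,
        Finsupp.sum_mapRange_index h0]
      congr 1
      have h1 : (f i : LaurentSeries ℚ) = (B.repr (f i)).sum fun j a =>
          algebraMap ℚ (LaurentSeries ℚ) a * B j := by
        have h2 := congrArg (fun z : F₀ => (z : LaurentSeries ℚ))
          (B.linearCombination_repr (f i))
        simp only [Finsupp.linearCombination_apply, Finsupp.sum] at h2 ⊢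
        rw [← h2, coe_sum_eq]
        exact Finset.sum_congr rfl fun j _ => coe_smul_eq _ _
      conv_lhs => rw [h1]
      rw [Finsupp.sum, _root_.map_sum, Finset.mul_sum, Finsupp.sum]
      refine Finset.sum_congr rfl fun j _ => ?_
      rw [map_mul, coeffEmb_algebraMap, map_mul, mul_assoc]
  exact key Finset.univ

/-- Independence over `L` of a basis of `F₀`. -/
theorem finsupp_unique {J : Type*} (B : Basis J ℚ F₀) {c d : J →₀ L}
    (h : (c.sum fun j a => algebraMap L (LaurentSeries L) a * coeffEmb L (B j)) =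
      d.sum fun j a => algebraMap L (LaurentSeries L) a * coeffEmb L (B j)) : c = d := by
  classical
  have h0 : ∀ j : J, algebraMap L (LaurentSeries L) 0 * coeffEmb L (B j) = 0 := fun j => by
    rw [map_zero, zero_mul]
  have hsub : ∀ (j : J) (a b : L), algebraMap L (LaurentSeries L) (a - b) * coeffEmb L (B j) =
      algebraMap L (LaurentSeries L) a * coeffEmb L (B j) -
        algebraMap L (LaurentSeries L) b * coeffEmb L (B j) := fun j a b => by
    rw [map_sub, sub_mul]
  rw [← sub_eq_zero]
  have h1 : ((c - d).sum fun j a => algebraMap L (LaurentSeries L) a * coeffEmb L (B j)) = 0 := by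
    rw [Finsupp.sum_sub_index hsub, h, sub_self]
  set e := c - d
  have h2 := linInd_ext (κ₀ := ℚ) (κ := L) (X := ℤ) (ι := e.support)
    (fun j n => (B j : LaurentSeries ℚ).coeff n) (fun a ha => by
      have h3 : LinearIndependent ℚ (fun j : e.support => B j) :=
        B.linearIndependent.comp _ Subtype.val_injective
      apply Fintype.linearIndependent_iff.mp h3 a
      apply Subtype.ext
      rw [coe_sum_eq]
      apply HahnSeries.ext
      funext n
      rw [HahnSeries.coeff_sum]
      refine Eq.trans ?_ (ha n)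
      refine Finset.sum_congr rfl fun i _ => ?_
      rw [coe_smul_eq, coeff_algebraMap_mul]) (fun j => e j) (fun n => by
      have h3 := congrArg (fun z : LaurentSeries L => z.coeff n) h1
      simp only [Finsupp.sum, HahnSeries.coeff_sum, HahnSeries.coeff_zero] at h3
      rw [← h3, ← Finset.sum_coe_sort e.support (fun i =>
        (algebraMap L (LaurentSeries L) (e i) * coeffEmb L (B i)).coeff n)]
      refine Finset.sum_congr rfl fun i _ => ?_
      rw [coeff_algebraMap_mul]
      rfl)
  ext j
  by_cases hj : j ∈ e.support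
  · exact h2 ⟨j, hj⟩
  · simpa using hj

end Span

section Fixed

variable {F₀ : IntermediateField ℚ (LaurentSeries ℚ)}

lemma exists_rat_of_fixed {c : AlgebraicClosure ℚ}
    (h : ∀ σ : AlgebraicClosure ℚ ≃ₐ[ℚ] AlgebraicClosure ℚ, σ c = c) :
    ∃ r : ℚ, algebraMap ℚ (AlgebraicClosure ℚ) r = c :=
  (InfiniteGalois.mem_range_algebraMap_iff_fixed c).mpr h

/-- Galois descent. -/
theorem exists_of_fixed {f : laurentBaseChange (AlgebraicClosure ℚ) F₀}
    (hf : ∀ σ : AlgebraicClosure ℚ ≃ₐ[ℚ] AlgebraicClosure ℚ, arithmeticGalois F₀ σ • f = f) :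
    ∃ g : F₀, coeffEmb (AlgebraicClosure ℚ) g = f := by
  classical
  let B := Basis.ofVectorSpace ℚ F₀
  obtain ⟨c, hc⟩ := exists_finsupp_of_mem_baseChange (L := AlgebraicClosure ℚ) B f.2
  have h1 : ∀ σ : AlgebraicClosure ℚ ≃ₐ[ℚ] AlgebraicClosure ℚ, ∀ j, σ (c j) = c j := by
    intro σ
    have h2 : (c.mapRange σ (map_zero σ)) = c := by
      apply finsupp_unique B
      rw [Finsupp.sum_mapRange_index (by intro j; rw [map_zero, zero_mul]), ← hc]
      have h3 := congrArg (fun z : laurentBaseChange (AlgebraicClosure ℚ) F₀ =>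
        (z : LaurentSeries (AlgebraicClosure ℚ))) (hf σ)
      simp only [coe_arithmeticGalois_smul] at h3
      rw [← h3]
      conv_rhs => rw [hc]
      rw [Finsupp.sum, Finsupp.sum, _root_.map_sum]
      refine Finset.sum_congr rfl fun j _ => ?_
      rw [map_mul, coeffMap_coeffEmb, coeffMap_algebraMap]
      rfl
    intro j
    have := DFunLike.congr_fun h2 j
    rwa [Finsupp.mapRange_apply] at this
  choose r hr using fun j => exists_rat_of_fixed (fun σ => h1 σ j)
  refine ⟨∑ j ∈ c.support, r j • B j, ?_⟩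
  rw [hc, Finsupp.sum, coe_sum_eq, _root_.map_sum]
  refine Finset.sum_congr rfl fun j _ => ?_
  rw [coe_smul_eq, map_mul, coeffEmb_algebraMap, hr]

end Fixed

end Fermat.Agent.HopfOrder
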