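import Fermat.Agent.HopfOrder.Model
import Fermat.Agent.FF.PolyClosure
import Fermat.Agent.FF.Extension

/-!
# The ring of functions regular away from one place
-/

set_option autoImplicit false
set_option linter.unusedSectionVars false

open AlgebraicCurve WithZero Module
open scoped TensorProduct
open Fermat.Agent.RR Fermat.Agent.FF Fermat.Agent.Deuring

namespace Fermat.Agent.HopfOrder

theorem isDedekindDomain_of_ringEquiv {A B : Type*} [CommRing A] [CommRing B] (e : A ≃+* B)
    [h : IsDedekindDomain A] : IsDedekindDomain B := by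
  have h1 : IsNoetherianRing B := isNoetherianRing_of_ringEquiv A e
  have h2 : Ring.DimensionLEOne B := Ring.DimensionLEOne.of_ringEquiv e.symm
  have h3 : IsIntegrallyClosed B := IsIntegrallyClosed.of_equiv e
  have h4 : IsDomain B := e.symm.toMulEquiv.isDomain A
  exact { h4, h1, h2, h3 with }

section

variable {K F : Type*} [Field K] [Field F] [Algebra K F] [IsFF K F] (P0 : Place K F)

attribute [local instance] nonempty_place finiteResidue

lemma mem_regRing_iff {f : F} :
    f ∈ regRing P0 ↔ ∀ v : Place K F, v ≠ P0 → f ∈ v.toValuationSubring := by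
  classical
  rcases eq_or_ne f 0 with rfl | hf
  · simp only [zero_mem, implies_true]
  constructor
  · rintro ⟨n, hn⟩ v hv
    rw [mem_iff_ord_nonneg v hf]
    have := (mem_L_iff hf).mp hn v
    rw [Finsupp.single_eq_of_ne hv] at this
    omega
  · intro h
    refine ⟨(-(P0.ord f)).toNat, ?_⟩
    rw [mem_L_iff hf]
    intro v
    by_cases hv : v = P0
    · subst hv
      rw [Finsupp.single_eq_same]
      omega
    · rw [Finsupp.single_eq_of_ne hv]
      have := (mem_iff_ord_nonneg v hf).mp (h v hv)
      omega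

lemma exists_integralClosure : ∃ y : F, Transcendental K y ∧
    ∀ f : F, f ∈ regRing P0 ↔ f ∈ integralClosure (Algebra.adjoin K {y}) F := by
  obtain ⟨z, hz, hzv⟩ := exists_single_zero (K := K) P0
  have hz0 : z ≠ 0 := by
    rintro rfl
    exact hz isAlgebraic_zero
  refine ⟨z⁻¹, transcendental_inv hz, fun f => ?_⟩
  rw [mem_regRing_iff, mem_integralClosure_adjoin_iff]
  have h : ∀ v : Place K F, z⁻¹ ∈ v.toValuationSubring ↔ v ≠ P0 := by
    intro v
    rw [mem_iff_ord_nonneg v (inv_ne_zero hz0), v.ord_inv, ← not_iff_not, not_not, ← hzv v]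
    omega
  simp only [h]

theorem isDedekindDomain_regRing : IsDedekindDomain (regRing P0) := by
  obtain ⟨y, hy, h⟩ := exists_integralClosure P0
  have := isDedekindDomain_integralClosure_adjoin (K := K) hy
  let e : integralClosure (Algebra.adjoin K {y}) F ≃+* regRing P0 :=
    { toFun := fun x => ⟨x, (h x).mpr x.2⟩
      invFun := fun x => ⟨x, (h x).mp x.2⟩
      left_inv := fun x => rfl
      right_inv := fun x => rfl
      map_mul' := fun x y => rfl
      map_add' := fun x y => rfl }
  exact isDedekindDomain_of_ringEquiv e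

end

section BC

variable {K F : Type*} [Field K] [Field F] [Algebra K F] [IsFF K F] [IsAlgClosed K]
  (P0 : Place K F)

attribute [local instance] nonempty_place finiteResidue

/-- The evaluation homomorphism. -/
noncomputable def evHom {R B : Type*} [CommRing R] [CommRing B] [Algebra R B]
    [Algebra R K] [Algebra R F] [IsScalarTower R K F] (θ : B →ₐ[R] F) : K ⊗[R] B →ₐ[K] F :=
  Algebra.TensorProduct.lift (Algebra.ofId K F) θ (fun _ _ => Commute.all _ _)

omit [IsFF K F] [IsAlgClosed K] in
lemma evHom_tmul {R B : Type*} [CommRing R] [CommRing B] [Algebra R B]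
    [Algebra R K] [Algebra R F] [IsScalarTower R K F] (θ : B →ₐ[R] F) (c : K) (b : B) :
    evHom θ (c ⊗ₜ b) = c • θ b := by
  rw [evHom, Algebra.TensorProduct.lift_tmul, Algebra.ofId_apply, ← Algebra.smul_def]

/-- The evaluation homomorphism identifies the base change with the ring of regular functions. -/
structure IsBC {R B : Type*} [CommRing R] [CommRing B] [Algebra R B] (P : PoleBasis R B)
    [Algebra R K] (ev : K ⊗[R] B →ₐ[K] F) : Prop where
  mem : ∀ z, ev z ∈ regRing P0
  inj : Function.Injective ev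
  surj : ∀ f ∈ regRing P0, ∃ z, ev z = f
  fil : ∀ n, P.m0 ≤ n → ∀ z, z ∈ (P.baseChange K).fil n ↔ ev z ∈ LL P0 n

/-- Base change of a pole basis to a field, given a surjectivity statement. -/
theorem isBC {R B : Type*} [CommRing R] [CommRing B] [Algebra R B] (P : PoleBasis R B)
    [Algebra R K] [Algebra R F] [IsScalarTower R K F] (θ : B →ₐ[R] F) (hP : P.g = genusFF K F)
    (hm : 2 * genusFF K F ≤ P.m0)
    (hθ : ∀ n, P.m0 ≤ n → ∀ b ∈ P.fil n, θ b ∈ LL P0 n)
    (hs : ∀ n, P.m0 ≤ n → LL P0 n ≤ Submodule.span K (θ '' (P.fil n : Set B))) :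
    IsBC P0 P (evHom (K := K) θ) := by
  classical
  set ev : K ⊗[R] B →ₐ[K] F := evHom θ with hevdef
  have hev : ∀ c b, ev (c ⊗ₜ b) = c • θ b := evHom_tmul θ
  have hg := P.hg
  -- image of the filtration
  have hle : ∀ n, P.m0 ≤ n → ((P.baseChange K).fil n).map ev.toLinearMap ≤ LL P0 n := by
    intro n hn
    rw [PoleBasis.fil, Submodule.map_span, Submodule.span_le]
    rintro _ ⟨_, ⟨i, hi, rfl⟩, rfl⟩
    rw [AlgHom.toLinearMap_apply, PoleBasis.baseChange_b, PoleBasis.bas_apply, hev, one_smul]
    exact hθ n hn _ (P.b_mem_fil hi)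
  have hge : ∀ n, P.m0 ≤ n → LL P0 n ≤ ((P.baseChange K).fil n).map ev.toLinearMap := by
    intro n hn
    refine (hs n hn).trans ?_
    rw [Submodule.span_le]
    rintro _ ⟨b, hb, rfl⟩
    refine ⟨1 ⊗ₜ b, ?_, ?_⟩
    · exact P.tmul_mem_span hb 1
    · rw [AlgHom.toLinearMap_apply, hev, one_smul]
  have hrank : ∀ n, P.m0 ≤ n → finrank K ((P.baseChange K).fil n) = finrank K (LL P0 n) := by
    intro n hn
    rw [(P.baseChange K).finrank_fil, PoleBasis.baseChange_g, hP]
    have := finrank_LL P0 (n := n) (by omega)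
    omega
  have hinj : Function.Injective ev := by
    rw [injective_iff_map_eq_zero]
    intro z hz
    obtain ⟨n, hn, hzn⟩ := (P.baseChange K).exists_mem_fil z
    rw [PoleBasis.baseChange_m0] at hn
    let f : (P.baseChange K).fil n →ₗ[K] LL P0 n :=
      (ev.toLinearMap ∘ₗ ((P.baseChange K).fil n).subtype).codRestrict _
        (fun x => hle n hn ⟨x, x.2, rfl⟩)
    have hf : Function.Surjective f := by
      rintro ⟨y, hy⟩
      obtain ⟨x, hx, hxy⟩ := hge n hn hy
      exact ⟨⟨x, hx⟩, Subtype.ext hxy⟩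
    have hf' : Function.Injective f :=
      (LinearMap.injective_iff_surjective_of_finrank_eq_finrank (hrank n hn)).mpr hf
    have : (⟨z, hzn⟩ : (P.baseChange K).fil n) = 0 := by
      apply hf'
      rw [map_zero]
      exact Subtype.ext hz
    exact congrArg Subtype.val this
  refine ⟨fun z => ?_, hinj, ?_, fun n hn z => ⟨fun hz => ?_, fun hz => ?_⟩⟩
  · obtain ⟨n, hn, hzn⟩ := (P.baseChange K).exists_mem_fil z
    exact ⟨n, hle n hn ⟨z, hzn, rfl⟩⟩
  · rintro y ⟨n, hy⟩
    have hy' : y ∈ LL P0 (n + P.m0) := LL_mono P0 (by omega) hy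
    obtain ⟨x, hx, hxy⟩ := hge (n + P.m0) (by omega) hy'
    exact ⟨x, hxy⟩
  · exact hle n hn ⟨z, hz, rfl⟩
  · obtain ⟨x, hx, hxy⟩ := hge n hn hz
    have : x = z := hinj hxy
    rwa [← this]

/-- The base change is a Dedekind domain. -/
theorem IsBC.isDedekindDomain {R B : Type*} [CommRing R] [CommRing B] [Algebra R B]
    {P : PoleBasis R B} [Algebra R K] {ev : K ⊗[R] B →ₐ[K] F} (h : IsBC P0 P ev) :
    IsDedekindDomain (K ⊗[R] B) := by
  let ev' : K ⊗[R] B →ₐ[K] regRing P0 := ev.codRestrict _ h.mem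
  have hbij : Function.Bijective ev' := by
    constructor
    · intro x y hxy
      exact h.inj (congrArg Subtype.val hxy)
    · rintro ⟨y, hy⟩
      obtain ⟨x, hx⟩ := h.surj y hy
      exact ⟨x, Subtype.ext hx⟩
  have := isDedekindDomain_regRing P0
  exact isDedekindDomain_of_ringEquiv (AlgEquiv.ofBijective ev' hbij).symm.toRingEquiv

end BC

end Fermat.Agent.HopfOrder
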