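import Fermat.Agent.HopfOrder.PoleBasis

/-!
# Relative divisors

A relative divisor of degree `d` over `T` is an ideal `J` of a `T`-algebra `C` with `C ⧸ J` free of
rank `d` over `T`.
-/

set_option autoImplicit false

open scoped TensorProduct

namespace Fermat.Agent.HopfOrder

open PoleBasis

/-- A relative divisor of degree `d`. -/
def IsRel (T : Type*) {C : Type*} [CommRing T] [CommRing C] [Algebra T C] (J : Ideal C) (d : ℕ) :
    Prop := Nonempty ((C ⧸ J) ≃ₗ[T] (Fin d → T))

section General

variable {T C : Type*} [CommRing T] [CommRing C] [Algebra T C] {J J' : Ideal C} {d d' : ℕ}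

lemma IsRel.exists_coord (h : IsRel T J d) : ∃ π : C →ₗ[T] (Fin d → T), Function.Surjective π ∧
    ∀ x, x ∈ J ↔ π x = 0 := by
  obtain ⟨e⟩ := h
  refine ⟨e.toLinearMap ∘ₗ (Ideal.Quotient.mkₐ T J).toLinearMap, ?_, ?_⟩
  · exact e.surjective.comp Ideal.Quotient.mk_surjective
  · intro x
    simp [Ideal.Quotient.eq_zero_iff_mem]

lemma isRel_of_coord (π : C →ₗ[T] (Fin d → T)) (hs : Function.Surjective π)
    (hk : ∀ x, x ∈ J ↔ π x = 0) : IsRel T J d := by
  let f : (C ⧸ J) →ₗ[T] (Fin d → T) := (Submodule.liftQ (J.restrictScalars T) π (by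
    intro x hx; exact (hk x).mp hx))
  refine ⟨LinearEquiv.ofBijective f ⟨?_, ?_⟩⟩
  · rw [injective_iff_map_eq_zero]
    intro a ha
    obtain ⟨x, rfl⟩ := Ideal.Quotient.mk_surjective a
    exact Ideal.Quotient.eq_zero_iff_mem.mpr ((hk x).mpr ha)
  · intro y
    obtain ⟨x, rfl⟩ := hs y
    exact ⟨Ideal.Quotient.mk J x, rfl⟩

lemma isRel_of_module {M : Type*} [AddCommGroup M] [Module T M] [Module.Free T M]
    [Module.Finite T M] [Nontrivial T] (π : C →ₗ[T] M) (hs : Function.Surjective π)
    (hk : ∀ x, x ∈ J ↔ π x = 0) : IsRel T J (Module.finrank T M) := by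
  let e := (Module.finBasis T M).equivFun
  refine isRel_of_coord (e.toLinearMap ∘ₗ π) (e.surjective.comp hs) fun x => ?_
  rw [hk x]
  simp

lemma IsRel.finite (h : IsRel T J d) : Module.Finite T (C ⧸ J) := by
  obtain ⟨e⟩ := h
  exact Module.Finite.equiv e.symm

lemma IsRel.free (h : IsRel T J d) : Module.Free T (C ⧸ J) := by
  obtain ⟨e⟩ := h
  exact Module.Free.of_equiv e.symm

lemma IsRel.finrank [Nontrivial T] (h : IsRel T J d) : Module.finrank T (C ⧸ J) = d := by
  obtain ⟨e⟩ := h
  rw [e.finrank_eq]; simp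

lemma isRel_iff_finrank {K : Type*} [Field K] [Algebra K C] :
    IsRel K J d ↔ Module.Finite K (C ⧸ J) ∧ Module.finrank K (C ⧸ J) = d := by
  constructor
  · exact fun h => ⟨h.finite, h.finrank⟩
  · rintro ⟨h1, rfl⟩
    exact ⟨(Module.finBasis K (C ⧸ J)).equivFun⟩

/-- Two relative divisors, one contained in the other, of the same degree are equal. -/
lemma IsRel.eq_of_le [Nontrivial T] (h : IsRel T J d) (h' : IsRel T J' d') (hd : d ≤ d')
    (hle : J ≤ J') : J = J' := by
  apply le_antisymm hle
  have := h.finite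
  have := h.free
  have := h'.finite
  have := h'.free
  have hbij := OrzechProperty.bijective_of_surjective_of_finrank_le (R := T)
    (Ideal.Quotient.factorₐ T hle).toLinearMap (Ideal.Quotient.factor_surjective hle)
    (by rw [h.finrank, h'.finrank]; exact hd)
  intro x hx
  rw [← Ideal.Quotient.eq_zero_iff_mem]
  apply hbij.1
  rw [map_zero]
  exact Ideal.Quotient.eq_zero_iff_mem.mpr hx

/-- Product of comaximal relative divisors. -/
lemma IsRel.mul (h : IsRel T J d) (h' : IsRel T J' d') (hc : J ⊔ J' = ⊤) :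
    IsRel T (J * J') (d + d') := by
  obtain ⟨π, hπs, hπk⟩ := h.exists_coord
  obtain ⟨π', hπs', hπk'⟩ := h'.exists_coord
  have hinf : J * J' = J ⊓ J' := Ideal.mul_eq_inf_of_coprime hc
  let e : ((Fin d → T) × (Fin d' → T)) ≃ₗ[T] (Fin (d + d') → T) :=
    (LinearEquiv.sumArrowLequivProdArrow (Fin d) (Fin d') T T).symm.trans
      (LinearEquiv.funCongrLeft T T finSumFinEquiv.symm)
  refine isRel_of_coord (e.toLinearMap ∘ₗ (π.prod π')) (e.surjective.comp ?_) fun x => ?_
  · rintro ⟨a, b⟩
    obtain ⟨x, rfl⟩ := hπs a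
    obtain ⟨y, rfl⟩ := hπs' b
    have h1 : x - y ∈ J ⊔ J' := by rw [hc]; trivial
    obtain ⟨u, hu, v, hv, huv⟩ := Submodule.mem_sup.mp h1
    refine ⟨x - u, ?_⟩
    have h2 : x - u = y + v := by rw [sub_eq_iff_eq_add]; rw [add_assoc, add_comm v u, huv]; ring
    have h3 : π (x - u) = π x := by rw [map_sub, (hπk u).mp hu, sub_zero]
    have h4 : π' (x - u) = π' y := by rw [h2, map_add, (hπk' v).mp hv, add_zero]
    change (π (x - u), π' (x - u)) = _
    rw [h3, h4]
  · rw [hinf, Submodule.mem_inf, hπk, hπk']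
    simp

end General

section Field

variable {K C : Type*} [Field K] [CommRing C] [Algebra K C] {J : Ideal C}

end Field

section BaseChange

variable {R B : Type*} [CommRing R] [CommRing B] [Algebra R B] (P : PoleBasis R B)
variable {T T' : Type*} [CommRing T] [Algebra R T] [CommRing T'] [Algebra R T']
  (φ : T →ₐ[R] T') {J J' : Ideal (T ⊗[R] B)} {d d' : ℕ}

/-- The ideal generated by the image of an ideal is spanned by the image of the ideal. -/
lemma mem_span_of_mem_map {z : T' ⊗[R] B} (hz : z ∈ J.map (sp B φ)) :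
    z ∈ Submodule.span T' ((sp B φ) '' (J : Set (T ⊗[R] B))) := by
  rw [Ideal.map] at hz
  induction hz using Submodule.span_induction with
  | mem y hy => exact Submodule.subset_span hy
  | zero => exact zero_mem _
  | add y z _ _ hy hz => exact add_mem hy hz
  | smul a y h' hy =>
    clear h'
    rw [smul_eq_mul]
    induction a with
    | zero => rw [zero_mul]; exact zero_mem _
    | tmul t b =>
      induction hy using Submodule.span_induction with
      | mem z hz =>
        obtain ⟨z, hz, rfl⟩ := hz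
        have : (t ⊗ₜ[R] b) * sp B φ z = t • sp B φ ((1 ⊗ₜ b) * z) := by
          rw [map_mul, sp_tmul, map_one, ← smul_mul_assoc, TensorProduct.smul_tmul',
            smul_eq_mul, mul_one]
        rw [this]
        exact Submodule.smul_mem _ _ (Submodule.subset_span ⟨_, J.mul_mem_left _ hz, rfl⟩)
      | zero => rw [mul_zero]; exact zero_mem _
      | add y z _ _ hy hz => rw [mul_add]; exact add_mem hy hz
      | smul a y _ hy => rw [mul_smul_comm]; exact Submodule.smul_mem _ _ hy
    | add a b ha hb => rw [add_mul]; exact add_mem ha hb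

include P in
/-- Base change of coordinates. -/
lemma exists_coord_baseChange (π : T ⊗[R] B →ₗ[T] (Fin d → T)) (hπs : Function.Surjective π)
    (hπk : ∀ x, x ∈ J ↔ π x = 0) : ∃ π' : T' ⊗[R] B →ₗ[T'] (Fin d → T'),
      Function.Surjective π' ∧ (∀ x, x ∈ J.map (sp B φ) ↔ π' x = 0) ∧
      ∀ x i, π' (sp B φ x) i = φ (π x i) := by
  let π' : T' ⊗[R] B →ₗ[T'] (Fin d → T') :=
    (P.bas T').constr T' (fun k => fun i => φ (π (P.bas T k) i))
  have key : ∀ x i, π' (sp B φ x) i = φ (π x i) := by
    intro x i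
    have h1 : sp B φ x = Finsupp.linearCombination T' (P.bas T')
        ((P.bas T').repr (sp B φ x)) := ((P.bas T').linearCombination_repr _).symm
    have h2 : x = Finsupp.linearCombination T (P.bas T) ((P.bas T).repr x) :=
      ((P.bas T).linearCombination_repr _).symm
    have hsub : ((P.bas T').repr (sp B φ x)).support ⊆ ((P.bas T).repr x).support := by
      intro k hk
      rw [Finsupp.mem_support_iff] at hk ⊢
      intro h0
      exact hk (by rw [P.repr_sp, h0, map_zero])
    rw [h1]
    conv_rhs => rw [h2]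
    rw [Finsupp.linearCombination_apply, Finsupp.linearCombination_apply,
      Finsupp.sum_of_support_subset _ hsub _ (by simp), Finsupp.sum, map_sum, map_sum,
      Finset.sum_apply, Finset.sum_apply, map_sum]
    refine Finset.sum_congr rfl fun k _ => ?_
    rw [map_smul, map_smul, Pi.smul_apply, Pi.smul_apply, smul_eq_mul, smul_eq_mul, map_mul,
      P.repr_sp]
    congr 1
    simp [π', Module.Basis.constr_basis]
  choose e he using fun i : Fin d => hπs (Pi.single i 1)
  have hsurj : Function.Surjective π' := by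
    intro y
    refine ⟨∑ i, y i • sp B φ (e i), ?_⟩
    funext j
    rw [map_sum, Finset.sum_apply]
    simp only [map_smul, Pi.smul_apply, key, he, smul_eq_mul]
    rw [Finset.sum_eq_single j]
    · simp
    · intro k _ hk
      rw [Pi.single_eq_of_ne hk.symm]; simp
    · simp
  have hkill : ∀ z ∈ J.map (sp B φ), π' z = 0 := by
    intro z hz
    have hz' := mem_span_of_mem_map φ hz
    clear hz
    induction hz' using Submodule.span_induction with
    | mem y hy =>
      obtain ⟨y, hy, rfl⟩ := hy
      funext i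
      rw [key, (hπk y).mp hy]
      simp
    | zero => exact map_zero _
    | add y z _ _ hy hz => rw [map_add, hy, hz, add_zero]
    | smul a y _ hy => rw [map_smul, hy, smul_zero]
  refine ⟨π', hsurj, fun x => ⟨fun hx => hkill x hx, fun hx => ?_⟩, key⟩
  -- every element is congruent to a combination of the `sp (e i)`
  have hgen : ∀ x : T' ⊗[R] B, ∃ c : Fin d → T', x - ∑ i, c i • sp B φ (e i) ∈
      J.map (sp B φ) := by
    intro x
    induction x with
    | zero => exact ⟨0, by simp⟩
    | tmul t b =>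
      refine ⟨fun i => t * φ (π (1 ⊗ₜ b) i), ?_⟩
      have hj : (1 ⊗ₜ[R] b : T ⊗[R] B) - ∑ i, π (1 ⊗ₜ b) i • e i ∈ J := by
        rw [hπk, map_sub, map_sum]
        funext j
        simp only [map_smul, he, Pi.sub_apply, Finset.sum_apply, Pi.smul_apply, smul_eq_mul,
          Pi.zero_apply]
        rw [Finset.sum_eq_single j]
        · simp
        · intro k _ hk
          rw [Pi.single_eq_of_ne hk.symm]; simp
        · simp
      have hj' := (J.map (sp B φ)).mul_mem_left (t ⊗ₜ[R] 1) (Ideal.mem_map_of_mem (sp B φ) hj)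
      convert hj' using 1
      rw [map_sub, sp_tmul, map_one, mul_sub, Algebra.TensorProduct.tmul_mul_tmul, mul_one,
        one_mul, map_sum, Finset.mul_sum]
      congr 1
      refine Finset.sum_congr rfl fun i _ => ?_
      rw [sp_smul, mul_smul]
      have : ∀ z : T' ⊗[R] B, t • z = (t ⊗ₜ[R] 1) * z := fun z => by
        rw [Algebra.smul_def]; rfl
      rw [this]
    | add x y hx hy =>
      obtain ⟨c, hc⟩ := hx
      obtain ⟨c', hc'⟩ := hy
      refine ⟨c + c', ?_⟩
      have := add_mem hc hc'
      convert this using 1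
      simp only [Pi.add_apply, add_smul, Finset.sum_add_distrib]
      ring
  obtain ⟨c, hc⟩ := hgen x
  have hcz : c = 0 := by
    have h0 := hkill _ hc
    rw [map_sub, hx, zero_sub, neg_eq_zero, map_sum] at h0
    funext j
    have h1 := congrFun h0 j
    rw [Finset.sum_apply] at h1
    simp only [map_smul, Pi.smul_apply, key, he, smul_eq_mul, Pi.zero_apply] at h1
    rw [Finset.sum_eq_single j] at h1
    · simpa using h1
    · intro k _ hk
      rw [Pi.single_eq_of_ne hk.symm]; simp
    · simp
  rw [hcz] at hc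
  simpa using hc

include P in
lemma IsRel.baseChange (h : IsRel T J d) : IsRel T' (J.map (sp B φ)) d := by
  obtain ⟨π, hs, hk⟩ := h.exists_coord
  obtain ⟨π', hs', hk', -⟩ := exists_coord_baseChange P φ π hs hk
  exact isRel_of_coord π' hs' hk'

variable (hφ : Function.Surjective φ) (hker : RingHom.ker φ.toRingHom ≤ (⊥ : Ideal T).jacobson)

include P hker in
/-- Nakayama: a submodule containing `J` which is everything after specialisation is
everything. -/
lemma eq_top_of_sp [Module.Finite T (T ⊗[R] B ⧸ J)] (N : Submodule T (T ⊗[R] B))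
    (hJ : J.restrictScalars T ≤ N) (h : ∀ x : T ⊗[R] B, ∃ y ∈ N, sp B φ x = sp B φ y) :
    N = ⊤ := by
  let q : (T ⊗[R] B) →ₗ[T] (T ⊗[R] B ⧸ J) := (Ideal.Quotient.mkₐ T J).toLinearMap
  have hq : Function.Surjective q := Ideal.Quotient.mk_surjective
  have h1 : (⊤ : Submodule T (T ⊗[R] B ⧸ J)) ≤ N.map q := by
    apply Submodule.le_of_le_smul_of_le_jacobson_bot Module.Finite.fg_top hker
    intro z _
    obtain ⟨x, rfl⟩ := hq z
    obtain ⟨y, hy, hxy⟩ := h x
    have h2 : sp B φ (x - y) = 0 := by rw [map_sub, hxy, sub_self]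
    have h3 := P.mem_smul_top_of_sp_eq_zero φ h2
    have h4 : q (x - y) ∈ (RingHom.ker φ.toRingHom) • (⊤ : Submodule T (T ⊗[R] B ⧸ J)) := by
      have := Submodule.mem_map_of_mem (f := q) h3
      rw [Submodule.map_smul''] at this
      exact Submodule.smul_mono le_rfl le_top this
    have h5 : q x = q y + q (x - y) := by rw [← map_add]; congr 1; ring
    rw [h5]
    exact Submodule.add_mem_sup (Submodule.mem_map_of_mem hy) h4
  rw [eq_top_iff]
  intro x _
  obtain ⟨y, hy, hxy⟩ := h1 (Submodule.mem_top (x := q x))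
  have h6 : x - y ∈ J := by
    rw [← Ideal.Quotient.eq]
    exact hxy.symm
  have := N.add_mem (hJ h6) hy
  simpa using this

include P hφ hker in
/-- Comaximality can be checked after specialisation. -/
lemma sup_eq_top_of_sp (hJ : IsRel T J d) (h : J.map (sp B φ) ⊔ J'.map (sp B φ) = ⊤) :
    J ⊔ J' = ⊤ := by
  have := hJ.finite
  have h1 := eq_top_of_sp P φ hker (J := J) ((J ⊔ J').restrictScalars T)
    (fun x hx => Ideal.mem_sup_left hx) (fun x => by
      have h2 : sp B φ x ∈ (J ⊔ J').map (sp B φ) := by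
        rw [Ideal.map_sup, h]; trivial
      obtain ⟨y, hy, hxy⟩ := (Ideal.mem_map_iff_of_surjective _ (sp_surjective φ hφ)).mp h2
      exact ⟨y, hy, hxy.symm⟩)
  rw [Ideal.eq_top_iff_one]
  have : (1 : T ⊗[R] B) ∈ (J ⊔ J').restrictScalars T := by rw [h1]; trivial
  exact this

include hφ hker in
/-- Lifting of sections vanishing on a relative divisor. -/
lemma exists_lift_mem (hJ : IsRel T J d) (n : ℕ)
    (hn : ∀ y : T' ⊗[R] B, ∃ z ∈ (P.baseChange T').fil n, y - z ∈ J.map (sp B φ))
    {s : T' ⊗[R] B} (hs : s ∈ (P.baseChange T').fil n) (hsJ : s ∈ J.map (sp B φ)) :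
    ∃ s' ∈ (P.baseChange T).fil n, s' ∈ J ∧ sp B φ s' = s := by
  have := hJ.finite
  -- `fil n` surjects onto the quotient
  have htop : (P.baseChange T).fil n ⊔ J.restrictScalars T = ⊤ := by
    refine eq_top_of_sp P φ hker (J := J) _ le_sup_right fun x => ?_
    obtain ⟨z, hz, hxz⟩ := hn (sp B φ x)
    obtain ⟨z', hz', rfl⟩ := P.exists_fil_lift φ hφ hz
    obtain ⟨j, hj, hjx⟩ := (Ideal.mem_map_iff_of_surjective _ (sp_surjective φ hφ)).mp hxz
    refine ⟨z' + j, Submodule.add_mem_sup hz' hj, ?_⟩
    rw [map_add, hjx]; ring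
  obtain ⟨s0, hs0, rfl⟩ := P.exists_fil_lift φ hφ hs
  obtain ⟨j, hj, hjs⟩ := (Ideal.mem_map_iff_of_surjective _ (sp_surjective φ hφ)).mp hsJ
  have h1 : sp B φ (s0 - j) = 0 := by rw [map_sub, hjs, sub_self]
  have h2 := P.mem_smul_top_of_sp_eq_zero φ h1
  rw [← htop, Submodule.smul_sup] at h2
  obtain ⟨y, hy, w, hw, hyw⟩ := Submodule.mem_sup.mp h2
  have hwJ : w ∈ J := (Submodule.smul_le_right : _ ≤ J.restrictScalars T) hw
  have hyf : y ∈ (P.baseChange T).fil n := Submodule.smul_le_right hy
  refine ⟨s0 - y, sub_mem hs0 hyf, ?_, ?_⟩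
  · have : s0 - y = j + w := by rw [sub_eq_iff_eq_add, add_assoc, add_comm w y, hyw]; ring
    rw [this]
    exact add_mem hj hwJ
  · rw [map_sub, sub_eq_self]
    -- `y` has coefficients in the kernel
    refine Submodule.smul_induction_on hy ?_ ?_
    · intro r hr x _
      rw [sp_smul]
      have : φ r = 0 := hr
      rw [this, zero_smul]
    · intro a b ha hb
      rw [map_add, ha, hb, add_zero]

end BaseChange

end Fermat.Agent.HopfOrder
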