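import Fermat.Agent.HopfOrder.Principal

/-!
# Residual divisors

Over a local ring, if a principal relative divisor contains a relative divisor `J` and the residual
divisor of the closed fibre is disjoint from `J`, then the residual divisor exists.
-/

set_option autoImplicit false

open scoped TensorProduct

namespace Fermat.Agent.HopfOrder

open PoleBasis

section General

variable {T C : Type*} [CommRing T] [CommRing C] [Algebra T C] {J : Ideal C} {d : ℕ}

/-- A relative divisor is a direct summand. -/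
lemma IsRel.exists_proj (h : IsRel T J d) : ∃ p : C →ₗ[T] C, (∀ x, p x ∈ J) ∧
    (∀ x ∈ J, p x = x) := by
  obtain ⟨π, hs, hk⟩ := h.exists_coord
  obtain ⟨σ, hσ⟩ := Module.projective_lifting_property π LinearMap.id hs
  refine ⟨LinearMap.id - σ ∘ₗ π, fun x => ?_, fun x hx => ?_⟩
  · rw [hk, LinearMap.sub_apply, map_sub, LinearMap.comp_apply]
    have := LinearMap.congr_fun hσ (π x)
    rw [LinearMap.comp_apply] at this
    rw [this]; simp
  · rw [LinearMap.sub_apply, LinearMap.comp_apply, (hk x).mp hx]; simp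

/-- Idempotent trick. -/
lemma exists_residual_aux {s : C} {n : ℕ} (hJ : IsRel T J d) (hs : IsRel T (Ideal.span {s}) n)
    (hsJ : s ∈ J) (hidem : J ≤ J * J ⊔ Ideal.span {s}) :
    ∃ r : C, r - 1 ∈ J ∧ ∀ x ∈ J, r * x ∈ Ideal.span {s} := by
  obtain ⟨p, hp, hp'⟩ := hJ.exists_proj
  have hfin := hs.finite
  let C0 := C ⧸ Ideal.span {s}
  let mk : C →ₗ[T] C0 := (Ideal.Quotient.mkₐ T (Ideal.span {s})).toLinearMap
  have hmk : ∀ x, mk x = Ideal.Quotient.mk (Ideal.span {s}) x := fun _ => rfl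
  let p0 : C0 →ₗ[T] C0 := Submodule.liftQ ((Ideal.span {s}).restrictScalars T) (mk ∘ₗ p) (by
    intro x hx
    have hx' : x ∈ Ideal.span {s} := hx
    rw [LinearMap.mem_ker, LinearMap.comp_apply,
      hp' x ((Ideal.span_singleton_le_iff_mem J).mpr hsJ hx'), hmk]
    exact Ideal.Quotient.eq_zero_iff_mem.mpr hx')
  have hp0 : ∀ x, p0 (mk x) = mk (p x) := fun x => rfl
  let JJ : Ideal C0 := J.map (Ideal.Quotient.mk (Ideal.span {s}))
  have hJJ : ∀ y, y ∈ JJ ↔ ∃ x ∈ J, mk x = y := fun y =>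
    Ideal.mem_map_iff_of_surjective _ Ideal.Quotient.mk_surjective
  have hFG : JJ.FG := by
    apply Submodule.FG.of_restrictScalars T
    have : JJ.restrictScalars T = LinearMap.range p0 := by
      ext y
      constructor
      · intro hy
        obtain ⟨x, hx, rfl⟩ := (hJJ y).mp hy
        exact ⟨mk x, by rw [hp0, hp' x hx]⟩
      · rintro ⟨y, rfl⟩
        obtain ⟨x, rfl⟩ := Ideal.Quotient.mk_surjective y
        exact (hJJ _).mpr ⟨p x, hp x, rfl⟩
    rw [this, LinearMap.range_eq_map]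
    exact Module.Finite.fg_top.map p0
  have hle : JJ ≤ JJ • JJ := by
    intro y hy
    obtain ⟨x, hx, rfl⟩ := (hJJ y).mp hy
    obtain ⟨a, ha, b, hb, hab⟩ := Submodule.mem_sup.mp (hidem hx)
    have h1 : mk x = mk a := by
      rw [← hab, map_add, hmk b, Ideal.Quotient.eq_zero_iff_mem.mpr hb, add_zero]
    rw [h1, smul_eq_mul, ← Ideal.map_mul]
    exact Ideal.mem_map_of_mem _ ha
  obtain ⟨r, hr, hr'⟩ := Submodule.exists_sub_one_mem_and_smul_eq_zero_of_fg_of_le_smul JJ JJ hFG hle
  obtain ⟨r, rfl⟩ := Ideal.Quotient.mk_surjective r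
  obtain ⟨x, hx, hxr⟩ := (hJJ _).mp hr
  have h2 : r - 1 - x ∈ Ideal.span {s} := by
    rw [← Ideal.Quotient.eq_zero_iff_mem, map_sub, ← hmk x, hxr]
    simp
  refine ⟨r, ?_, fun y hy => ?_⟩
  · have := J.add_mem ((Ideal.span_singleton_le_iff_mem J).mpr hsJ h2) hx
    simpa using this
  · rw [← Ideal.Quotient.eq_zero_iff_mem, map_mul]
    exact hr' _ ((hJJ _).mpr ⟨y, hy, rfl⟩)

/-- The residual divisor, from the idempotent. -/
lemma exists_residual_of_idem [IsLocalRing T] {s : C} {n : ℕ} (hJ : IsRel T J d)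
    (hs : IsRel T (Ideal.span {s}) n) (hsJ : s ∈ J) (hidem : J ≤ J * J ⊔ Ideal.span {s}) :
    ∃ (J' : Ideal C) (d' : ℕ), d + d' = n ∧ IsRel T J' d' ∧ J * J' = Ideal.span {s} ∧
      J ⊔ J' = ⊤ := by
  obtain ⟨r, hr1, hr⟩ := exists_residual_aux hJ hs hsJ hidem
  obtain ⟨J', hJ'def⟩ : ∃ J' : Ideal C, J' = Ideal.span {s, r} := ⟨_, rfl⟩
  have hrJ' : r ∈ J' := by rw [hJ'def]; exact Ideal.subset_span (by simp)
  have hsJ' : s ∈ J' := by rw [hJ'def]; exact Ideal.subset_span (by simp)
  have hcop : J ⊔ J' = ⊤ := by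
    rw [Ideal.eq_top_iff_one]
    have : (1 : C) = -(r - 1) + r := by ring
    rw [this]
    exact Submodule.add_mem_sup (J.neg_mem hr1) hrJ'
  have hmul : J * J' = Ideal.span {s} := by
    apply le_antisymm
    · rw [Ideal.mul_le]
      intro x hx y hy
      rw [hJ'def, Ideal.mem_span_pair] at hy
      obtain ⟨a, b, rfl⟩ := hy
      rw [mul_add]
      refine add_mem ?_ ?_
      · exact Ideal.mem_span_singleton'.mpr ⟨x * a, by ring⟩
      · have := (Ideal.span {s}).mul_mem_left b (hr x hx)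
        convert this using 1; ring
    · rw [Ideal.mul_eq_inf_of_coprime hcop, Ideal.span_singleton_le_iff_mem]
      exact ⟨hsJ, hsJ'⟩
  -- the quotient is projective
  have hfin := hs.finite
  have hfree := hs.free
  let q : (C ⧸ Ideal.span {s}) →ₗ[T] (C ⧸ J') :=
    (Ideal.Quotient.factorₐ T ((Ideal.span_singleton_le_iff_mem J').mpr hsJ')).toLinearMap
  have hq : ∀ x, q (Ideal.Quotient.mk _ x) = Ideal.Quotient.mk _ x := fun _ => rfl
  have hqs : Function.Surjective q :=
    Ideal.Quotient.factor_surjective ((Ideal.span_singleton_le_iff_mem J').mpr hsJ')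
  let i : (C ⧸ J') →ₗ[T] (C ⧸ Ideal.span {s}) :=
    Submodule.liftQ (J'.restrictScalars T)
      ((Ideal.Quotient.mkₐ T (Ideal.span {s})).toLinearMap ∘ₗ LinearMap.mulLeft T (1 - r)) (by
        intro x hx
        have hx' : x ∈ J' := hx
        rw [LinearMap.mem_ker]
        change Ideal.Quotient.mk _ ((1 - r) * x) = 0
        rw [Ideal.Quotient.eq_zero_iff_mem, ← hmul]
        apply Ideal.mul_mem_mul _ hx'
        have := J.neg_mem hr1
        convert this using 1; ring)
  have hi : ∀ x, i (Ideal.Quotient.mk _ x) = Ideal.Quotient.mk _ ((1 - r) * x) := fun _ => rfl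
  have hqi : q ∘ₗ i = LinearMap.id := by
    refine LinearMap.ext fun x => ?_
    obtain ⟨x, rfl⟩ := Ideal.Quotient.mk_surjective x
    rw [LinearMap.comp_apply, hi, hq, LinearMap.id_apply, Ideal.Quotient.eq]
    have := J'.mul_mem_right (-x) hrJ'
    convert this using 1; ring
  have : Module.Finite T (C ⧸ J') := Module.Finite.of_surjective q hqs
  have : Module.Projective T (C ⧸ J') := Module.Projective.of_split i q hqi
  have : Module.Flat T (C ⧸ J') := Module.Flat.of_projective
  have : Module.Free T (C ⧸ J') := Module.free_of_flat_of_isLocalRing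
  have hJ' : IsRel T J' (Module.finrank T (C ⧸ J')) := ⟨(Module.finBasis T (C ⧸ J')).equivFun⟩
  refine ⟨J', _, ?_, hJ', hmul, hcop⟩
  have h1 := hJ.mul hJ' hcop
  rw [hmul] at h1
  rw [← h1.finrank, hs.finrank]

end General

section Local

variable {R B : Type*} [CommRing R] [CommRing B] [Algebra R B] (P : PoleBasis R B)
variable {T κ : Type*} [CommRing T] [Algebra R T] [Field κ] [Algebra R κ]
  (φ : T →ₐ[R] κ) (hφ : Function.Surjective φ) {J : Ideal (T ⊗[R] B)} {d : ℕ}

include P in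
/-- The kernel of specialisation intersects a relative divisor in `𝔪 J`. -/
lemma mem_smul_of_sp_eq_zero (hJ : IsRel T J d) {x : T ⊗[R] B} (hx : x ∈ J)
    (h : sp B φ x = 0) : x ∈ (RingHom.ker φ.toRingHom) • J.restrictScalars T := by
  obtain ⟨p, hp, hp'⟩ := hJ.exists_proj
  have h1 := P.mem_smul_top_of_sp_eq_zero φ h
  have h2 := Submodule.mem_map_of_mem (f := p) h1
  rw [Submodule.map_smul'', hp' x hx] at h2
  refine Submodule.smul_mono le_rfl ?_ h2
  rintro _ ⟨y, _, rfl⟩
  exact hp y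

include P hφ in
/-- Existence of residual divisors over local rings. -/
theorem exists_residual [IsLocalRing T] (hJ : IsRel T J d) {s : T ⊗[R] B} {n : ℕ}
    (hs : IsRel T (Ideal.span {s}) n) (hsJ : s ∈ J) (Jκ : Ideal (κ ⊗[R] B))
    (h1 : J.map (sp B φ) * Jκ = Ideal.span {sp B φ s}) (h2 : J.map (sp B φ) ⊔ Jκ = ⊤) :
    ∃ (J' : Ideal (T ⊗[R] B)) (d' : ℕ), d + d' = n ∧ IsRel T J' d' ∧ J * J' = Ideal.span {s} ∧
      J ⊔ J' = ⊤ ∧ J'.map (sp B φ) = Jκ := by
  have hker : RingHom.ker φ.toRingHom ≤ (⊥ : Ideal T).jacobson := by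
    rw [IsLocalRing.jacobson_eq_maximalIdeal ⊥ bot_ne_top]
    exact IsLocalRing.le_maximalIdeal (RingHom.ker_ne_top _)
  have hsurj := sp_surjective (B := B) φ hφ
  -- the idempotent property
  have hidem : J ≤ J * J ⊔ Ideal.span {s} := by
    obtain ⟨p, hp, hp'⟩ := hJ.exists_proj
    -- work in the quotient by `s`, which is a finite module
    have hfin := hs.finite
    let mk : (T ⊗[R] B) →ₗ[T] (T ⊗[R] B ⧸ Ideal.span {s}) :=
      (Ideal.Quotient.mkₐ T (Ideal.span {s})).toLinearMap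
    have hmk : ∀ x, mk x = Ideal.Quotient.mk (Ideal.span {s}) x := fun _ => rfl
    have hFG : ((J.restrictScalars T).map mk).FG := by
      let p0 : (T ⊗[R] B ⧸ Ideal.span {s}) →ₗ[T] (T ⊗[R] B ⧸ Ideal.span {s}) :=
        Submodule.liftQ ((Ideal.span {s}).restrictScalars T) (mk ∘ₗ p) (by
        intro x hx
        have hx' : x ∈ Ideal.span {s} := hx
        rw [LinearMap.mem_ker, LinearMap.comp_apply,
          hp' x ((Ideal.span_singleton_le_iff_mem J).mpr hsJ hx'), hmk]
        exact Ideal.Quotient.eq_zero_iff_mem.mpr hx')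
      have hp0 : ∀ x, p0 (mk x) = mk (p x) := fun x => rfl
      have : (J.restrictScalars T).map mk = LinearMap.range p0 := by
        ext y
        constructor
        · rintro ⟨x, hx, rfl⟩
          exact ⟨mk x, by rw [hp0, hp' x hx]⟩
        · rintro ⟨y, rfl⟩
          obtain ⟨x, rfl⟩ := Ideal.Quotient.mk_surjective y
          exact ⟨p x, hp x, rfl⟩
      rw [this, LinearMap.range_eq_map]
      exact Module.Finite.fg_top.map p0
    have hle : (J.restrictScalars T).map mk ≤ ((J * J).restrictScalars T).map mk := by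
      apply Submodule.le_of_le_smul_of_le_jacobson_bot hFG hker
      rintro _ ⟨j, hj, rfl⟩
      have hj' : j ∈ J := hj
      have h3 : sp B φ j ∈ (J * J ⊔ Ideal.span {s}).map (sp B φ) := by
        have h4 : sp B φ j ∈ J.map (sp B φ) := Ideal.mem_map_of_mem _ hj'
        have h5 : J.map (sp B φ) = J.map (sp B φ) * (J.map (sp B φ) ⊔ Jκ) := by
          rw [h2, Ideal.mul_top]
        rw [h5, Ideal.mul_sup, h1] at h4
        rw [Ideal.map_sup, Ideal.map_mul, Ideal.map_span, Set.image_singleton]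
        exact h4
      obtain ⟨y, hy, hyj⟩ := (Ideal.mem_map_iff_of_surjective _ hsurj).mp h3
      obtain ⟨a, ha, b, hb, hab⟩ := Submodule.mem_sup.mp hy
      have hyJ : y ∈ J := by
        rw [← hab]
        exact J.add_mem (Ideal.mul_le_left ha) ((Ideal.span_singleton_le_iff_mem J).mpr hsJ hb)
      have h6 : j - y ∈ (RingHom.ker φ.toRingHom) • J.restrictScalars T :=
        mem_smul_of_sp_eq_zero P φ hJ (J.sub_mem hj' hyJ) (by rw [map_sub, hyj, sub_self])
      have h7 : mk j = mk a + mk (j - y) := by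
        rw [map_sub, ← hab, map_add, hmk b, Ideal.Quotient.eq_zero_iff_mem.mpr hb]
        ring
      rw [h7]
      refine Submodule.add_mem_sup ⟨a, ha, rfl⟩ ?_
      have := Submodule.mem_map_of_mem (f := mk) h6
      rwa [Submodule.map_smul''] at this
    intro j hj
    obtain ⟨a, ha, haj⟩ := hle ⟨j, hj, rfl⟩
    have h8 : j - a ∈ Ideal.span {s} := by
      rw [← Ideal.Quotient.eq]; exact haj.symm
    have := Submodule.add_mem_sup (S := J * J) ha h8
    simpa using this
  obtain ⟨J', d', hd, hJ', hmul, hcop⟩ := exists_residual_of_idem hJ hs hsJ hidem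
  refine ⟨J', d', hd, hJ', hmul, hcop, ?_⟩
  have h3 : J.map (sp B φ) * J'.map (sp B φ) = Ideal.span {sp B φ s} := by
    rw [← Ideal.map_mul, hmul, Ideal.map_span, Set.image_singleton]
  have h4 : J.map (sp B φ) ⊔ J'.map (sp B φ) = ⊤ := by
    rw [← Ideal.map_sup, hcop, Ideal.map_top]
  apply le_antisymm
  · calc J'.map (sp B φ) = J'.map (sp B φ) * (J.map (sp B φ) ⊔ Jκ) := by rw [h2, Ideal.mul_top]
      _ = J.map (sp B φ) * Jκ ⊔ J'.map (sp B φ) * Jκ := by
        rw [Ideal.mul_sup, mul_comm, h3, h1]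
      _ ≤ Jκ := sup_le Ideal.mul_le_right Ideal.mul_le_right
  · calc Jκ = Jκ * (J.map (sp B φ) ⊔ J'.map (sp B φ)) := by rw [h4, Ideal.mul_top]
      _ = J.map (sp B φ) * J'.map (sp B φ) ⊔ Jκ * J'.map (sp B φ) := by
        rw [Ideal.mul_sup, mul_comm Jκ (J.map _), h3, h1]
      _ ≤ J'.map (sp B φ) := sup_le Ideal.mul_le_right Ideal.mul_le_right

end Local

end Fermat.Agent.HopfOrder
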