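import Fermat.Agent.HopfOrder.Key

/-!
# Linear equivalence and specialisation over a valuation ring
-/

set_option autoImplicit false

open scoped TensorProduct

namespace Fermat.Agent.HopfOrder

open PoleBasis

section Lin

variable {D : Type*} [CommRing D]

/-- Linear equivalence of ideals. -/
def Lin (J J' : Ideal D) : Prop :=
  ∃ α β : D, α ≠ 0 ∧ β ≠ 0 ∧ Ideal.span {α} * J = Ideal.span {β} * J'

lemma Lin.refl [Nontrivial D] (J : Ideal D) : Lin J J := ⟨1, 1, one_ne_zero, one_ne_zero, rfl⟩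

lemma Lin.symm {J J' : Ideal D} (h : Lin J J') : Lin J' J := by
  obtain ⟨α, β, hα, hβ, h⟩ := h
  exact ⟨β, α, hβ, hα, h.symm⟩

lemma Lin.trans [IsDomain D] {J J' J'' : Ideal D} (h : Lin J J') (h' : Lin J' J'') :
    Lin J J'' := by
  obtain ⟨α, β, hα, hβ, h⟩ := h
  obtain ⟨α', β', hα', hβ', h'⟩ := h'
  refine ⟨α' * α, β * β', mul_ne_zero hα' hα, mul_ne_zero hβ hβ', ?_⟩
  rw [← Ideal.span_singleton_mul_span_singleton, mul_assoc, h, ← mul_assoc,
    mul_comm (Ideal.span {α'}), mul_assoc, h', ← mul_assoc, Ideal.span_singleton_mul_span_singleton]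

lemma Lin.mul_left {J J' : Ideal D} (X : Ideal D) (h : Lin J J') : Lin (X * J) (X * J') := by
  obtain ⟨α, β, hα, hβ, h⟩ := h
  exact ⟨α, β, hα, hβ, by rw [mul_left_comm, h, mul_left_comm]⟩

lemma Lin.mul_right {J J' : Ideal D} (X : Ideal D) (h : Lin J J') : Lin (J * X) (J' * X) := by
  rw [mul_comm J, mul_comm J']; exact h.mul_left X

lemma Lin.cancel_left [IsDedekindDomain D] {X J J' : Ideal D} (hX : X ≠ ⊥)
    (h : Lin (X * J) (X * J')) : Lin J J' := by
  obtain ⟨α, β, hα, hβ, h⟩ := h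
  refine ⟨α, β, hα, hβ, mul_left_cancel₀ (a := X) hX ?_⟩
  rw [mul_left_comm, h, mul_left_comm]

/-- Two complementary divisors of principal divisors. -/
lemma Lin.of_principal {J J' E : Ideal D} {s s' : D} (hs : s ≠ 0) (hs' : s' ≠ 0)
    (h : J * E = Ideal.span {s}) (h' : J' * E = Ideal.span {s'}) : Lin J J' := by
  refine ⟨s', s, hs', hs, ?_⟩
  rw [← h, ← h']; ring

lemma Lin.exists_principal [IsDedekindDomain D] {J J' E : Ideal D} {s : D} (hs : s ≠ 0)
    (hJ : Lin J J') (h : J * E = Ideal.span {s}) : ∃ u, u ≠ 0 ∧ J' * E = Ideal.span {u} := by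
  obtain ⟨α, β, hα, hβ, hab⟩ := hJ
  have h1 : Ideal.span {α * s} = Ideal.span {β} * (J' * E) := by
    rw [← Ideal.span_singleton_mul_span_singleton, ← h, ← mul_assoc, hab, mul_assoc]
  have h2 : α * s ∈ Ideal.span {β} * (J' * E) := by
    rw [← h1]; exact Ideal.mem_span_singleton_self _
  obtain ⟨u, hu, hβu⟩ := Ideal.mem_span_singleton_mul.mp h2
  have hne : (Ideal.span {β} : Ideal D) ≠ ⊥ := by rwa [Ne, Ideal.span_singleton_eq_bot]
  refine ⟨u, ?_, ?_⟩
  · rintro rfl
    rw [mul_zero] at hβu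
    exact mul_ne_zero hα hs hβu.symm
  · apply mul_left_cancel₀ (a := Ideal.span {β}) hne
    rw [← h1, Ideal.span_singleton_mul_span_singleton, hβu]

end Lin

section Map

variable {R B : Type*} [CommRing R] [CommRing B] [Algebra R B]
variable {T T' T'' : Type*} [CommRing T] [Algebra R T] [CommRing T'] [Algebra R T'] [CommRing T'']
  [Algebra R T''] (φ : T →ₐ[R] T') (ψ : T' →ₐ[R] T'')

lemma map_map_sp (J : Ideal (T ⊗[R] B)) :
    (J.map (sp B φ)).map (sp B ψ) = J.map (sp B (ψ.comp φ)) := by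
  apply le_antisymm
  · rw [Ideal.map_le_iff_le_comap, Ideal.map_le_iff_le_comap]
    intro x hx
    change sp B ψ (sp B φ x) ∈ J.map (sp B (ψ.comp φ))
    rw [sp_comp]
    exact Ideal.mem_map_of_mem _ hx
  · rw [Ideal.map_le_iff_le_comap]
    intro x hx
    change sp B (ψ.comp φ) x ∈ (J.map (sp B φ)).map (sp B ψ)
    rw [← sp_comp]
    exact Ideal.mem_map_of_mem _ (Ideal.mem_map_of_mem _ hx)

lemma map_span_sp (s : T ⊗[R] B) :
    (Ideal.span {s}).map (sp B φ) = Ideal.span {sp B φ s} := by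
  rw [Ideal.map_span, Set.image_singleton]

end Map

section Val

variable {R B : Type*} [CommRing R] [CommRing B] [Algebra R B] (P : PoleBasis R B)
variable {K : Type*} [Field K] [Algebra R K] (A : ValuationSubring K) [Algebra R A]
  [IsScalarTower R A K]
variable {k : Type*} [Field k] [Algebra R k] (π : A →ₐ[R] k)

/-- The inclusion of the valuation ring. -/
abbrev incl : A →ₐ[R] K := IsScalarTower.toAlgHom R A K

include P in
/-- Every nonzero element of the generic fibre is a multiple of a primitive element. -/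
lemma exists_primitive {u : K ⊗[R] B} (hu : u ≠ 0) :
    ∃ (c : K) (v : A ⊗[R] B), c ≠ 0 ∧ sp B (incl A) v = c • u ∧ sp B π v ≠ 0 := by
  classical
  let f := (P.bas K).repr u
  have hf : f ≠ 0 := by
    intro h
    exact hu ((P.bas K).repr.map_eq_zero_iff.mp h)
  have hne : f.support.Nonempty := Finsupp.support_nonempty_iff.mpr hf
  obtain ⟨j, hj, hmax⟩ := f.support.exists_max_image (fun i => A.valuation (f i)) hne
  have hj0 : f j ≠ 0 := Finsupp.mem_support_iff.mp hj
  have hmem : ∀ i, (f j)⁻¹ * f i ∈ A := by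
    intro i
    rw [← A.valuation_le_one_iff, map_mul, map_inv₀]
    by_cases hi : i ∈ f.support
    · have h1 := hmax i hi
      have h2 : A.valuation (f j) ≠ 0 := (A.valuation.ne_zero_iff).mpr hj0
      rw [inv_mul_le_iff₀ (zero_lt_iff.mpr h2), mul_one]
      exact h1
    · rw [Finsupp.notMem_support_iff.mp hi, map_zero, mul_zero]
      exact zero_le_one
  let a : ℕ → A := fun i => ⟨(f j)⁻¹ * f i, hmem i⟩
  let v : A ⊗[R] B := ∑ i ∈ f.support, a i • P.bas A i
  have hv : ∀ i, (P.bas A).repr v i = a i := by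
    intro i
    simp only [v, map_sum, map_smul, Module.Basis.repr_self, Finsupp.coe_finsetSum, Finset.sum_apply,
      Finsupp.smul_apply, Finsupp.single_apply, smul_eq_mul, mul_ite, mul_one, mul_zero]
    by_cases hi : i ∈ f.support
    · rw [Finset.sum_eq_single i]
      · simp
      · intro b _ hb; rw [if_neg hb]
      · intro h; exact absurd hi h
    · rw [Finset.sum_eq_zero]
      · apply Subtype.ext
        simp [a, Finsupp.notMem_support_iff.mp hi]
      · intro b hb
        rw [if_neg]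
        rintro rfl
        exact hi hb
  refine ⟨(f j)⁻¹, v, inv_ne_zero hj0, ?_, ?_⟩
  · apply (P.bas K).repr.injective
    ext i
    rw [P.repr_sp, hv, map_smul, Finsupp.smul_apply]
    rfl
  · intro h0
    have h1 := P.repr_sp π v j
    rw [h0, map_zero, Finsupp.zero_apply, hv] at h1
    have h2 : a j = 1 := Subtype.ext (inv_mul_cancel₀ hj0)
    rw [h2, map_one] at h1
    exact zero_ne_one h1

lemma incl_injective : Function.Injective (incl (R := R) A) := by
  intro a b h; exact Subtype.ext h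

include P in
/-- Relative divisors over the valuation ring are saturated. -/
lemma mem_of_sp_mem {J : Ideal (A ⊗[R] B)} {d : ℕ} (hJ : IsRel A J d) {x : A ⊗[R] B}
    (hx : sp B (incl A) x ∈ J.map (sp B (incl A))) : x ∈ J := by
  obtain ⟨p, hs, hk⟩ := hJ.exists_coord
  obtain ⟨p', hs', hk', hc⟩ := exists_coord_baseChange P (incl A) p hs hk
  rw [hk]
  funext i
  apply incl_injective (R := R) A
  rw [← hc, (hk' _).mp hx]
  simp

/-- Specialisation of linear equivalences. -/
theorem lin_special (hπ : Function.Surjective π) [IsDedekindDomain (k ⊗[R] B)]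
    [IsDedekindDomain (K ⊗[R] B)] [Infinite k] {J Q I3 : Ideal (A ⊗[R] B)} {dJ dQ : ℕ}
    (hJ : IsRel A J dJ) (hQ : IsRel A Q dQ) (hI : IsRel A I3 P.g)
    (hcop : Q.map (sp B π) ⊔ I3.map (sp B π) = ⊤)
    (hlin : Lin (J.map (sp B (incl A))) (Q.map (sp B (incl A)) * I3.map (sp B (incl A)))) :
    Lin (J.map (sp B π)) (Q.map (sp B π) * I3.map (sp B π)) := by
  have hker := ker_le_jacobson π
  let Pk := P.baseChange k
  have hJk : IsRel k (J.map (sp B π)) dJ := hJ.baseChange P π
  have hQk : IsRel k (Q.map (sp B π)) dQ := hQ.baseChange P π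
  have hIk : IsRel k (I3.map (sp B π)) P.g := hI.baseChange P π
  have hJ0 := hJk.ne_bot Pk
  have hQ0 := hQk.ne_bot Pk
  have hD0 := hIk.ne_bot Pk
  have hprod : J.map (sp B π) * Q.map (sp B π) * I3.map (sp B π) ≠ ⊥ :=
    mul_ne_zero (mul_ne_zero hJ0 hQ0) hD0
  obtain ⟨N0, hN0⟩ := exists_generic Pk hJ0 hprod
  obtain ⟨n0, hn0⟩ := exists_fil_sup Pk hJk
  let n := N0 + n0 + P.m0 + dJ + P.m0 + 2
  obtain ⟨sb, hsb, hsbl, D, hD, hDc⟩ := hN0 n (by omega)
  have hDJ : J.map (sp B π) ⊔ D = ⊤ := by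
    rw [eq_top_iff, ← hDc]
    exact sup_le le_sup_right ((Ideal.mul_le_left.trans Ideal.mul_le_left).trans le_sup_left)
  have hDQ : D ⊔ Q.map (sp B π) = ⊤ := by
    rw [eq_top_iff, ← hDc]
    exact sup_le le_sup_left ((Ideal.mul_le_left.trans Ideal.mul_le_right).trans le_sup_right)
  have hDD : D ⊔ I3.map (sp B π) = ⊤ := by
    rw [eq_top_iff, ← hDc]
    exact sup_le le_sup_left (Ideal.mul_le_right.trans le_sup_right)
  have hsbJ : sb ∈ J.map (sp B π) := by
    have : sb ∈ J.map (sp B π) * D := by rw [hD]; exact Ideal.mem_span_singleton_self _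
    exact Ideal.mul_le_left this
  obtain ⟨s, hs, hsJ, rfl⟩ := exists_lift_mem P π hπ hker hJ n (hn0 n (by omega)) hsb hsbJ
  have hsl : IsUnit ((P.baseChange A).lc n s) := by
    apply isUnit_of_map_ne_zero π hπ
    rw [← P.lc_sp]; exact hsbl
  have hsrel : IsRel A (Ideal.span {s}) n := isRel_span_singleton P π hπ (by omega) hs hsl
  obtain ⟨D', d', hdd, hD', hJD', -, hD'm⟩ := exists_residual P π hπ hJ hsrel hsJ D hD hDJ
  have hD'Q : D' ⊔ Q = ⊤ := by
    apply sup_eq_top_of_sp P π hπ hker hD'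
    rw [hD'm]; exact hDQ
  have hE : IsRel A (D' * Q) (d' + dQ) := hD'.mul hQ hD'Q
  have hEm : (D' * Q).map (sp B π) = D * Q.map (sp B π) := by rw [Ideal.map_mul, hD'm]
  have hEI : D' * Q ⊔ I3 = ⊤ := by
    apply sup_eq_top_of_sp P π hπ hker hE
    rw [hEm]
    exact sup_mul_eq_top hDD hcop
  have hW : IsRel A (D' * Q * I3) (d' + dQ + P.g) := hE.mul hI hEI
  -- over the generic fibre it is principal
  have hsK : sp B (incl A) s ≠ 0 := by
    have := (hsrel.baseChange P (incl A)).ne_bot (P.baseChange K)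
    rw [map_span_sp, Ne, Ideal.span_singleton_eq_bot] at this
    exact this
  obtain ⟨u, hu0, hu⟩ := hlin.exists_principal (E := D'.map (sp B (incl A)))
    (s := sp B (incl A) s) hsK (by rw [← Ideal.map_mul, hJD', map_span_sp])
  have hu' : (D' * Q * I3).map (sp B (incl A)) = Ideal.span {u} := by
    rw [Ideal.map_mul, Ideal.map_mul, ← hu]; ring
  have hurel : IsRel K (Ideal.span {u}) (d' + dQ + P.g) := hu' ▸ hW.baseChange P (incl A)
  have hn' : P.m0 < d' + dQ + P.g := by
    have : P.m0 < d' := by omega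
    omega
  have hun : u ∈ (P.baseChange K).fil (d' + dQ + P.g) :=
    mem_fil_of_degree_le (P.baseChange K) hn'.le hurel le_rfl
  obtain ⟨c, v, hc, hv, hv0⟩ := exists_primitive P A π hu0
  -- `v` lies in `D' Q I3`
  have hvW : v ∈ D' * Q * I3 := by
    apply mem_of_sp_mem P A hW
    rw [hv, hu', Algebra.smul_def]
    exact Ideal.mul_mem_left _ _ (Ideal.mem_span_singleton_self u)
  have hvn : v ∈ (P.baseChange A).fil (d' + dQ + P.g) := by
    rw [mem_fil]
    intro i hi
    apply incl_injective (R := R) A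
    rw [map_zero, baseChange_b, ← P.repr_sp, hv, map_smul, Finsupp.smul_apply]
    rw [mem_fil] at hun
    have := hun i hi
    rw [baseChange_b] at this
    rw [this, smul_zero]
  -- specialise
  have hWk : IsRel k ((D' * Q * I3).map (sp B π)) (d' + dQ + P.g) := hW.baseChange P π
  have hvk : sp B π v ∈ (D' * Q * I3).map (sp B π) := Ideal.mem_map_of_mem _ hvW
  obtain ⟨dv, hdv⟩ := exists_isRel Pk (span_ne_bot hv0)
  have hdle : dv ≤ d' + dQ + P.g :=
    degree_le_of_mem_fil Pk hn'.le hv0 (P.sp_mem_fil π hvn) hdv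
  have heq : Ideal.span {sp B π v} = (D' * Q * I3).map (sp B π) :=
    hdv.eq_of_le hWk hdle ((Ideal.span_singleton_le_iff_mem _).mpr hvk)
  have hsk : sp B π s ≠ 0 := by
    have := (hsrel.baseChange P π).ne_bot Pk
    rw [map_span_sp, Ne, Ideal.span_singleton_eq_bot] at this
    exact this
  refine Lin.of_principal (E := D) (s := sp B π s) (s' := sp B π v) hsk hv0 hD ?_
  rw [heq, Ideal.map_mul, hEm]; ring

end Val

end Fermat.Agent.HopfOrder
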